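/-
GATE-F (S44) / RULING-9 (1) (helper13 7113; helper62): **the `c₀`-parametric Artin–Schreier + Krull
input `ASK T h c₀` of the modular per-place theorem** (`NlAllOfHyps.nlAll_of_hyps`), at a VARIABLE
level `L`: a raw Artin–Schreier form `T.g₀ = u ^ p · (1 + (ζ − 1) ^ p · g1)` with `u g1` `K′`-rational
and `g1` satisfying helper60's `KrullUp.KrullData` at the `j~`-value `c₀` (so `g1` has no pole over
`c₀`; `KrullData.mem1 / mem2` are the integrality of `g1` at the two Gauss valuations).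

`χ := T.prim.autToPow ℚ` (the mod `p` cyclotomic character, as in helper40's `HintKrullSrc`).

* `ASK T h c₀`, `ask_iff` (unfolding lemma, `Iff.rfl`).
-/
import Fermat.Agent.GF.KCover.ASNode.KrullUp
import Fermat.Agent.GF.KCover.Field.WDataOf

set_option autoImplicit false
set_option linter.unusedSectionVars false

noncomputable section

namespace Fermat.Agent.GF.KCover.NodeMod.ASKDef

open ModularCurve
open Fermat.Agent.GJ.KumGroup Fermat.Agent.GK.AL
open Fermat.Agent.GF.F2Asm.Inst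
open Fermat.Agent.GF.KCover.Field.WDataOf
open Fermat.Agent.GF.KCover.ASNode.KrullUp

local notation "Qb" => AlgebraicClosure ℚ

attribute [local instance] actFK

variable {L : ℕ} [NeZero L] {p : ℕ} [hpF : Fact p.Prime] {A : ValuationSubring Qb} {ζ : Qb}

/-- **the Artin–Schreier + Krull input at the `j~`-value `c₀`** (RULING-9 (1)). -/
def ASK (T : TameDatum L p A ζ) {q : ℕ} (h : ExactDvd q L) (c₀ : IsLocalRing.ResidueField A) :
    Prop :=
  ∃ u g1 : FK L, u ≠ 0 ∧ u ∈ F₁ L A ζ ∧ g1 ∈ F₁ L A ζ ∧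
    T.g₀ = u ^ p * (1 + algebraMap Qb (FK L) ((ζ - 1) ^ p) * g1) ∧
    KrullData A L h (T.prim.autToPow ℚ) c₀ g1

theorem ask_iff (T : TameDatum L p A ζ) {q : ℕ} (h : ExactDvd q L)
    (c₀ : IsLocalRing.ResidueField A) :
    ASK T h c₀ ↔ ∃ u g1 : FK L, u ≠ 0 ∧ u ∈ F₁ L A ζ ∧ g1 ∈ F₁ L A ζ ∧
      T.g₀ = u ^ p * (1 + algebraMap Qb (FK L) ((ζ - 1) ^ p) * g1) ∧
      KrullData A L h (T.prim.autToPow ℚ) c₀ g1 :=
  Iff.rfl

end Fermat.Agent.GF.KCover.NodeMod.ASKDef

end
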