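/-
GATE-F (S44) / GF-KCOVER-NODEMOD-HHOR (M-f), file 1 (helper57): **the horizontal binder `hhor` of
`SheetAsm.nl0_of_sheets` / `PkgAsm.nl0_of_pkg` / `NlNode.nl_node_abs` from `p`-divisibility of the
orders AWAY FROM THE POLES OF ONE FUNCTION `J`** (abstract frame; Mathlib + `HorizSub`).

Frame of `HorizSub.exists_unit_mul_pow_of_dvd_ord` (helper84), with the constant field entering
through a ring hom `c0 : Kc →+* K0` (no `Algebra Kc K0` instance is asked): `K0` the field of the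
`K₀`-rational functions of the cover, `ι : K0 →+* F` its inclusion in the function field `F / K̄`
of the cover, `J : F` a function (`j` on the cover) which is the image of an element of `K0` lying
in `V`.  The hypothesis on `u` is the membership clause of `UsInst.Us` / `UsGroup.Us`:

  `∀ P : Place K̄ F, J ∈ P.toValuationSubring → (m : ℤ) ∣ P.ord (ι u)`.

* `exists_unit_mul_pow_of_regular` : ONE discrete valuation ring `V ⊇ c0 Kc` of `K0` with
  `jm ∈ V`, `ι jm = J` ⟹ `∃ z ≠ 0, u z ^ m ∈ Vˣ`;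
* `const_mem_of_inv_mem` : `R ⊆ V`, `ℓ⁻¹ ∈ V`, `c ℓ ^ n ∈ R` ⟹ `c ∈ V` (the constants are in `V`
  as soon as the uniformiser of the base is invertible in `V`: `V` is HORIZONTAL);
* `hhor_of_regular` : the binder in the `S`-shape of `PkgAsm.nl0_of_pkg` / `NlNode.nl_node_abs`
  (`∀ V, IsDiscreteValuationRing V → (∀ r : R, algebraMap R K0 r ∈ V) → (algebraMap R K0 ℓ)⁻¹ ∈ V → …`);
* **`hhor_sheet`** : the binder `hhor` of `SheetAsm.nl0_of_sheets` (and `_typeI`) VERBATIM.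
-/
import Fermat.Agent.GF.KCover.Node.HorizSub

set_option autoImplicit false
set_option linter.unusedSectionVars false
set_option linter.unusedVariables false
set_option linter.style.haveILetI false

noncomputable section

namespace Fermat.Agent.GF.KCover.NodeMod.HhorAbs

open IsLocalRing AlgebraicCurve
open Fermat.Agent.S24 Fermat.Agent.GL.Frame.ConstUnram
open Fermat.Agent.GF.KCover.Node

variable {Kc Kb K0 F : Type*} [Field Kc] [CharZero Kc] [Field Kb] [Algebra Kc Kb]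
  [Algebra.IsAlgebraic Kc Kb] [Field K0] [Field F] [Algebra Kb F]
  (ι : K0 →+* F) (c0 : Kc →+* K0)
  (hι : ∀ a : Kc, ι (c0 a) = algebraMap Kb F (algebraMap Kc Kb a))
  (hgen : ∀ y : F, ∃ a ∈ compositum Kb ι, ∃ b ∈ compositum Kb ι, b ≠ 0 ∧ y * b = a)

include hι hgen in
/-- **`hhor` at ONE horizontal discrete valuation ring `V` at which `J` is regular**, from the
`p`-divisibility of the orders of `ι u` at the places where `J` is regular. -/
theorem exists_unit_mul_pow_of_regular (x : F) [IsGen Kb x] (V : ValuationSubring K0)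
    [IsDiscreteValuationRing V] (hKV : ∀ c : Kc, c0 c ∈ V) (J : F) (jm : K0) (hjm : ι jm = J)
    (hjV : jm ∈ V) (m : ℕ) (u : K0) (hu0 : u ≠ 0)
    (hu : ∀ P : Place Kb F, J ∈ P.toValuationSubring → (m : ℤ) ∣ P.ord (ι u)) :
    ∃ z : K0, z ≠ 0 ∧ u * z ^ m ∈ V ∧ (u * z ^ m)⁻¹ ∈ V := by
  letI : Algebra Kc K0 := c0.toAlgebra
  exact HorizSub.exists_unit_mul_pow_of_dvd_ord ι hι hgen V hKV x m u hu0
    (fun P hP => hu P (by rw [← hjm]; exact (hP jm).2 hjV))

/-- the constants lie in `V` as soon as `R ⊆ V` and the uniformiser `ℓ` of the base is invertible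
in `V`. -/
theorem const_mem_of_inv_mem {R : Type*} [CommRing R] [Algebra R K0] (V : ValuationSubring K0)
    (hRV : ∀ r : R, algebraMap R K0 r ∈ V) (lR : R) (hl0 : algebraMap R K0 lR ≠ 0)
    (hl : (algebraMap R K0 lR)⁻¹ ∈ V) (c : K0)
    (hc : ∃ n : ℕ, ∃ r : R, c * algebraMap R K0 lR ^ n = algebraMap R K0 r) : c ∈ V := by
  obtain ⟨n, r, hr⟩ := hc
  have h1 : c = algebraMap R K0 r * ((algebraMap R K0 lR)⁻¹) ^ n := by
    rw [← hr, inv_pow, mul_assoc, mul_inv_cancel₀ (pow_ne_zero n hl0), mul_one]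
  rw [h1]
  exact V.mul_mem _ _ (hRV r) (pow_mem hl n)

include hι hgen in
/-- **the binder `hhor` in the `S`-shape** (`PkgAsm.nl0_of_pkg`, `NlNode.nl_node_abs`): `R` any ring
with `R → K0`, `ℓ, j ∈ R`, the constants are `R[1/ℓ]`-valued (`hconst`), `ι j = J`. -/
theorem hhor_of_regular {R : Type*} [CommRing R] [Algebra R K0] (x : F) [IsGen Kb x]
    (lR jR : R) (hl0 : algebraMap R K0 lR ≠ 0)
    (hconst : ∀ c : Kc, ∃ n : ℕ, ∃ r : R, c0 c * algebraMap R K0 lR ^ n = algebraMap R K0 r)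
    (J : F) (hJ : ι (algebraMap R K0 jR) = J) (m : ℕ) (u : K0) (hu0 : u ≠ 0)
    (hu : ∀ P : Place Kb F, J ∈ P.toValuationSubring → (m : ℤ) ∣ P.ord (ι u)) :
    ∀ V : ValuationSubring K0, IsDiscreteValuationRing V →
      (∀ r : R, algebraMap R K0 r ∈ V) → (algebraMap R K0 lR)⁻¹ ∈ V →
      ∃ z : K0, z ≠ 0 ∧ u * z ^ m ∈ V ∧ (u * z ^ m)⁻¹ ∈ V := by
  intro V hV hRV hl
  have : IsDiscreteValuationRing V := hV
  exact exists_unit_mul_pow_of_regular ι c0 hι hgen x V
    (fun c => const_mem_of_inv_mem V hRV lR hl0 hl (c0 c) (hconst c)) J (algebraMap R K0 jR) hJ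
    (hRV jR) m u hu0 hu

include hι hgen in
/-- **the binder `hhor` of `SheetAsm.nl0_of_sheets` / `nl0_of_sheets_typeI` VERBATIM**: `R = B_𝔫`,
`ℓ ∈ B`, `j ∈ R`, `θ₀ ∈ K0` (unused). -/
theorem hhor_sheet {B R : Type*} [CommRing B] [CommRing R] [Algebra B R] [Algebra R K0]
    (x : F) [IsGen Kb x] (l : B) (jR : R) (θ₀ : K0)
    (hl0 : algebraMap R K0 (algebraMap B R l) ≠ 0)
    (hconst : ∀ c : Kc, ∃ n : ℕ, ∃ r : R,
      c0 c * algebraMap R K0 (algebraMap B R l) ^ n = algebraMap R K0 r)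
    (J : F) (hJ : ι (algebraMap R K0 jR) = J) (m : ℕ) (u : K0) (hu0 : u ≠ 0)
    (hu : ∀ P : Place Kb F, J ∈ P.toValuationSubring → (m : ℤ) ∣ P.ord (ι u)) :
    ∀ V : ValuationSubring K0, IsDiscreteValuationRing V →
      (∀ r : R, algebraMap R K0 r ∈ V) → θ₀ ∈ V →
      (algebraMap R K0 (algebraMap B R l))⁻¹ ∈ V →
      ∃ z : K0, z ≠ 0 ∧ u * z ^ m ∈ V ∧ (u * z ^ m)⁻¹ ∈ V :=
  fun V hV hRV _ hl =>
    hhor_of_regular ι c0 hι hgen x (algebraMap B R l) jR hl0 hconst J hJ m u hu0 hu V hV hRV hl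

end Fermat.Agent.GF.KCover.NodeMod.HhorAbs

end
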