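/-
GATE-F (S44) / GF-KCOVER-NODEMOD-HHOR (M-f), file 2 (helper57): **the horizontal binder `hhor` of
`SheetAsm.nl0_of_sheets` on the concrete cover `T.Fp`, for the `K₀`-rational functions
`K0 := fixedTame x` whose image lies in `UsInst.Us T`.**

`T : TameDatum N p A ζ`, `x : E′ T ≃+* E′ T` the tame generator (`Int/TameLift`), `K0 := fixedTame x`,
`ι′ := TameNL.inclK0 T x : K0 →+* T.Fp`; constants `K₀ = K0 A = ℚ̄^{I_A}` through
`constK0 := embK0 ∘ algebraMap (K0 A) K₀(X₀(N))` (helper56 `K0Model`).  For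
`u ∈ UsInst.Us T` with `u = ι′ u₀` (the `NL0` binder of `TameNL.exists_nl_on_Us`) the clause
`j ∈ P → p ∣ P.ord u` of `UsInst.Us` is EXACTLY the hypothesis of `HhorAbs.hhor_sheet`, `J := jCover T`
being the image of `j ∈ R` (`hjR`); the generator of `T.Fp / ℚ̄` is `T.x₀ = j` (`InstPlace.instIsGen`).

* `constK0`, `inclK0_constK0` : the binder `hι` of `HorizSub` on the cover;
* `finrank_cover : [T.Fp : F_N] = p` ; `algebraMap_mem_compositum_cover` ;
* `hgen_cover` : **`T.Fp` is the compositum of `ι′ K0` and `ℚ̄`** as soon as ONE `θ₀ ∈ K0` is not in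
  `F_N` (`HorizPrime.hgen_of_finrank_prime` over `HorizDiv.hgen A N`);
* `jK0x`, `inclK0_jK0x` : the `K₀`-model of `j` in `K0`, `ι′ j = jCover T`;
* **`hhor_Us`** : the binder `hhor` VERBATIM (with `m := p`) — hypotheses: `hgenT` (the compositum
  statement for `T.Fp`), `hconst` (the constants are `R[1/ℓ]`-valued), `hjR` (`j ∈ R`);
* **`hhor_Us_of_gen`** : the same with `hgenT` discharged from `θ₀ ∉ F_N`.
-/
import Fermat.Agent.GF.KCover.NodeMod.HhorAbs
import Fermat.Agent.GF.KCover.Int.K0Model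
import Fermat.Agent.GF.KCover.Node.HorizPrime
import Fermat.Agent.GL.Frame.HorizDiv
import Fermat.Agent.GL.Val.OrthK0
import Fermat.Agent.GF.F2Asm.InstPlace
import Fermat.Agent.GF.F2Asm.UsInst

set_option autoImplicit false
set_option linter.unusedSectionVars false
set_option linter.unusedVariables false
set_option linter.style.haveILetI false

noncomputable section

namespace Fermat.Agent.GF.KCover.NodeMod.HhorMod

open ModularCurve Polynomial AlgebraicCurve
open Fermat.Agent.S24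
open Fermat.Agent.GK.SS Fermat.Agent.GK.AL Fermat.Agent.GJ.KumGroup Fermat.Agent.GF.Peu
open Fermat.Agent.GF.F2Asm.Inst Fermat.Agent.GF.KCover Fermat.Agent.GF.F2Asm
open Fermat.Agent.GF.F2Asm.KummerExt
open Fermat.Agent.GF.KCover.Field Fermat.Agent.GF.KCover.Field.WDataOf
open Fermat.Agent.GF.KCover.Int Fermat.Agent.GF.KCover.Int.TameLift
open Fermat.Agent.GF.KCover.Int.TameNL Fermat.Agent.GF.KCover.Int.K0Model
open Fermat.Agent.GL.Val.GaussK0 Fermat.Agent.GL.Val.SecondK0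
open Fermat.Agent.GL.Frame.ConstUnram Fermat.Agent.GL.Frame.HorizDiv
open Fermat.Agent.GF.KCover.Node

local notation "Qb" => AlgebraicClosure ℚ
local notation "GQ" => (AlgebraicClosure ℚ ≃ₐ[ℚ] AlgebraicClosure ℚ)

variable {N : ℕ} [NeZero N] {p : ℕ} [hpF : Fact p.Prime] {A : ValuationSubring Qb} {ζ : Qb}

attribute [local instance] actFK algE' algK0Qb

variable (T : TameDatum N p A ζ)

/-! ### the degree of the cover and the compositum -/

/-- `[T.Fp : F_N] = p`. -/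
theorem finrank_cover : Module.finrank (FK N) T.Fp = p := by
  have hne : kpoly p T.g₀ ≠ 0 := T.irr.ne_zero
  have h1 : Module.finrank (FK N) (KExt p T.g₀) = (kpoly p T.g₀).natDegree := by
    rw [(AdjoinRoot.powerBasis hne).finrank, AdjoinRoot.powerBasis_dim]
  have h2 : (kpoly p T.g₀).natDegree = p := by
    unfold kpoly
    exact natDegree_X_pow_sub_C
  exact h1.trans h2

variable {x : E' T ≃+* E' T}

section Gen

variable {τ : GQ} (hτ : τ ∈ A.inertiaSubgroupIn ℚ)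
  (hx1 : ∀ a, x (algebraMap (F₁ N A ζ) (E' T) a) = algebraMap (F₁ N A ζ) (E' T) (tauF₁ T hτ a))

/-- the constants `K₀ = ℚ̄^{I_A}` in `K0 := fixedTame x`. -/
def constK0 : K0 A →+* fixedTame x :=
  (embK0 T hτ hx1).comp (algebraMap (K0 A) (modularFunctionFieldFullC (K0 A) N))

/-- **the binder `hι` of `HorizSub` on the cover.** -/
theorem inclK0_constK0 (c : K0 A) :
    inclK0 T x (constK0 T hτ hx1 c) = algebraMap Qb T.Fp (algebraMap (K0 A) Qb c) := by
  show inclK0 T x (embK0 T hτ hx1 (algebraMap (K0 A) (modularFunctionFieldFullC (K0 A) N) c)) = _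
  rw [inclK0_embK0, mapK0Bar_algebraMap' A N c, ← IsScalarTower.algebraMap_apply]

include hτ hx1 in
/-- `F_N`'s `K₀`-model lands in the compositum upstairs. -/
theorem algebraMap_mem_compositum_cover (r : modularFunctionFieldFullC (K0 A) N) :
    algebraMap (FK N) T.Fp (mapK0Bar A N r) ∈ compositum Qb (inclK0 T x) :=
  Subring.subset_closure (Or.inl ⟨embK0 T hτ hx1 r, inclK0_embK0 T hτ hx1 r⟩)

include hτ hx1 in
/-- **`T.Fp` is the compositum of `ι′ (fixedTame x)` and `ℚ̄`** as soon as one element of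
`fixedTame x` is not in `F_N`. -/
theorem hgen_cover (θ₀ : fixedTame x)
    (hθ : inclK0 T x θ₀ ∉ Set.range (algebraMap (FK N) T.Fp)) (y : T.Fp) :
    ∃ a ∈ compositum Qb (inclK0 T x), ∃ b ∈ compositum Qb (inclK0 T x), b ≠ 0 ∧ y * b = a :=
  HorizPrime.hgen_of_finrank_prime (mapK0Bar A N) (inclK0 T x) (Fermat.Agent.GL.Frame.HorizDiv.hgen A N)
    (algebraMap_mem_compositum_cover T hτ hx1)
    (by rw [finrank_cover T]; exact hpF.out) θ₀ hθ y

/-- the `K₀`-model of `j` in `K0 := fixedTame x`. -/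
def jK0x : fixedTame x := embK0 T hτ hx1 (Fermat.Agent.GL.Val.OrthK0.jK0 A N)

theorem inclK0_jK0x : inclK0 T x (jK0x T hτ hx1) = UsInst.jCover T := by
  show inclK0 T x (embK0 T hτ hx1 (Fermat.Agent.GL.Val.OrthK0.jK0 A N)) = _
  rw [inclK0_embK0, Fermat.Agent.GL.Val.OrthK0.mapK0Bar_jK0]
  rfl

end Gen

/-! ### the binder -/

/-- the membership clause of `UsInst.Us T` for a `K₀`-rational representative. -/
theorem dvd_ord_of_mem_Us (u : UsInst.Us T) (u₀ : fixedTame x)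
    (hu : ((((u : fixedUnits (tameGroup A ζ) T.Fp)) : T.Fpˣ) : T.Fp) = inclK0 T x u₀)
    (P : Place Qb T.Fp) (hP : UsInst.jCover T ∈ P.toValuationSubring) :
    (p : ℤ) ∣ P.ord (inclK0 T x u₀) := by
  rw [← hu]
  exact (UsInst.mem_Us T).1 u.2 P hP

theorem ne_zero_of_eq_unit (u : UsInst.Us T) (u₀ : fixedTame x)
    (hu : ((((u : fixedUnits (tameGroup A ζ) T.Fp)) : T.Fpˣ) : T.Fp) = inclK0 T x u₀) : u₀ ≠ 0 := by
  rintro rfl
  rw [map_zero] at hu
  exact ((u : fixedUnits (tameGroup A ζ) T.Fp) : T.Fpˣ).ne_zero hu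

/-- **the binder `hhor` of `SheetAsm.nl0_of_sheets` VERBATIM on the concrete cover** (`m := p`),
for `u₀ ∈ K0 := fixedTame x` representing an element of `UsInst.Us T`.  `c0` = the constants
(`constK0`), `hgenT` = the compositum statement (`hgen_cover`), `hconst` : the constants are
`R[1/ℓ]`-valued, `hjR` : `j ∈ R`. -/
theorem hhor_Us {Kc : Type*} [Field Kc] [CharZero Kc] [Algebra Kc Qb] [Algebra.IsAlgebraic Kc Qb]
    (c0 : Kc →+* fixedTame x)
    (hc0 : ∀ c : Kc, inclK0 T x (c0 c) = algebraMap Qb T.Fp (algebraMap Kc Qb c))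
    (hgenT : ∀ y : T.Fp, ∃ a ∈ compositum Qb (inclK0 T x), ∃ b ∈ compositum Qb (inclK0 T x),
      b ≠ 0 ∧ y * b = a)
    {B R : Type*} [CommRing B] [CommRing R] [Algebra B R] [Algebra R (fixedTame x)]
    (l : B) (jR : R) (θ₀ : fixedTame x)
    (hl0 : algebraMap R (fixedTame x) (algebraMap B R l) ≠ 0)
    (hconst : ∀ c : Kc, ∃ n : ℕ, ∃ r : R,
      c0 c * algebraMap R (fixedTame x) (algebraMap B R l) ^ n = algebraMap R (fixedTame x) r)
    (hjR : inclK0 T x (algebraMap R (fixedTame x) jR) = UsInst.jCover T)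
    (u : UsInst.Us T) (u₀ : fixedTame x)
    (hu : ((((u : fixedUnits (tameGroup A ζ) T.Fp)) : T.Fpˣ) : T.Fp) = inclK0 T x u₀) :
    ∀ V : ValuationSubring (fixedTame x), IsDiscreteValuationRing V →
      (∀ r : R, algebraMap R (fixedTame x) r ∈ V) → θ₀ ∈ V →
      (algebraMap R (fixedTame x) (algebraMap B R l))⁻¹ ∈ V →
      ∃ z : fixedTame x, z ≠ 0 ∧ u₀ * z ^ p ∈ V ∧ (u₀ * z ^ p)⁻¹ ∈ V :=
  HhorAbs.hhor_sheet (inclK0 T x) c0 hc0 hgenT T.x₀ l jR θ₀ hl0 hconst (UsInst.jCover T) hjR p u₀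
    (ne_zero_of_eq_unit T u u₀ hu) (dvd_ord_of_mem_Us T u u₀ hu)

/-- **`hhor` with the constants `K₀ = K0 A` and the compositum statement discharged** from ONE
element `θ₁ ∈ K0` outside `F_N` (e.g. the primitive element `θ₀` of `K0 / K₀(X₀(N))`). -/
theorem hhor_Us_of_gen {τ : GQ} (hτ : τ ∈ A.inertiaSubgroupIn ℚ)
    (hx1 : ∀ a, x (algebraMap (F₁ N A ζ) (E' T) a) = algebraMap (F₁ N A ζ) (E' T) (tauF₁ T hτ a))
    (θ₁ : fixedTame x) (hθ₁ : inclK0 T x θ₁ ∉ Set.range (algebraMap (FK N) T.Fp))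
    {B R : Type*} [CommRing B] [CommRing R] [Algebra B R] [Algebra R (fixedTame x)]
    (l : B) (jR : R) (θ₀ : fixedTame x)
    (hl0 : algebraMap R (fixedTame x) (algebraMap B R l) ≠ 0)
    (hconst : ∀ c : K0 A, ∃ n : ℕ, ∃ r : R,
      constK0 T hτ hx1 c * algebraMap R (fixedTame x) (algebraMap B R l) ^ n =
        algebraMap R (fixedTame x) r)
    (hjR : algebraMap R (fixedTame x) jR = jK0x T hτ hx1)
    (u : UsInst.Us T) (u₀ : fixedTame x)
    (hu : ((((u : fixedUnits (tameGroup A ζ) T.Fp)) : T.Fpˣ) : T.Fp) = inclK0 T x u₀) :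
    ∀ V : ValuationSubring (fixedTame x), IsDiscreteValuationRing V →
      (∀ r : R, algebraMap R (fixedTame x) r ∈ V) → θ₀ ∈ V →
      (algebraMap R (fixedTame x) (algebraMap B R l))⁻¹ ∈ V →
      ∃ z : fixedTame x, z ≠ 0 ∧ u₀ * z ^ p ∈ V ∧ (u₀ * z ^ p)⁻¹ ∈ V :=
  hhor_Us T (constK0 T hτ hx1) (inclK0_constK0 T hτ hx1) (hgen_cover T hτ hx1 θ₁ hθ₁) l jR θ₀ hl0
    hconst (by rw [hjR]; exact inclK0_jK0x T hτ hx1) u u₀ hu

/-! ### discharging `hθ₁`, `hconst`, `hl0` -/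

section Discharge

variable {τ : GQ} (hτ : τ ∈ A.inertiaSubgroupIn ℚ)
  (hx1 : ∀ a, x (algebraMap (F₁ N A ζ) (E' T) a) = algebraMap (F₁ N A ζ) (E' T) (tauF₁ T hτ a))

/-- **an element of `K0 = fixedTame x` which lies in `F_N` is `K₀`-rational** (`τ` a generator of
`I_A / I′`): `K0 ∩ F_N = K₀(X₀(N))`. -/
theorem mem_range_embK0_of_mem_range
    (hgen : ∀ σ ∈ A.inertiaSubgroupIn ℚ, ∃ m : ℕ, IsTameFix A ζ ((τ ^ m)⁻¹ * σ))
    (y : fixedTame x) (hy : inclK0 T x y ∈ Set.range (algebraMap (FK N) T.Fp)) :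
    y ∈ (embK0 T hτ hx1).range := by
  obtain ⟨b, hb⟩ := hy
  have hbF : b ∈ F₁ N A ζ := by
    intro ρ
    apply (algebraMap (FK N) T.Fp).injective
    rw [← compat T ρ b, hb]
    exact ((y : E' T)).2 ρ
  have h1 : algebraMap (F₁ N A ζ) (E' T) ⟨b, hbF⟩ = (y : E' T) := Subtype.ext hb
  have h2 : tauF₁ T hτ ⟨b, hbF⟩ = ⟨b, hbF⟩ := by
    apply (algebraMap (F₁ N A ζ) (E' T)).injective
    rw [← hx1, h1]
    exact mem_fixedTame.1 y.2
  obtain ⟨x0, hx0⟩ := exists_embF₁_of_fixed T hτ hgen ⟨b, hbF⟩ h2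
  refine ⟨x0, ?_⟩
  apply Subtype.ext
  show embE' T x0 = (y : E' T)
  rw [← h1, ← hx0]
  rfl

/-- the contrapositive: the binder `hθ₁` of `hhor_Us_of_gen` / `hgen_cover`. -/
theorem not_mem_range_of_not_mem_range_embK0
    (hgen : ∀ σ ∈ A.inertiaSubgroupIn ℚ, ∃ m : ℕ, IsTameFix A ζ ((τ ^ m)⁻¹ * σ))
    (θ₁ : fixedTame x) (hθ₁ : θ₁ ∉ (embK0 T hτ hx1).range) :
    inclK0 T x θ₁ ∉ Set.range (algebraMap (FK N) T.Fp) :=
  fun h => hθ₁ (mem_range_embK0_of_mem_range T hτ hx1 hgen θ₁ h)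

/-- an element of `K0` outside `K₀(X₀(N))` from the degree `[K0 : K₀(X₀(N))] = p`. -/
theorem exists_not_mem_range_embK0
    (hrank : letI := algK0x T hτ hx1
      Module.finrank (modularFunctionFieldFullC (K0 A) N) (fixedTame x) = p) :
    ∃ θ₁ : fixedTame x, θ₁ ∉ (embK0 T hτ hx1).range := by
  letI := algK0x T hτ hx1
  by_contra hcon
  push Not at hcon
  have h1 : Module.finrank (modularFunctionFieldFullC (K0 A) N) (fixedTame x) = 1 := by
    rw [finrank_eq_one_iff_of_nonzero' (1 : fixedTame x) one_ne_zero]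
    intro w
    obtain ⟨c, hc⟩ := hcon w
    exact ⟨c, by rw [Algebra.smul_def, mul_one]; exact hc⟩
  rw [h1] at hrank
  exact hpF.out.one_lt.ne hrank

variable (hA : (p : Qb) ∈ A.nonunits)

include hA in
/-- every element of the inertia field is `p ^ (-n)` times an element of `A ∩ K₀`. -/
theorem exists_mul_pow_mem_baseRing (c : Fermat.Agent.GL.Local.InertiaField.inertiaField A) :
    ∃ n : ℕ, c * ((p : ℕ) : Fermat.Agent.GL.Local.InertiaField.inertiaField A) ^ n ∈
      Fermat.Agent.GL.Local.InertiaField.baseRing A := by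
  rcases (Fermat.Agent.GL.Local.InertiaField.baseRing A).mem_or_inv_mem c with hc | hc
  · exact ⟨0, by rw [pow_zero, mul_one]; exact hc⟩
  · by_cases hc0 : c = 0
    · exact ⟨0, by rw [hc0, zero_mul]; exact (Fermat.Agent.GL.Local.InertiaField.baseRing A).zero_mem⟩
    have hx0 : (⟨c⁻¹, hc⟩ : Fermat.Agent.GL.Local.InertiaField.baseRing A) ≠ 0 := fun h =>
      inv_ne_zero hc0 (congrArg Subtype.val h)
    obtain ⟨m, u, hu, hxu⟩ :=
      Fermat.Agent.GL.Local.InertiaField.exists_pow_mul_unit_baseRing A hpF.out hA ⟨c⁻¹, hc⟩ hx0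
    obtain ⟨v, hv⟩ := hu.exists_right_inv
    refine ⟨m, ?_⟩
    have e1 : c⁻¹ = ((p : ℕ) : Fermat.Agent.GL.Local.InertiaField.inertiaField A) ^ m *
        (u : Fermat.Agent.GL.Local.InertiaField.inertiaField A) := by
      have := congrArg Subtype.val hxu
      simpa [Fermat.Agent.GL.Local.InertiaField.baseQ] using this
    have e2 : (u : Fermat.Agent.GL.Local.InertiaField.inertiaField A) *
        (v : Fermat.Agent.GL.Local.InertiaField.inertiaField A) = 1 := congrArg Subtype.val hv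
    have e3 : c * ((p : ℕ) : Fermat.Agent.GL.Local.InertiaField.inertiaField A) ^ m =
        (v : Fermat.Agent.GL.Local.InertiaField.inertiaField A) := by
      have h3 : c * (((p : ℕ) : Fermat.Agent.GL.Local.InertiaField.inertiaField A) ^ m *
          (u : Fermat.Agent.GL.Local.InertiaField.inertiaField A)) = 1 := by
        rw [← e1, mul_inv_cancel₀ hc0]
      calc c * ((p : ℕ) : Fermat.Agent.GL.Local.InertiaField.inertiaField A) ^ m
          = c * ((p : ℕ) : Fermat.Agent.GL.Local.InertiaField.inertiaField A) ^ m *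
              ((u : Fermat.Agent.GL.Local.InertiaField.inertiaField A) *
                (v : Fermat.Agent.GL.Local.InertiaField.inertiaField A)) := by
            rw [e2, mul_one]
        _ = c * (((p : ℕ) : Fermat.Agent.GL.Local.InertiaField.inertiaField A) ^ m *
              (u : Fermat.Agent.GL.Local.InertiaField.inertiaField A)) *
              (v : Fermat.Agent.GL.Local.InertiaField.inertiaField A) := by ring
        _ = (v : Fermat.Agent.GL.Local.InertiaField.inertiaField A) := by rw [h3, one_mul]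
    rw [e3]
    exact v.2

include hA in
/-- every constant of `K₀ = ℚ̄^{I_A}` is `p ^ (-n)` times an element of `R₀ = A ∩ K₀`. -/
theorem exists_mul_pow_mem_R0 (c : K0 A) : ∃ n : ℕ, c * ((p : ℕ) : K0 A) ^ n ∈ R0 A :=
  exists_mul_pow_mem_baseRing hA c

include hA in
/-- **the binder `hconst` of `hhor_Us`** when `ℓ = p` in `K0` and `R₀ = A ∩ K₀` maps to `R`. -/
theorem hconst_of_R0 {B R : Type*} [CommRing B] [CommRing R] [Algebra B R]
    [Algebra R (fixedTame x)] (l : B)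
    (hl : algebraMap R (fixedTame x) (algebraMap B R l) = ((p : ℕ) : fixedTame x))
    (hR0 : ∀ a : R0 A, ∃ r : R, algebraMap R (fixedTame x) r = constK0 T hτ hx1 (a : K0 A))
    (c : K0 A) : ∃ n : ℕ, ∃ r : R,
      constK0 T hτ hx1 c * algebraMap R (fixedTame x) (algebraMap B R l) ^ n =
        algebraMap R (fixedTame x) r := by
  obtain ⟨n, hn⟩ := exists_mul_pow_mem_R0 hA c
  obtain ⟨r, hr⟩ := hR0 ⟨_, hn⟩
  refine ⟨n, r, ?_⟩
  rw [hr, hl, map_mul, map_pow, map_natCast]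

/-- `p ≠ 0` in `K0`. -/
theorem natCast_ne_zero_K0x : ((p : ℕ) : fixedTame x) ≠ 0 := by
  intro h
  have h1 : inclK0 T x ((p : ℕ) : fixedTame x) = 0 := by rw [h, map_zero]
  rw [map_natCast] at h1
  have h2 : algebraMap Qb T.Fp ((p : ℕ) : Qb) = 0 := by rw [map_natCast]; exact h1
  have h3 : ((p : ℕ) : Qb) = 0 := (map_eq_zero_iff _ (algebraMap Qb T.Fp).injective).1 h2
  exact (Nat.cast_ne_zero.2 hpF.out.ne_zero) h3

include hA in
/-- **`hhor` on the concrete cover, every field-theoretic binder discharged.**  Inputs: the tame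
generator (`hτ`, `hx1`, `hgen`), the degree `[K0 : K₀(X₀(N))] = p` in the weak form `θ₁ ∉ K₀(X₀(N))`,
and the three facts on the local ring `R` of the `K₀`-model: `ℓ = p` in `K0` (`hl`), `R₀ → R`
(`hR0`), `j ∈ R` (`hjR`). -/
theorem hhor_Us_final
    (hgen : ∀ σ ∈ A.inertiaSubgroupIn ℚ, ∃ m : ℕ, IsTameFix A ζ ((τ ^ m)⁻¹ * σ))
    (θ₁ : fixedTame x) (hθ₁ : θ₁ ∉ (embK0 T hτ hx1).range)
    {B R : Type*} [CommRing B] [CommRing R] [Algebra B R] [Algebra R (fixedTame x)]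
    (l : B) (jR : R) (θ₀ : fixedTame x)
    (hl : algebraMap R (fixedTame x) (algebraMap B R l) = ((p : ℕ) : fixedTame x))
    (hR0 : ∀ a : R0 A, ∃ r : R, algebraMap R (fixedTame x) r = constK0 T hτ hx1 (a : K0 A))
    (hjR : algebraMap R (fixedTame x) jR = jK0x T hτ hx1)
    (u : UsInst.Us T) (u₀ : fixedTame x)
    (hu : ((((u : fixedUnits (tameGroup A ζ) T.Fp)) : T.Fpˣ) : T.Fp) = inclK0 T x u₀) :
    ∀ V : ValuationSubring (fixedTame x), IsDiscreteValuationRing V →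
      (∀ r : R, algebraMap R (fixedTame x) r ∈ V) → θ₀ ∈ V →
      (algebraMap R (fixedTame x) (algebraMap B R l))⁻¹ ∈ V →
      ∃ z : fixedTame x, z ≠ 0 ∧ u₀ * z ^ p ∈ V ∧ (u₀ * z ^ p)⁻¹ ∈ V :=
  hhor_Us_of_gen T hτ hx1 θ₁ (not_mem_range_of_not_mem_range_embK0 T hτ hx1 hgen θ₁ hθ₁) l jR θ₀
    (by rw [hl]; exact natCast_ne_zero_K0x T) (hconst_of_R0 T hτ hx1 hA l hl hR0) hjR u u₀ hu

end Discharge

end Fermat.Agent.GF.KCover.NodeMod.HhorMod

end
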