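/-
GATE-F (S44) / GF-KCOVER-NODEMOD-HHOR (M-f), file 3 (helper57): **the binder `hhor` of
`NodeK0Call.nl0_at_point` (helper75) VERBATIM on the concrete cover**, `B := BRingK0 N' p A h`,
`l := NodeRingK0.ellB h`, level `N' * p`.

The three facts on `R` asked by `HhorMod.hhor_Us_final` (`hl`, `hR0`, `hjR`) are discharged from ONE
compatibility `hBK : algebraMap R K0 (algebraMap B R b) = embK0 (b : K₀(X₀(N'p)))` (the structure
maps `B → R → K0 = fixedTame x` are the inclusions):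

* `ellB_eq_natCast`, `algebraMap_ellB` : `ℓ ∈ B` is the natural number `ℓ` (no compatibility needed);
* `constB`, `jB` : the constants of `R₀` and `j` as elements of the finite chart;
* **`hhor_at_point`** : `hhor` of `NodeK0Call.nl0_at_point` VERBATIM (`m := p`, `u := u₀`).
-/
import Fermat.Agent.GF.KCover.NodeMod.HhorMod
import Fermat.Agent.GF.KCover.Node.NodeRingK0

set_option autoImplicit false
set_option linter.unusedSectionVars false
set_option linter.unusedVariables false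
set_option linter.style.haveILetI false

noncomputable section

namespace Fermat.Agent.GF.KCover.NodeMod.HhorPoint

open ModularCurve Polynomial AlgebraicCurve
open Fermat.Agent.S24
open Fermat.Agent.GK.SS Fermat.Agent.GK.AL Fermat.Agent.GJ.KumGroup Fermat.Agent.GF.Peu
open Fermat.Agent.GF.F2Asm.Inst Fermat.Agent.GF.KCover Fermat.Agent.GF.F2Asm
open Fermat.Agent.GF.KCover.Field Fermat.Agent.GF.KCover.Field.WDataOf
open Fermat.Agent.GF.KCover.Int Fermat.Agent.GF.KCover.Int.TameLift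
open Fermat.Agent.GF.KCover.Int.TameNL Fermat.Agent.GF.KCover.Int.K0Model
open Fermat.Agent.GL.Val.GaussK0 Fermat.Agent.GL.Val.SecondK0
open Fermat.Agent.GL.BRingK0 Fermat.Agent.GJ.J1 Fermat.Agent.GJ.J1.Val Fermat.Agent.GK.QS
open Fermat.Agent.GF.KCover.Node Fermat.Agent.GF.KCover.NodeMod.HhorMod

local notation "Qb" => AlgebraicClosure ℚ
local notation "GQ" => (AlgebraicClosure ℚ ≃ₐ[ℚ] AlgebraicClosure ℚ)

attribute [local instance] actFK algE' Fermat.Agent.GL.Frame.InstK0.algSubringFullC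

variable {A : ValuationSubring Qb} {N' : ℕ} [NeZero N'] {p : ℕ} [hpF : Fact p.Prime] [NeZero p]
  (h : ExactDvd p (N' * p)) {ζ : Qb}

variable [IsDedekindDomain (Fermat.Agent.GK.QS.CRing N' A)]
  [IsFractionRing (Fermat.Agent.GK.QS.CRing N' A) (FresBar N' A)]

local notation "F0" => modularFunctionFieldFullC (K0 A) (N' * p)

/-- `ℓ ∈ B` is the natural number `ℓ`. -/
theorem ellB_eq_natCast : NodeRingK0.ellB (A := A) h = ((p : ℕ) : BRingK0 N' p A h) :=
  Subtype.ext (by rw [NodeRingK0.coe_ellB]; simp)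

/-- the image of `ℓ ∈ B` under ANY two ring homs `B → R → K` is `p`. -/
theorem algebraMap_ellB {R K : Type*} [CommRing R] [Algebra (BRingK0 N' p A h) R] [Field K]
    [Algebra R K] :
    algebraMap R K (algebraMap (BRingK0 N' p A h) R (NodeRingK0.ellB h)) = ((p : ℕ) : K) := by
  rw [ellB_eq_natCast, map_natCast, map_natCast]

/-- a constant of `R₀ = A ∩ K₀` as an element of the finite chart. -/
def constB (a : R0 A) : BRingK0 N' p A h :=
  ⟨algebraMap (K0 A) F0 (a : K0 A), algebraMap_mem_BRingK0 N' p A h a⟩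

/-- `j` as an element of the finite chart. -/
def jB : BRingK0 N' p A h :=
  ⟨Fermat.Agent.GL.Val.OrthK0.jK0 A (N' * p), by
    rw [Fermat.Agent.GL.Val.OrthK0.jK0_eq_jC]; exact jC_mem_BRingK0 N' p A h⟩

variable (T : TameDatum (N' * p) p A ζ) {x : E' T ≃+* E' T} {τ : GQ}
  (hτ : τ ∈ A.inertiaSubgroupIn ℚ)
  (hx1 : ∀ a, x (algebraMap (F₁ (N' * p) A ζ) (E' T) a) =
    algebraMap (F₁ (N' * p) A ζ) (E' T) (tauF₁ T hτ a))

/-- **the binder `hhor` of `NodeK0Call.nl0_at_point` VERBATIM on the concrete cover** (`m := p`):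
`R` any ring between the finite chart `B = BRingK0 N' p A h` and `K0 = fixedTame x`, compatibly with
the inclusions (`hBK`). -/
theorem hhor_at_point (hA : A.LiesOverPrime p)
    (hgen : ∀ σ ∈ A.inertiaSubgroupIn ℚ, ∃ m : ℕ, IsTameFix A ζ ((τ ^ m)⁻¹ * σ))
    (θ₁ : fixedTame x) (hθ₁ : θ₁ ∉ (embK0 T hτ hx1).range)
    {R : Type*} [CommRing R] [Algebra (BRingK0 N' p A h) R] [Algebra R (fixedTame x)]
    (hBK : ∀ b : BRingK0 N' p A h,
      algebraMap R (fixedTame x) (algebraMap (BRingK0 N' p A h) R b) = embK0 T hτ hx1 (b : F0))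
    (θ₀ : fixedTame x) (u : UsInst.Us T) (u₀ : fixedTame x)
    (hu : ((((u : fixedUnits (tameGroup A ζ) T.Fp)) : T.Fpˣ) : T.Fp) = inclK0 T x u₀) :
    ∀ V : ValuationSubring (fixedTame x), IsDiscreteValuationRing V →
      (∀ r : R, algebraMap R (fixedTame x) r ∈ V) → θ₀ ∈ V →
      (algebraMap R (fixedTame x)
        (algebraMap (BRingK0 N' p A h) R (NodeRingK0.ellB h)))⁻¹ ∈ V →
      ∃ z : fixedTame x, z ≠ 0 ∧ u₀ * z ^ p ∈ V ∧ (u₀ * z ^ p)⁻¹ ∈ V :=
  hhor_Us_final T hτ hx1 hA hgen θ₁ hθ₁ (NodeRingK0.ellB h)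
    (algebraMap (BRingK0 N' p A h) R (jB h)) θ₀ (algebraMap_ellB h)
    (fun a => ⟨algebraMap (BRingK0 N' p A h) R (constB h a), hBK (constB h a)⟩)
    (hBK (jB h)) u u₀ hu

end Fermat.Agent.GF.KCover.NodeMod.HhorPoint

end
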