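/-
GATE-F (S44) / GF-KCOVER-NODEMOD-HHOR (M-f), file 4 (helper57): **the binder `hhor` in the
`(u : Us) (u₀ : E), toE u = u₀ → …` spelling** of helper42 `NlNode.nl_node_abs` /
`NlNodeSheets.nl_node_sheets` and helper84 `NlNodeData.nl_node_data` / `nl_node_data_typeI`
VERBATIM at `E := fixedTame x`, `G := fixedUnits (tameGroup A ζ) T.Fp`, `Us := UsInst.Us T`,
`toE := toE' T`, `incl' := (E' T).subtype`.

* `hhor_toE_final` : generic `B R l` (inputs `hl hR0 hjR` of `HhorMod.hhor_Us_final`);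
* **`hhor_toE_at_point`** : `B := BRingK0 N' p A h`, `l := NodeRingK0.ellB h` (input `hBK` of
  `HhorPoint.hhor_at_point`).
-/
import Fermat.Agent.GF.KCover.NodeMod.HhorPoint

set_option autoImplicit false
set_option linter.unusedSectionVars false
set_option linter.unusedVariables false
set_option linter.style.haveILetI false

noncomputable section

namespace Fermat.Agent.GF.KCover.NodeMod.HhorToE

open ModularCurve Polynomial AlgebraicCurve
open Fermat.Agent.S24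
open Fermat.Agent.GK.SS Fermat.Agent.GK.AL Fermat.Agent.GJ.KumGroup Fermat.Agent.GF.Peu
open Fermat.Agent.GF.F2Asm.Inst Fermat.Agent.GF.KCover Fermat.Agent.GF.F2Asm
open Fermat.Agent.GF.KCover.Field Fermat.Agent.GF.KCover.Field.WDataOf
open Fermat.Agent.GF.KCover.Int Fermat.Agent.GF.KCover.Int.TameLift
open Fermat.Agent.GF.KCover.Int.TameNL Fermat.Agent.GF.KCover.Int.K0Model
open Fermat.Agent.GL.Val.GaussK0 Fermat.Agent.GL.Val.SecondK0
open Fermat.Agent.GL.BRingK0 Fermat.Agent.GJ.J1 Fermat.Agent.GJ.J1.Val Fermat.Agent.GK.QS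
open Fermat.Agent.GF.KCover.Node Fermat.Agent.GF.KCover.NodeMod.HhorMod
open Fermat.Agent.GF.KCover.NodeMod.HhorPoint

local notation "Qb" => AlgebraicClosure ℚ
local notation "GQ" => (AlgebraicClosure ℚ ≃ₐ[ℚ] AlgebraicClosure ℚ)

attribute [local instance] actFK algE' Fermat.Agent.GL.Frame.InstK0.algSubringFullC

section Generic

variable {N : ℕ} [NeZero N] {p : ℕ} [hpF : Fact p.Prime] {A : ValuationSubring Qb} {ζ : Qb}
  (T : TameDatum N p A ζ) {x : E' T ≃+* E' T} {τ : GQ} (hτ : τ ∈ A.inertiaSubgroupIn ℚ)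
  (hx1 : ∀ a, x (algebraMap (F₁ N A ζ) (E' T) a) = algebraMap (F₁ N A ζ) (E' T) (tauF₁ T hτ a))

/-- `toE u = u₀` is the representative equation of `HhorMod`. -/
theorem coe_eq_inclK0_of_toE' (u : UsInst.Us T) (u₀ : fixedTame x)
    (hu : toE' T (u : fixedUnits (tameGroup A ζ) T.Fp) = (u₀ : E' T)) :
    ((((u : fixedUnits (tameGroup A ζ) T.Fp)) : T.Fpˣ) : T.Fp) = inclK0 T x u₀ := by
  rw [inclK0_apply, ← hu]
  rfl

/-- **`hhor` in the `toE` spelling, generic chart.** -/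
theorem hhor_toE_final (hA : (p : Qb) ∈ A.nonunits)
    (hgen : ∀ σ ∈ A.inertiaSubgroupIn ℚ, ∃ m : ℕ, IsTameFix A ζ ((τ ^ m)⁻¹ * σ))
    (θ₁ : fixedTame x) (hθ₁ : θ₁ ∉ (embK0 T hτ hx1).range)
    {B R : Type*} [CommRing B] [CommRing R] [Algebra B R] [Algebra R (fixedTame x)]
    (l : B) (jR : R) (θ₀ : fixedTame x)
    (hl : algebraMap R (fixedTame x) (algebraMap B R l) = ((p : ℕ) : fixedTame x))
    (hR0 : ∀ a : R0 A, ∃ r : R, algebraMap R (fixedTame x) r = constK0 T hτ hx1 (a : K0 A))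
    (hjR : algebraMap R (fixedTame x) jR = jK0x T hτ hx1) :
    ∀ (u : UsInst.Us T) (u₀ : fixedTame x),
      toE' T (u : fixedUnits (tameGroup A ζ) T.Fp) = (u₀ : E' T) →
      ∀ V : ValuationSubring (fixedTame x), IsDiscreteValuationRing V →
      (∀ r : R, algebraMap R (fixedTame x) r ∈ V) → θ₀ ∈ V →
      (algebraMap R (fixedTame x) (algebraMap B R l))⁻¹ ∈ V →
      ∃ z : fixedTame x, z ≠ 0 ∧ u₀ * z ^ p ∈ V ∧ (u₀ * z ^ p)⁻¹ ∈ V :=
  fun u u₀ hu => hhor_Us_final T hτ hx1 hA hgen θ₁ hθ₁ l jR θ₀ hl hR0 hjR u u₀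
    (coe_eq_inclK0_of_toE' T u u₀ hu)

end Generic

section Point

variable {A : ValuationSubring Qb} {N' : ℕ} [NeZero N'] {p : ℕ} [hpF : Fact p.Prime] [NeZero p]
  (h : ExactDvd p (N' * p)) {ζ : Qb}

variable [IsDedekindDomain (CRing N' A)] [IsFractionRing (CRing N' A) (FresBar N' A)]

local notation "F0" => modularFunctionFieldFullC (K0 A) (N' * p)

variable (T : TameDatum (N' * p) p A ζ) {x : E' T ≃+* E' T} {τ : GQ}
  (hτ : τ ∈ A.inertiaSubgroupIn ℚ)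
  (hx1 : ∀ a, x (algebraMap (F₁ (N' * p) A ζ) (E' T) a) =
    algebraMap (F₁ (N' * p) A ζ) (E' T) (tauF₁ T hτ a))

/-- **`hhor` of `NlNodeData.nl_node_data` / `nl_node_data_typeI` / `NlNode.nl_node_abs` VERBATIM** at
the finite chart `B := BRingK0 N' p A h`, `l := NodeRingK0.ellB h`. -/
theorem hhor_toE_at_point (hA : A.LiesOverPrime p)
    (hgen : ∀ σ ∈ A.inertiaSubgroupIn ℚ, ∃ m : ℕ, IsTameFix A ζ ((τ ^ m)⁻¹ * σ))
    (θ₁ : fixedTame x) (hθ₁ : θ₁ ∉ (embK0 T hτ hx1).range)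
    {R : Type*} [CommRing R] [Algebra (BRingK0 N' p A h) R] [Algebra R (fixedTame x)]
    (hBK : ∀ b : BRingK0 N' p A h,
      algebraMap R (fixedTame x) (algebraMap (BRingK0 N' p A h) R b) = embK0 T hτ hx1 (b : F0))
    (θ₀ : fixedTame x) :
    ∀ (u : UsInst.Us T) (u₀ : fixedTame x),
      toE' T (u : fixedUnits (tameGroup A ζ) T.Fp) = (u₀ : E' T) →
      ∀ V : ValuationSubring (fixedTame x), IsDiscreteValuationRing V →
      (∀ r : R, algebraMap R (fixedTame x) r ∈ V) → θ₀ ∈ V →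
      (algebraMap R (fixedTame x)
        (algebraMap (BRingK0 N' p A h) R (NodeRingK0.ellB h)))⁻¹ ∈ V →
      ∃ z : fixedTame x, z ≠ 0 ∧ u₀ * z ^ p ∈ V ∧ (u₀ * z ^ p)⁻¹ ∈ V :=
  fun u u₀ hu => hhor_at_point h T hτ hx1 hA hgen θ₁ hθ₁ hBK θ₀ u u₀
    (coe_eq_inclK0_of_toE' T u u₀ hu)

end Point

end Fermat.Agent.GF.KCover.NodeMod.HhorToE

end
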