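/-
GATE-F (S44) / GF-KCOVER-NODEMOD (M-c) (helper40): **the binder `hint : IsIntegral R θ₀` of
`SheetAsm.nl0_of_sheets` on the modular `K₀`-model** (`K0 := fixedTame x`, `R := B_𝔫`,
`B := BRingK0 N' p A h`, `θ₀ = traceTame x d Z'`).

ABSTRACT
* `isIntegralElem_traceTame` : `(1 + c Z')^p = 1 + c^p g₁`, `c = ζ − 1`, `g₁` integral over `R`
  (through `φ : R →+* E`), `x` an automorphism of `E` fixing `φ(R)` ⟹ `Tr_x(Z') = traceTame x d Z'`
  is integral over `R` (helper84 `ResLift.isIntegralElem_of_kummer_as` + `TraceRes`);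
* `isIntegral_of_comp` : integrality descends along an injective ring hom `ι : K0 →+* E`;
* `exists_monic_lift`, `isIntegralElem_of_monic_frac` : a monic `f ∈ F₀[X]` whose coefficients are
  fractions `a / s`, `s ∉ 𝔫` (the fraction-free output of helper60 `KrullMod`) lifts to a monic
  polynomial over `R = B_𝔫`; its roots are integral over `R`.

MODULAR (`N = N' p`, `T : TameDatum N p A ζ`, `x : E′ T ≃+* E′ T` over `tauF₁ T hτ`)
* `exists_monic_tame` : helper60 `KrullMod.exists_monic_BRingK0` with `χ := ` the mod `p`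
  cyclotomic character (`I_A ∩ ker χ = I′`), for `g1` fixed by `I′` (`IsTameFix`);
* `isIntegralElem_g1` : the image of `g1` in `E′ T` is integral over `R` through
  `embE' T ∘ algebraMap R F₀`;
* **`hint_mod`** : `IsIntegral R θ₀` for `θ₀ : fixedTame x`, `(θ₀ : E′ T) = traceTame x d Z'`,
  `(1 + c Z')^p = 1 + c^p g₁E` in `E′ T`; the only inputs are the outputs of
  `ASFormChart.exists_asForm_chart` (`hg1 hg2 hfix hZ`) and **(KD)** (`hKD`).
* `hint_mod_tower` : the same in the instance spelling of `SheetAsm.nl0_of_sheets`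
  (`[Algebra F₀ K0] [Algebra R K0] [IsScalarTower R F₀ K0]`, `algebraMap F₀ K0 = embK0`).
-/
import Fermat.Agent.GF.KCover.Node.ResLift
import Fermat.Agent.GF.KCover.Node.TraceRes
import Fermat.Agent.GF.KCover.ASNode.KrullMod
import Fermat.Agent.GF.KCover.Int.K0Model

set_option autoImplicit false
set_option linter.unusedSectionVars false
set_option linter.unusedVariables false

noncomputable section

namespace Fermat.Agent.GF.KCover.NodeMod.HintMod

open Polynomial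
open Fermat.Agent.GF.KCover.Field
open Fermat.Agent.GF.KCover.Node

/-! ### abstract part -/

section Abs

variable {R E : Type*} [CommRing R] [Field E] {p : ℕ} [Fact p.Prime]

/-- **the tame trace of the Artin–Schreier coordinate is integral**: `(1 + c Z')^p = 1 + c^p g₁`,
`c = ζ − 1`, `g₁` integral over `R`, `x` fixing the image of `R`. -/
theorem isIntegralElem_traceTame (φ : R →+* E) (x : E ≃+* E) (hx : ∀ r : R, x (φ r) = φ r)
    (d : ℕ) {ζ c Z' g₁ : E} (hζ : IsPrimitiveRoot ζ p) (hc : c = ζ - 1)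
    (hAS : (1 + c * Z') ^ p = 1 + c ^ p * g₁) (hg : φ.IsIntegralElem g₁) :
    φ.IsIntegralElem (TraceRes.traceTame x d Z') := by
  have hZ : φ.IsIntegralElem Z' := ResLift.isIntegralElem_of_kummer_as φ hζ hc hAS hg
  let _ : Algebra R E := φ.toAlgebra
  have hZ' : IsIntegral R Z' := hZ
  exact TraceRes.isIntegral_traceTame (R := R) x d hx hZ'

/-- integrality descends along an injective ring hom. -/
theorem isIntegral_of_comp {K0 : Type*} [CommRing K0] [Algebra R K0] (ι : K0 →+* E)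
    (hι : Function.Injective ι) (θ₀ : K0)
    (h : (ι.comp (algebraMap R K0)).IsIntegralElem (ι θ₀)) : IsIntegral R θ₀ := by
  obtain ⟨P, hP, hPz⟩ := h
  refine ⟨P, hP, hι ?_⟩
  rw [map_zero, Polynomial.hom_eval₂]
  exact hPz

end Abs

/-! ### lifting a monic polynomial with fraction coefficients to the local ring -/

section Lift

variable {B R F₀ F E : Type*} [CommRing B] [CommRing R] [Field F₀] [Field F] [Field E]
  [Algebra B R] [Algebra R F₀] [Algebra B F₀] [IsScalarTower B R F₀]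

/-- a monic polynomial over `F₀` whose coefficients are fractions `a / s` with `s ∉ 𝔫` lifts to a
monic polynomial over `R = B_𝔫`. -/
theorem exists_monic_lift (𝔫 : Ideal B) [𝔫.IsPrime] [IsLocalization.AtPrime R 𝔫]
    (f : F₀[X]) (hf : f.Monic)
    (hcoef : ∀ k, ∃ s a : B, s ∉ 𝔫 ∧ algebraMap B F₀ a = algebraMap B F₀ s * f.coeff k) :
    ∃ P : R[X], P.Monic ∧ P.map (algebraMap R F₀) = f := by
  have hl : f ∈ Polynomial.lifts (algebraMap R F₀) := by
    rw [Polynomial.lifts_iff_coeff_lifts]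
    intro k
    obtain ⟨s, a, hs, hsa⟩ := hcoef k
    have hsu : IsUnit (algebraMap B R s) :=
      IsLocalization.map_units R (⟨s, hs⟩ : 𝔫.primeCompl)
    obtain ⟨u, hu⟩ := hsu
    refine ⟨↑u⁻¹ * algebraMap B R a, ?_⟩
    have h1 : algebraMap R F₀ (algebraMap B R a) =
        algebraMap R F₀ (algebraMap B R s) * f.coeff k := by
      rw [← IsScalarTower.algebraMap_apply, ← IsScalarTower.algebraMap_apply]
      exact hsa
    rw [map_mul, h1, ← mul_assoc, ← map_mul, ← hu, Units.inv_mul, map_one, one_mul]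
  obtain ⟨P, hP, -, hPm⟩ := Polynomial.lifts_and_degree_eq_and_monic hl hf
  exact ⟨P, hPm, hP⟩

/-- a root (through `m : F₀ →+* F`) of a monic polynomial over `F₀` with coefficients in `B_𝔫` is
integral over `R = B_𝔫` through any `ψ : F →+* E`. -/
theorem isIntegralElem_of_monic_frac (𝔫 : Ideal B) [𝔫.IsPrime] [IsLocalization.AtPrime R 𝔫]
    (m : F₀ →+* F) (ψ : F →+* E) (g1 : F) (f : F₀[X]) (hf : f.Monic)
    (hcoef : ∀ k, ∃ s a : B, s ∉ 𝔫 ∧ algebraMap B F₀ a = algebraMap B F₀ s * f.coeff k)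
    (hroot : f.eval₂ m g1 = 0) :
    ((ψ.comp m).comp (algebraMap R F₀)).IsIntegralElem (ψ g1) := by
  obtain ⟨P, hPm, hP⟩ := exists_monic_lift (R := R) 𝔫 f hf hcoef
  refine ⟨P, hPm, ?_⟩
  rw [RingHom.comp_assoc, ← Polynomial.hom_eval₂, ← Polynomial.eval₂_map, hP, hroot, map_zero]

end Lift

/-! ### the modular plug -/

section Mod

open ModularCurve AlgebraicCurve
open Fermat.Agent.S24 Fermat.Agent.S24_helper62
open Fermat.Agent.GJ.J1 Fermat.Agent.GJ.J1.Val Fermat.Agent.GJ.KumGroup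
open Fermat.Agent.GK.SS Fermat.Agent.GK.AL Fermat.Agent.GL.AL
open Fermat.Agent.GL.Val.GaussK0 Fermat.Agent.GL.Val.SecondK0
open Fermat.Agent.GL.BRingK0
open Fermat.Agent.GL.KrullHeightOne
open Fermat.Agent.Common_helper32
open Fermat.Agent.GF.Peu Fermat.Agent.GF.F2Asm.Inst
open Fermat.Agent.GF.KCover.Field.WDataOf
open Fermat.Agent.GF.KCover.Int Fermat.Agent.GF.KCover.Int.TameLift
open Fermat.Agent.GF.KCover.Int.TameNL Fermat.Agent.GF.KCover.Int.K0Model
open Fermat.Agent.GF.KCover.ASNode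

attribute [local instance] Fermat.Agent.GL.Frame.InstK0.algSubringFullC
attribute [local instance] actFK algE'

local notation "Qb" => AlgebraicClosure ℚ
local notation "GQ" => (AlgebraicClosure ℚ ≃ₐ[ℚ] AlgebraicClosure ℚ)

variable {A : ValuationSubring Qb} {N' : ℕ} [NeZero N'] {p : ℕ} [hpF : Fact p.Prime]
  (h : ExactDvd p (N' * p)) (hA : A.LiesOverPrime p) {ζ : Qb}

local notation "F0" => modularFunctionFieldFullC (K0 A) (N' * p)

include hA in
/-- **helper60's Krull step for an `I′`-fixed function**: `χ :=` the mod `p` cyclotomic character. -/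
theorem exists_monic_tame (hζ : IsPrimitiveRoot ζ p) (𝔫 : Ideal (BRingK0 N' p A h)) [𝔫.IsPrime]
    (g1 : FK (N' * p))
    (hfix : ∀ ρ : GQ, IsTameFix A ζ ρ →
      arithmeticRingAut (modularFunctionFieldFull (N' * p)) ρ g1 = g1)
    (hg1 : g1 ∈ (redDataBar (N' * p) A).Rw) (hg2 : g1 ∈ (redData2 (N' * p) A h).Rw)
    (Z : Divisor Kb (FK (N' * p))) (hZ : g1 ∈ riemannRochSpace Z)
    (hKD : ∀ P : Place Kb (FK (N' * p)), 0 < Z P →
      ∃ b : BRingK0 N' p A h, b ∉ 𝔫 ∧ 0 < P.ord (mapK0Bar A (N' * p) (b : F0))) :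
    ∃ f : F0[X], f.Monic ∧
      (∀ k, ∃ s a : BRingK0 N' p A h, s ∉ 𝔫 ∧ (a : F0) = (s : F0) * f.coeff k) ∧
      Polynomial.eval₂ (mapK0Bar A (N' * p)) g1 f = 0 := by
  refine KrullMod.exists_monic_BRingK0 h hA 𝔫 g1 (hζ.autToPow ℚ) (fun σ hσ hχ => ?_) hg1 hg2 Z hZ
    hKD
  refine hfix σ ⟨hσ, ?_⟩
  have hs := hζ.autToPow_spec ℚ σ
  rw [hχ] at hs
  have h1 : (((1 : (ZMod p)ˣ) : ZMod p)).val = 1 := by
    rw [Units.val_one]
    have : Fact (1 < p) := ⟨hpF.out.one_lt⟩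
    exact ZMod.val_one p
  rw [h1, pow_one] at hs
  exact hs.symm

variable (T : TameDatum (N' * p) p A ζ)

include hA in
/-- **the image of `g1` in `E′ T` is integral over `R = B_𝔫`** (through `embE' T`). -/
theorem isIntegralElem_g1 (𝔫 : Ideal (BRingK0 N' p A h)) [𝔫.IsPrime]
    {R : Type*} [CommRing R] [Algebra (BRingK0 N' p A h) R] [IsLocalization.AtPrime R 𝔫]
    [Algebra R F0] [IsScalarTower (BRingK0 N' p A h) R F0]
    (g1 : FK (N' * p))
    (hfix : ∀ ρ : GQ, IsTameFix A ζ ρ →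
      arithmeticRingAut (modularFunctionFieldFull (N' * p)) ρ g1 = g1)
    (hg1 : g1 ∈ (redDataBar (N' * p) A).Rw) (hg2 : g1 ∈ (redData2 (N' * p) A h).Rw)
    (Z : Divisor Kb (FK (N' * p))) (hZ : g1 ∈ riemannRochSpace Z)
    (hKD : ∀ P : Place Kb (FK (N' * p)), 0 < Z P →
      ∃ b : BRingK0 N' p A h, b ∉ 𝔫 ∧ 0 < P.ord (mapK0Bar A (N' * p) (b : F0)))
    (g₁E : E' T) (hg₁E : (g₁E : T.Fp) = algebraMap (FK (N' * p)) T.Fp g1) :
    ((embE' T).comp (algebraMap R F0)).IsIntegralElem g₁E := by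
  obtain ⟨f, hfm, hcoef, hroot⟩ := exists_monic_tame h hA T.prim 𝔫 g1 hfix hg1 hg2 Z hZ hKD
  have hint := isIntegralElem_of_monic_frac (R := R) 𝔫 (mapK0Bar A (N' * p))
    (algebraMap (FK (N' * p)) T.Fp) g1 f hfm (fun k => hcoef k) hroot
  obtain ⟨P, hPm, hP⟩ := hint
  refine ⟨P, hPm, ?_⟩
  apply Subtype.ext
  have e : (E' T).subtype.comp ((embE' T).comp (algebraMap R F0)) =
      ((algebraMap (FK (N' * p)) T.Fp).comp (mapK0Bar A (N' * p))).comp (algebraMap R F0) := rfl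
  have h1 : (E' T).subtype (P.eval₂ ((embE' T).comp (algebraMap R F0)) g₁E) =
      P.eval₂ ((E' T).subtype.comp ((embE' T).comp (algebraMap R F0))) ((E' T).subtype g₁E) :=
    Polynomial.hom_eval₂ P _ _ _
  show (E' T).subtype (P.eval₂ ((embE' T).comp (algebraMap R F0)) g₁E) = (0 : T.Fp)
  rw [h1, e]
  show P.eval₂ _ (g₁E : T.Fp) = 0
  rw [hg₁E]
  exact hP

variable {τ : GQ} (hτ : τ ∈ A.inertiaSubgroupIn ℚ) {x : E' T ≃+* E' T}
  (hx1 : ∀ a, x (algebraMap (F₁ (N' * p) A ζ) (E' T) a)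
    = algebraMap (F₁ (N' * p) A ζ) (E' T) (tauF₁ T hτ a))

include hA in
/-- **(M-c) the binder `hint` of `SheetAsm.nl0_of_sheets` on the modular `K₀`-model.**
`K0 := fixedTame x`, `R = B_𝔫` (any localisation of `B := BRingK0 N' p A h` at `𝔫` inside `F₀`),
`θ₀ = Tr_x (Z')`, `(1 + c Z')^p = 1 + c^p g₁E`, `g₁E` the image of `g1 ∈ Rw₁ ∩ Rw₂ ∩ L(Z)`,
`I′`-fixed, with **(KD)** for `Z` at `𝔫`. -/
theorem hint_mod (𝔫 : Ideal (BRingK0 N' p A h)) [𝔫.IsPrime]
    {R : Type*} [CommRing R] [Algebra (BRingK0 N' p A h) R] [IsLocalization.AtPrime R 𝔫]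
    [Algebra R F0] [IsScalarTower (BRingK0 N' p A h) R F0] [Algebra R (fixedTame x)]
    (hRK : ∀ r : R, algebraMap R (fixedTame x) r = embK0 T hτ hx1 (algebraMap R F0 r))
    (g1 : FK (N' * p))
    (hfix : ∀ ρ : GQ, IsTameFix A ζ ρ →
      arithmeticRingAut (modularFunctionFieldFull (N' * p)) ρ g1 = g1)
    (hg1 : g1 ∈ (redDataBar (N' * p) A).Rw) (hg2 : g1 ∈ (redData2 (N' * p) A h).Rw)
    (Z : Divisor Kb (FK (N' * p))) (hZ : g1 ∈ riemannRochSpace Z)
    (hKD : ∀ P : Place Kb (FK (N' * p)), 0 < Z P →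
      ∃ b : BRingK0 N' p A h, b ∉ 𝔫 ∧ 0 < P.ord (mapK0Bar A (N' * p) (b : F0)))
    {ζE c Z' g₁E : E' T} (hζE : IsPrimitiveRoot ζE p) (hc : c = ζE - 1)
    (hg₁E : (g₁E : T.Fp) = algebraMap (FK (N' * p)) T.Fp g1)
    (hAS : (1 + c * Z') ^ p = 1 + c ^ p * g₁E)
    (d : ℕ) (θ₀ : fixedTame x) (hθ : (θ₀ : E' T) = TraceRes.traceTame x d Z') :
    IsIntegral R θ₀ := by
  have hg := isIntegralElem_g1 h hA T 𝔫 (R := R) g1 hfix hg1 hg2 Z hZ hKD g₁E hg₁E
  have hxφ : ∀ r : R, x (((embE' T).comp (algebraMap R F0)) r) =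
      ((embE' T).comp (algebraMap R F0)) r := fun r =>
    mem_fixedTame.1 (embE'_mem_fixedTame T hτ hx1 (algebraMap R F0 r))
  have htr := isIntegralElem_traceTame ((embE' T).comp (algebraMap R F0)) x hxφ d hζE hc hAS hg
  refine isIntegral_of_comp (fixedTame x).subtype Subtype.val_injective θ₀ ?_
  have e : (fixedTame x).subtype.comp (algebraMap R (fixedTame x)) =
      (embE' T).comp (algebraMap R F0) := by
    refine RingHom.ext fun r => ?_
    show ((algebraMap R (fixedTame x) r : fixedTame x) : E' T) = _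
    rw [hRK r]
    rfl
  rw [e]
  show ((embE' T).comp (algebraMap R F0)).IsIntegralElem (θ₀ : E' T)
  rw [hθ]
  exact htr

include hA in
/-- **`hint_mod` in the instance spelling of `SheetAsm.nl0_of_sheets`**: `[Algebra F₀ K0]`
(`= algK0x`, hypothesis `halg`), `[Algebra R K0]`, `[IsScalarTower R F₀ K0]`. -/
theorem hint_mod_tower (𝔫 : Ideal (BRingK0 N' p A h)) [𝔫.IsPrime]
    {R : Type*} [CommRing R] [Algebra (BRingK0 N' p A h) R] [IsLocalization.AtPrime R 𝔫]
    [Algebra R F0] [IsScalarTower (BRingK0 N' p A h) R F0] [Algebra F0 (fixedTame x)]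
    [Algebra R (fixedTame x)] [IsScalarTower R F0 (fixedTame x)]
    (halg : ∀ x0 : F0, algebraMap F0 (fixedTame x) x0 = embK0 T hτ hx1 x0)
    (g1 : FK (N' * p))
    (hfix : ∀ ρ : GQ, IsTameFix A ζ ρ →
      arithmeticRingAut (modularFunctionFieldFull (N' * p)) ρ g1 = g1)
    (hg1 : g1 ∈ (redDataBar (N' * p) A).Rw) (hg2 : g1 ∈ (redData2 (N' * p) A h).Rw)
    (Z : Divisor Kb (FK (N' * p))) (hZ : g1 ∈ riemannRochSpace Z)
    (hKD : ∀ P : Place Kb (FK (N' * p)), 0 < Z P →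
      ∃ b : BRingK0 N' p A h, b ∉ 𝔫 ∧ 0 < P.ord (mapK0Bar A (N' * p) (b : F0)))
    {ζE c Z' g₁E : E' T} (hζE : IsPrimitiveRoot ζE p) (hc : c = ζE - 1)
    (hg₁E : (g₁E : T.Fp) = algebraMap (FK (N' * p)) T.Fp g1)
    (hAS : (1 + c * Z') ^ p = 1 + c ^ p * g₁E)
    (d : ℕ) (θ₀ : fixedTame x) (hθ : (θ₀ : E' T) = TraceRes.traceTame x d Z') :
    IsIntegral R θ₀ :=
  hint_mod h hA T hτ hx1 𝔫
    (fun r => by rw [IsScalarTower.algebraMap_apply R F0 (fixedTame x), halg])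
    g1 hfix hg1 hg2 Z hZ hKD hζE hc hg₁E hAS d θ₀ hθ

end Mod

end Fermat.Agent.GF.KCover.NodeMod.HintMod

end
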