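/-
GATE-F (S44) / GF-KCOVER-NODEMOD (M-c), file 4 (helper40): **the binder `hintg` of helper84's
`NlNodeData.nl_node_data` / `NlNodeDataSmooth.nl_node_data_typeI`** — the `F₁`-valued integrality
`((embF₁ N A ζ).comp (algebraMap R F₀)).IsIntegralElem ⟨g1, hg1F⟩` of the Artin–Schreier function,
`R = B_𝔫` any localisation of the finite chart `B := BRingK0 N' ℓ A h`.

* `hintg_of_monic` : from a monic `f ∈ F₀[X]` with coefficients in `B_𝔫` (fraction-free form) and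
  `f(g1) = 0` — any source;
* `hintg_of_hKD` : from (KD) at `𝔫` (`HintMod.exists_monic_tame`);
* **`hintg_of_krullData`** : from helper60's level-generic `KrullData` at
  `𝔫 := centreP h hℓN hA (primeL hℓN hA Pl hPl)` (`KrullData.exists_monic_centreP'`) — runs at level
  `N` and, after `KrullData.up`, at level `4N`.
-/
import Fermat.Agent.GF.KCover.NodeMod.HintMod
import Fermat.Agent.GF.KCover.ASNode.KrullUp

set_option autoImplicit false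
set_option linter.unusedSectionVars false
set_option linter.unusedVariables false

noncomputable section

namespace Fermat.Agent.GF.KCover.NodeMod.HintF1

open Polynomial ModularCurve AlgebraicCurve
open Fermat.Agent.S24 Fermat.Agent.S24_helper62
open Fermat.Agent.GJ.J1 Fermat.Agent.GJ.J1.Val Fermat.Agent.GJ.KumGroup
open Fermat.Agent.GK.SS Fermat.Agent.GK.AL Fermat.Agent.GL.AL Fermat.Agent.GK.NodalGraded
open Fermat.Agent.GK.QS
open Fermat.Agent.GL.Val.GaussK0 Fermat.Agent.GL.Val.SecondK0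
open Fermat.Agent.GL.BRingK0
open Fermat.Agent.GL.KrullHeightOne
open Fermat.Agent.Common_helper32
open Fermat.Agent.GF.Peu Fermat.Agent.GF.F2Asm.Inst
open Fermat.Agent.GF.KCover.Field.WDataOf
open Fermat.Agent.GF.KCover.Int.K0Model
open Fermat.Agent.GF.KCover.Node Fermat.Agent.GF.KCover.Node.NodeRingK0Level
open Fermat.Agent.GF.KCover.ASNode Fermat.Agent.GF.KCover.ASNode.KrullUp
open Fermat.Agent.GF.KCover.NodeMod.HintMod

attribute [local instance] Fermat.Agent.GL.Frame.InstK0.algSubringFullC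

local notation "Qb" => AlgebraicClosure ℚ
local notation "GQ" => (AlgebraicClosure ℚ ≃ₐ[ℚ] AlgebraicClosure ℚ)

variable {A : ValuationSubring Qb} {N' : ℕ} [NeZero N'] {ℓ : ℕ} [Fact ℓ.Prime] [NeZero ℓ]
  (h : ExactDvd ℓ (N' * ℓ)) (hℓN : ¬ ℓ ∣ N') (hA : A.LiesOverPrime ℓ) {ζ : Qb}

local notation "F0" => modularFunctionFieldFullC (K0 A) (N' * ℓ)

/-- **`hintg` from a monic polynomial with coefficients in `B_𝔫`.** -/
theorem hintg_of_monic (𝔫 : Ideal (BRingK0 N' ℓ A h)) [𝔫.IsPrime]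
    {R : Type*} [CommRing R] [Algebra (BRingK0 N' ℓ A h) R] [IsLocalization.AtPrime R 𝔫]
    [Algebra R F0] [IsScalarTower (BRingK0 N' ℓ A h) R F0]
    (g1 : FK (N' * ℓ)) (hg1F : g1 ∈ F₁ (N' * ℓ) A ζ) (f : F0[X]) (hfm : f.Monic)
    (hcoef : ∀ k, ∃ s a : BRingK0 N' ℓ A h, s ∉ 𝔫 ∧ (a : F0) = (s : F0) * f.coeff k)
    (hroot : Polynomial.eval₂ (mapK0Bar A (N' * ℓ)) g1 f = 0) :
    ((embF₁ (N' * ℓ) A ζ).comp (algebraMap R F0)).IsIntegralElem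
      (⟨g1, hg1F⟩ : F₁ (N' * ℓ) A ζ) := by
  obtain ⟨P, hPm, hP⟩ := isIntegralElem_of_monic_frac (R := R) 𝔫 (mapK0Bar A (N' * ℓ))
    (RingHom.id (FK (N' * ℓ))) g1 f hfm (fun k => hcoef k) hroot
  refine ⟨P, hPm, ?_⟩
  apply Subtype.ext
  have e : (F₁ (N' * ℓ) A ζ).subtype.comp ((embF₁ (N' * ℓ) A ζ).comp (algebraMap R F0)) =
      ((RingHom.id (FK (N' * ℓ))).comp (mapK0Bar A (N' * ℓ))).comp (algebraMap R F0) := rfl
  have h1 : (F₁ (N' * ℓ) A ζ).subtype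
      (P.eval₂ ((embF₁ (N' * ℓ) A ζ).comp (algebraMap R F0)) (⟨g1, hg1F⟩ : F₁ (N' * ℓ) A ζ)) =
      P.eval₂ ((F₁ (N' * ℓ) A ζ).subtype.comp ((embF₁ (N' * ℓ) A ζ).comp (algebraMap R F0)))
        ((F₁ (N' * ℓ) A ζ).subtype (⟨g1, hg1F⟩ : F₁ (N' * ℓ) A ζ)) :=
    Polynomial.hom_eval₂ P _ _ _
  show (F₁ (N' * ℓ) A ζ).subtype
    (P.eval₂ ((embF₁ (N' * ℓ) A ζ).comp (algebraMap R F0)) (⟨g1, hg1F⟩ : F₁ (N' * ℓ) A ζ)) =
      (0 : FK (N' * ℓ))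
  rw [h1, e]
  exact hP

include hA in
/-- **`hintg` from (KD) at `𝔫`.** -/
theorem hintg_of_hKD (hζ : IsPrimitiveRoot ζ ℓ) (𝔫 : Ideal (BRingK0 N' ℓ A h)) [𝔫.IsPrime]
    {R : Type*} [CommRing R] [Algebra (BRingK0 N' ℓ A h) R] [IsLocalization.AtPrime R 𝔫]
    [Algebra R F0] [IsScalarTower (BRingK0 N' ℓ A h) R F0]
    (g1 : FK (N' * ℓ))
    (hfix : ∀ ρ : GQ, IsTameFix A ζ ρ →
      arithmeticRingAut (modularFunctionFieldFull (N' * ℓ)) ρ g1 = g1)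
    (hg1 : g1 ∈ (redDataBar (N' * ℓ) A).Rw) (hg2 : g1 ∈ (redData2 (N' * ℓ) A h).Rw)
    (Z : Divisor Kb (FK (N' * ℓ))) (hZ : g1 ∈ riemannRochSpace Z)
    (hKD : ∀ P : Place Kb (FK (N' * ℓ)), 0 < Z P →
      ∃ b : BRingK0 N' ℓ A h, b ∉ 𝔫 ∧ 0 < P.ord (mapK0Bar A (N' * ℓ) (b : F0))) :
    ((embF₁ (N' * ℓ) A ζ).comp (algebraMap R F0)).IsIntegralElem
      (⟨g1, mem_F₁.2 hfix⟩ : F₁ (N' * ℓ) A ζ) := by
  obtain ⟨f, hfm, hcoef, hroot⟩ := exists_monic_tame h hA hζ 𝔫 g1 hfix hg1 hg2 Z hZ hKD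
  exact hintg_of_monic h 𝔫 g1 (mem_F₁.2 hfix) f hfm hcoef hroot

variable [IsDedekindDomain (CRing N' A)] [IsFractionRing (CRing N' A) (FresBar N' A)]

include hA in
/-- **`hintg` from helper60's `KrullData`** at the point `Pl` (`j~(Pl) = c₀`),
`𝔫 := centreP h hℓN hA (primeL hℓN hA Pl hPl)` — the `𝔫` of `NodeK0Call.nl0_at_point`. -/
theorem hintg_of_krullData {Mg : Type*} [Group Mg] [Finite Mg] {χ : (Qb ≃ₐ[ℚ] Qb) →* Mg}
    {c₀ : IsLocalRing.ResidueField A} {g1 : FK (N' * ℓ)}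
    (hK : KrullData A (N' * ℓ) h χ c₀ g1)
    (Pl : Place (IsLocalRing.ResidueField A) (FresBar (N' * ℓ) A)) (hPl : ContainsC hℓN hA Pl)
    (hc₀ : ValueAt Pl (fresInclInv hℓN hA (Fermat.Agent.GK.QS.jt N' A)) c₀)
    {R : Type*} [CommRing R] [Algebra (BRingK0 N' ℓ A h) R]
    [IsLocalization.AtPrime R (centreP (A := A) h hℓN hA (primeL hℓN hA Pl hPl))]
    [Algebra R F0] [IsScalarTower (BRingK0 N' ℓ A h) R F0]
    (hg1F : g1 ∈ F₁ (N' * ℓ) A ζ) :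
    ((embF₁ (N' * ℓ) A ζ).comp (algebraMap R F0)).IsIntegralElem
      (⟨g1, hg1F⟩ : F₁ (N' * ℓ) A ζ) := by
  obtain ⟨f, hfm, hcoef, hroot⟩ := hK.exists_monic_centreP' h hℓN hA Pl hPl hc₀
  exact hintg_of_monic h (centreP (A := A) h hℓN hA (primeL hℓN hA Pl hPl)) g1 hg1F f hfm hcoef
    hroot

end Fermat.Agent.GF.KCover.NodeMod.HintF1

end
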