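/-
GATE-F (S44) / GF-KCOVER-NODEMOD-K0INST (helper56; helper84 board 6890 §4): **the `K₀`-MODEL block of
the per-point theorem** (`NlPointDataK0.nl_point_data_K0`, `NlNodeSheets.nl_node_sheets`,
`NodeK0Call.nl0_at_point`) at `E := Fix.fixedTame x ⊆ E' T`, `F₀ := K₀(X₀(N))`
(`modularFunctionFieldFullC (K0 A) N`), `R := KrullHeightOne.locSub F₀ 𝔫` (`B := BRingK0 N' ℓ A h`).

ABSTRACT
* `isNoetherianRing_locSub`, `isIntegrallyClosed_locSub`, `coe_algebraMap_locSub` : the `R`-block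
  `[IsNoetherianRing R] [IsIntegrallyClosed R]` for `R := locSub F 𝔫` (the other instances
  `[IsDomain R] [Algebra B R] [IsLocalization.AtPrime R 𝔫] [Algebra R F] [IsFractionRing R F]` are
  global instances of `Subalgebra` / `KrullHeightOne`);
* `map_mem_of_locSub` : a ring hom maps `B_𝔫` into a valuation subring `W` as soon as it maps `B`
  into `W` and `B ∖ 𝔫` to `W`-units;
* **`finrank_fixed_of_sheet`** : `finrank F₀ E = p ∧ Module.Finite F₀ E` (= `hrank` and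
  `[FiniteDimensional F₀ E]`) in the abstract frame, from the binders `nl_node_sheets` /
  `nl_point_data_K0` ALREADY have on ONE branch (`hF hζc hc0 hcv hZ' hz hp`) and the model binders
  `ι₀ hι₀ hfix` — `FixedGenPlug.hconj_traceTame` on the sheet `0` + `RankP.finrank_fixed_inclusion`
  + `RankModel.finrank_of_model`.

MODULAR, any level `N` (`T : TameDatum N p A ζ`, `hx : IsOver x (tauF₁ T hτ)`)
* `algF₀ T hτ hx : Algebra F₀ (fixedTame x)` (`= K0Model.algK0x`), `hι₀` (`ι₀ := K0Model.embF₁`,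
  `rfl`), `algR T hτ hx : Algebra R (fixedTame x)` for any `[Algebra R F₀]`, `tower_algR`,
  `inclK0_algR` (the composite `R → T.Fp` is `algebraMap ∘ mapK0Bar`, `rfl`);
  [`hfix := K0Model.exists_embF₁_of_fixed T hτ hgen`, `hτι := K0Model.tauF₁_embF₁ T hτ`]
* `hp_lt_one` = `hpA`, `hpB`;
* **`hrank`** : `finrank F₀ (fixedTame x) = p ∧ Module.Finite F₀ (fixedTame x)` for ANY Kummer frame
  `H₁` of `E' T` over `F₁` with root `1 + c Z'` (the RESCALE'd frame plugs).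

MODULAR, level `N' ℓ`, `B := BRingK0 N' ℓ A h`, `𝔫` a prime of `B`, `R := locSub F₀ 𝔫`
* `mapK0Bar_mem_Rw1_of_locSub` (`ker redC1K0 ≤ 𝔫`), `mapK0Bar_mem_Rw2_of_locSub`
  (`ker redC2K0 ≤ 𝔫`, i.e. `IsNodeP` through `ker_redC2K0_le_centreP`);
* **`hRA`, `hRB`** = the binders `hRA`, `hRB` VERBATIM (`va := valF₁ T (galVal1 N A)`,
  `vb := valF₁ T (galVal2 N A h)`, `ι₀ := embF₁`).
-/
import Fermat.Agent.GF.KCover.Int.K0Model
import Fermat.Agent.GF.KCover.Node.NodeRingK0Level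
import Fermat.Agent.GF.KCover.Node.RankP
import Fermat.Agent.GF.KCover.Node.RankModel
import Fermat.Agent.GF.KCover.Node.FixedGenPlug
import Fermat.Agent.GF.KCover.Node.NlNodeSheets
import Fermat.Agent.GL.Alg.KrullHeightOne

set_option autoImplicit false
set_option linter.unusedSectionVars false
set_option linter.style.haveILetI false

noncomputable section

namespace Fermat.Agent.GF.KCover.NodeMod.K0Inst

open ModularCurve Polynomial AlgebraicCurve IsDedekindDomain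
open Fermat.Agent.GL.KrullHeightOne
open Fermat.Agent.GK.SS Fermat.Agent.GK.AL Fermat.Agent.GJ.KumGroup Fermat.Agent.GF.Peu
open Fermat.Agent.GJ.Kum.KumType
open Fermat.Agent.GF.F2Asm.Inst Fermat.Agent.GF.KCover
open Fermat.Agent.GF.KCover.Field Fermat.Agent.GF.KCover.Field.WDataOf
open Fermat.Agent.GF.KCover.Int Fermat.Agent.GF.KCover.Int.TameLift
open Fermat.Agent.GF.KCover.Int.TameNL Fermat.Agent.GF.KCover.Int.K0Model
open Fermat.Agent.GL.Val.GaussK0 Fermat.Agent.GL.Val.SecondK0 Fermat.Agent.GL.RatLiftK0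
open Fermat.Agent.GF.KCover.Node
open Fermat.Agent.GJ.J1 Fermat.Agent.GJ.J1.Val
open Fermat.Agent.GL.AL Fermat.Agent.GK.QS
open Fermat.Agent.Common_helper32
open Fermat.Agent.S24 Fermat.Agent.S24_helper6
open Fermat.Agent.GL.BRingK0 Fermat.Agent.GL.BRingChart Fermat.Agent.GL.Thick
open Fermat.Agent.GF.KCover.Node.NodeRingK0Pkg
open Fermat.Agent.GF.KCover.Node.NodeRingK0Level

/-! ### (I) abstract: the localisation `B_𝔫 ⊆ Frac B` -/

section LocSub

variable {B F : Type*} [CommRing B] [IsDomain B] [Field F] [Algebra B F] [IsFractionRing B F]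
  (𝔫 : Ideal B) [𝔫.IsPrime]

theorem isNoetherianRing_locSub [IsNoetherianRing B] : IsNoetherianRing (locSub F 𝔫) :=
  IsLocalization.isNoetherianRing 𝔫.primeCompl (locSub F 𝔫) inferInstance

theorem isIntegrallyClosed_locSub [IsIntegrallyClosed B] : IsIntegrallyClosed (locSub F 𝔫) :=
  isIntegrallyClosed_of_isLocalization (locSub F 𝔫) 𝔫.primeCompl
    (primeCompl_le_nonZeroDivisors 𝔫)

theorem coe_algebraMap_locSub (r : locSub F 𝔫) : algebraMap (locSub F 𝔫) F r = (r : F) := rfl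

theorem coe_algebraMap_locSub' (b : B) :
    ((algebraMap B (locSub F 𝔫) b : locSub F 𝔫) : F) = algebraMap B F b := rfl

/-- a ring hom `φ : Frac B → F'` maps `B_𝔫` into a valuation subring `W` of `F'` as soon as it maps
`B` into `W` and `B ∖ 𝔫` to `W`-units. -/
theorem map_mem_of_locSub {F' : Type*} [Field F'] (φ : F →+* F') (W : ValuationSubring F')
    (hB : ∀ b : B, φ (algebraMap B F b) ∈ W)
    (hinv : ∀ s : B, s ∉ 𝔫 → φ (algebraMap B F s) ∉ W.nonunits) (r : locSub F 𝔫) :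
    φ (r : F) ∈ W := by
  obtain ⟨s, hs, a, ha⟩ := (mem_locSub_iff 𝔫).1 r.2
  have h0 := algebraMap_ne_zero_of_not_mem (F := F) 𝔫 hs
  have e : (r : F) = (algebraMap B F s)⁻¹ * algebraMap B F a := by
    rw [ha, Algebra.smul_def, ← mul_assoc, inv_mul_cancel₀ h0, one_mul]
  rw [e, map_mul, map_inv₀]
  refine W.mul_mem _ _ ?_ (hB a)
  by_contra hinv'
  exact hinv s hs ((ValuationSubring.mem_nonunits_iff_or _).2 (Or.inr hinv'))

end LocSub


/-! ### (III) abstract: the rank of the fixed field of the tame generator over its `K₀`-model -/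

section Rank

open Fermat.Agent.GF.KCover.Field Fermat.Agent.GF.KCover.Field.Disc
  Fermat.Agent.GF.KCover.Field.Pack
open Fermat.Agent.GF.KCover.Node Fermat.Agent.GF.KCover.Node.NlNodeSheets

variable {E₁ : Type*} [Field E₁] {Γ₀ : Type*} [LinearOrderedCommGroupWithZero Γ₀]
variable {v : Valuation E₁ Γ₀} {ϖ : E₁} (h : IsDisc v ϖ)
variable {E' : Type*} [Field E'] [Algebra E₁ E'] {p : ℕ} [NeZero p] [Fact p.Prime] {g₀ : E₁}
  (H₁ : IsAdjoinRoot E' (X ^ p - C g₀ : E₁[X])) {ζ : E₁} (hζ : IsPrimitiveRoot ζ p)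
  {γ : Lc h} (hγ : γ ^ p = jc h g₀)

/-- **`hrank` (and `FiniteDimensional`) of `nl0_of_sheets` / `nl_node_sheets`, abstract frame**:
the fixed field `E` of the tame generator `x` has degree `p` over any model `F₀` of the `τ`-fixed
elements of the base — from the binders `nl_node_sheets` already has on ONE branch
(`hF hζc hc0 hcv hZ' hz hp`), through `FixedGenPlug.hconj_traceTame` on the sheet `0`,
`RankP.finrank_fixed_inclusion` and `RankModel.finrank_of_model`. -/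
theorem finrank_fixed_of_sheet (τ : E₁ ≃+* E₁) (hτ : ∀ a, v (τ a) = v a)
    {x : E' ≃+* E'} (hx : IsOver (x : E' →+* E') (τ : E₁ →+* E₁))
    (hxδ : Commute (x : E' →+* E') (deck H₁ hζ)) (hg₀ : g₀ ≠ 0) {d : ℕ}
    (hd : Nat.Coprime d p) (hxd : (x : E' →+* E') ^ d = 1) (hτd : τ ^ d = 1)
    (hF : ∀ b : E₁, v b ≤ 1 → ∃ a : E₁, τ a = a ∧ v (b - a) < 1)
    {cz : E₁} (hζc : ζ = 1 + cz) (hc0 : cz ≠ 0) (hcv : v cz < 1)
    {Z' : E'} (hZ' : H₁.root = 1 + algebraMap E₁ E' cz * Z')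
    (hz : ‖emb H₁ hζ (jc h) hγ 0 Z'‖ ≤ 1)
    (hp : v ((p : ℕ) : E₁) < 1)
    (E : Subfield E') (hE : ∀ y, y ∈ E ↔ x y = y)
    {F₀ : Type*} [Field F₀] [Algebra F₀ E] (ι₀ : F₀ →+* E₁)
    (hι₀ : ∀ a : F₀, ((algebraMap F₀ E a : E) : E') = algebraMap E₁ E' (ι₀ a))
    (hmodel : ∀ a : E₁, τ a = a → ∃ a0 : F₀, ι₀ a0 = a)
    (θ₀ : E) (hθ₀ : (θ₀ : E') = TraceRes.traceTame x d Z') :
    Module.finrank F₀ E = p ∧ Module.Finite F₀ E := by
  have hpp : p.Prime := Fact.out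
  have hd' : ¬ p ∣ d := fun hdvd => by
    have h1 : p ∣ Nat.gcd d p := Nat.dvd_gcd hdvd dvd_rfl
    rw [hd] at h1
    exact hpp.one_lt.ne' (Nat.dvd_one.1 h1)
  -- the conjugates of `θ` are distinct
  have hϖ : emb H₁ hζ (jc h) hγ 0 (algebraMap E₁ E' cz) ∈ (ballC h).nonunits := by
    rw [emb_algebraMap]
    exact (mem_ballC_nonunits h).2 ((norm_jc_lt_one_iff h).2 hcv)
  have hϖ0 : emb H₁ hζ (jc h) hγ 0 (algebraMap E₁ E' cz) ≠ 0 := by
    rw [emb_algebraMap]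
    exact (_root_.map_ne_zero _).2 hc0
  have hpO : ((p : ℕ) : Lc h) ∈ (ballC h).nonunits := by
    have e : ((p : ℕ) : Lc h) = jc h ((p : ℕ) : E₁) := by rw [map_natCast]
    rw [e]
    exact (mem_ballC_nonunits h).2 ((norm_jc_lt_one_iff h).2 hp)
  have hconj := FixedGenPlug.hconj_traceTame H₁ hζ (ballC h) hpp x hxδ hd'
    (emb H₁ hζ (jc h) hγ 0) (tauC h τ hτ)
    (fun y => emb_tame h H₁ hζ hγ τ hτ hx hxδ hg₀ hd hxd hτd 0 y)
    (fun y hy => (mem_ballC_nonunits h).2 (tauC_inertial h τ hτ hF ((mem_ballC h).1 hy)))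
    hζc hZ' hϖ hϖ0 ((mem_ballC h).2 hz) hpO
  -- the subfield `F0 = ι₀(F₀)` of `E'`
  set F0 : Subfield E' := ((algebraMap E₁ E').comp ι₀).fieldRange with hF0def
  have hmem : ∀ y : E', y ∈ F0 ↔ ∃ a : F₀, ((algebraMap F₀ E a : E) : E') = y := by
    intro y
    rw [hF0def, RingHom.mem_fieldRange]
    constructor
    · rintro ⟨a, rfl⟩
      exact ⟨a, hι₀ a⟩
    · rintro ⟨a, rfl⟩
      exact ⟨a, (hι₀ a).symm⟩
  have hle : F0 ≤ E := by
    intro y hy
    obtain ⟨a, rfl⟩ := (hmem y).1 hy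
    exact (algebraMap F₀ E a).2
  have hfix := RankP.finrank_fixed_inclusion (DeckFixed.deckEquiv H₁ hζ hpp.ne_zero) x
    (FixedGenPlug.comm_apply H₁ hζ hpp.ne_zero x hxδ) hpp.pos
    (DeckFixed.deckEquiv_pow_p H₁ hζ hpp.ne_zero) F0 E
    (DeckFixed.hF0_of_range H₁ hζ hpp.ne_zero x hx F0 (fun a ha => by
      obtain ⟨a0, rfl⟩ := hmodel a ha
      exact ⟨a0, rfl⟩))
    (fun y hy => by
      obtain ⟨a0, rfl⟩ := hy
      exact DeckFixed.deckEquiv_algebraMap H₁ hζ hpp.ne_zero _)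
    hE hle θ₀ (by rw [hθ₀]; exact hconj)
  have hrank : Module.finrank F₀ E = p := by
    rw [RankModel.finrank_of_model E F0 hle hmem]
    exact hfix.1
  refine ⟨hrank, Module.finite_of_finrank_pos ?_⟩
  rw [hrank]
  exact hpp.pos

end Rank

local notation "Qb" => AlgebraicClosure ℚ
local notation "GQ" => (AlgebraicClosure ℚ ≃ₐ[ℚ] AlgebraicClosure ℚ)

/-! ### (I)–(IV) the `K₀`-model of the fixed field of the tame generator, any level `N` -/

section Model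

open Fermat.Agent.GF.KCover.Field.Disc Fermat.Agent.GF.KCover.Field.Pack

variable {N : ℕ} [NeZero N] {p : ℕ} [hpF : Fact p.Prime] {A : ValuationSubring Qb} {ζ : Qb}

attribute [local instance] actFK algE'

variable (T : TameDatum N p A ζ) {τ : GQ} (hτ : τ ∈ A.inertiaSubgroupIn ℚ)
  {x : E' T ≃+* E' T}
  (hx : IsOver (x : E' T →+* E' T)
    ((tauF₁ T hτ : F₁ N A ζ ≃+* F₁ N A ζ) : F₁ N A ζ →+* F₁ N A ζ))

/-- `K₀(X₀(N)) → K0 := fixedTame x`, from the `IsOver` form of the tame generator. -/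
@[reducible] def algF₀ : Algebra (modularFunctionFieldFullC (K0 A) N) (fixedTame x) :=
  algK0x T hτ (fun a => hx a)

/-- **`hι₀` of `nl_node_sheets`** for `ι₀ := embF₁ N A ζ`. -/
theorem hι₀ (a : modularFunctionFieldFullC (K0 A) N) :
    letI := algF₀ T hτ hx
    ((algebraMap (modularFunctionFieldFullC (K0 A) N) (fixedTame x) a : fixedTame x) : E' T) =
      algebraMap (F₁ N A ζ) (E' T) (embF₁ N A ζ a) := rfl

variable {R : Type*} [CommRing R] [Algebra R (modularFunctionFieldFullC (K0 A) N)]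

/-- the `R`-algebra structure of the fixed field, through `K₀(X₀(N))`. -/
@[reducible] def algR : Algebra R (fixedTame x) :=
  ((embK0 T hτ (fun a => hx a)).comp
    (algebraMap R (modularFunctionFieldFullC (K0 A) N))).toAlgebra

theorem tower_algR :
    letI := algF₀ T hτ hx
    letI := algR (R := R) T hτ hx
    IsScalarTower R (modularFunctionFieldFullC (K0 A) N) (fixedTame x) := by
  letI := algF₀ T hτ hx
  letI := algR (R := R) T hτ hx
  exact IsScalarTower.of_algebraMap_eq fun _ => rfl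

/-- the composite `R → K0 → E' T → T.Fp` is `mapK0Bar` (the input `hι'` of helper45
`RhoBK0.hρB_i_K0`, and of `hρB_i`/`he_i`). -/
theorem inclK0_algR (r : R) :
    letI := algR (R := R) T hτ hx
    inclK0 T x (algebraMap R (fixedTame x) r) =
      algebraMap (FK N) T.Fp
        (mapK0Bar A N (algebraMap R (modularFunctionFieldFullC (K0 A) N) r)) := rfl

/-- **`hpA`, `hpB` of `nl_node_sheets`**. -/
theorem hp_lt_one (hAp : (p : Qb) ∈ A.nonunits) (V : GalVal N A) :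
    valF₁ T V ((p : ℕ) : F₁ N A ζ) < 1 :=
  valFix_natCast_lt_one ζ V hAp

/-- **`hrank` and `FiniteDimensional` of `nl_node_sheets` on the concrete cover**, for ANY Kummer
frame `H₁` of `E' T` over `F₁` whose root is `1 + c Z'` (the RESCALE'd frame), from the data of ONE
branch `V`. -/
theorem hrank (hgen : ∀ σ ∈ A.inertiaSubgroupIn ℚ, ∃ m : ℕ, IsTameFix A ζ ((τ ^ m)⁻¹ * σ))
    (hAp : (p : Qb) ∈ A.nonunits)
    {V : GalVal N A} (hD : IsDisc (valF₁ T V) (ϖ₁ T))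
    {g₀' : F₁ N A ζ} (H₁ : IsAdjoinRoot (E' T) (X ^ p - C g₀' : (F₁ N A ζ)[X]))
    {γ : Lc hD} (hγ : γ ^ p = jc hD g₀')
    (hxδ : Commute (x : E' T →+* E' T) (deck H₁ (ζ₁_prim T))) (hg₀ : g₀' ≠ 0) {d : ℕ}
    (hd : Nat.Coprime d p) (hxd : (x : E' T →+* E' T) ^ d = 1) (hτd : tauF₁ T hτ ^ d = 1)
    {cz : F₁ N A ζ} (hζc : ζ₁ T = 1 + cz) (hc0 : cz ≠ 0) (hcv : valF₁ T V cz < 1)
    {Z' : E' T} (hZ' : H₁.root = 1 + algebraMap (F₁ N A ζ) (E' T) cz * Z')
    (hz : ‖emb H₁ (ζ₁_prim T) (jc hD) hγ 0 Z'‖ ≤ 1)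
    (θ₀ : fixedTame x) (hθ₀ : (θ₀ : E' T) = TraceRes.traceTame x d Z') :
    letI := algF₀ T hτ hx
    Module.finrank (modularFunctionFieldFullC (K0 A) N) (fixedTame x) = p ∧
      Module.Finite (modularFunctionFieldFullC (K0 A) N) (fixedTame x) := by
  letI := algF₀ T hτ hx
  exact finrank_fixed_of_sheet hD H₁ (ζ₁_prim T) hγ (tauF₁ T hτ) (valF₁_tauF₁ T hτ hAp V) hx hxδ hg₀
    hd hxd hτd (TameLift.hF T hτ hAp V) hζc hc0 hcv hZ' hz (hp_lt_one T hAp V)
    (fixedTame x) (fun y => mem_fixedTame) (embF₁ N A ζ) (fun a => rfl)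
    (exists_embF₁_of_fixed T hτ hgen) θ₀ hθ₀

end Model

attribute [local instance] Fermat.Agent.GL.Frame.InstK0.algSubringFullC

variable {A : ValuationSubring Qb} {N' : ℕ} [NeZero N'] {ℓ : ℕ} [Fact ℓ.Prime] [NeZero ℓ]
  (h : ExactDvd ℓ (N' * ℓ)) (hℓN : ¬ ℓ ∣ N') (hA : A.LiesOverPrime ℓ)

local notation "F0" => modularFunctionFieldFullC (K0 A) (N' * ℓ)


variable [IsDedekindDomain (CRing N' A)] [IsFractionRing (CRing N' A) (FresBar N' A)]
variable [IsFractionRing (BRingK0 N' ℓ A h) (modularFunctionFieldFullC (K0 A) (N' * ℓ))]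

/-! ### (V) the local ring of the chart at `𝔫` lies in the Gauss valuation rings -/

section Gauss

variable (𝔫 : Ideal (BRingK0 N' ℓ A h)) [𝔫.IsPrime]

/-- **`B_𝔫 ⊆ Rw₁`** as soon as `𝔫` contains the first vertical prime. -/
theorem mapK0Bar_mem_Rw1_of_locSub (hker : RingHom.ker (redC1K0 h hℓN hA) ≤ 𝔫)
    (r : locSub F0 𝔫) : mapK0Bar A (N' * ℓ) (r : F0) ∈ (redDataBar (N' * ℓ) A).Rw := by
  refine map_mem_of_locSub (F := F0) 𝔫 (mapK0Bar A (N' * ℓ)) (redDataBar (N' * ℓ) A).Rw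
    (fun b => (mapK0Bar_mem_Rw h b).1) (fun s hs hmem => ?_) r
  have hs1 : redC1K0 h hℓN hA s = 0 :=
    (redC1K0_eq_zero_iff h hA hℓN).2 ((mem_nonunits_Rw1K0_iff A (N' * ℓ) _).2 hmem)
  exact hs (hker ((RingHom.mem_ker).2 hs1))

/-- **`B_𝔫 ⊆ Rw₂`** as soon as `𝔫` contains the second vertical prime (`IsNodeP` for
`𝔫 = centreP … P`: `ker_redC2K0_le_centreP`). -/
theorem mapK0Bar_mem_Rw2_of_locSub (hker : RingHom.ker (redC2K0 h hℓN hA) ≤ 𝔫)
    (r : locSub F0 𝔫) : mapK0Bar A (N' * ℓ) (r : F0) ∈ (redData2 (N' * ℓ) A h).Rw := by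
  refine map_mem_of_locSub (F := F0) 𝔫 (mapK0Bar A (N' * ℓ)) (redData2 (N' * ℓ) A h).Rw
    (fun b => (mapK0Bar_mem_Rw h b).2) (fun s hs hmem => ?_) r
  have hs1 : redC2K0 h hℓN hA s = 0 :=
    (NodeRingK0.redC2K0_eq_zero_iff h hℓN hA s).2
      ((mem_nonunits_Rw2K0_iff A (N' * ℓ) h _).2 hmem)
  exact hs (hker ((RingHom.mem_ker).2 hs1))

variable {p : ℕ} [hpF : Fact p.Prime] {ζ : Qb} (T : TameDatum (N' * ℓ) p A ζ)

/-- **the binder `hRA` of `NlNodeSheets.nl_node_sheets`** (= `hjR₁` of `nl0_of_sheets`) for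
`R := locSub F0 𝔫`, `ι₀ := embF₁`, `va := valF₁ T (galVal1 N A)`. -/
theorem hRA (hker : RingHom.ker (redC1K0 h hℓN hA) ≤ 𝔫) (r : locSub F0 𝔫) :
    valF₁ T (galVal1 (N' * ℓ) A)
      (embF₁ (N' * ℓ) A ζ (algebraMap (locSub F0 𝔫) F0 r)) ≤ 1 := by
  rw [valF₁_apply, coe_embF₁]
  exact ((redDataBar (N' * ℓ) A).Rw.valuation_le_one_iff _).2
    (mapK0Bar_mem_Rw1_of_locSub h hℓN hA 𝔫 hker r)

/-- **the binder `hRB` of `NlNodeSheets.nl_node_sheets`** (= `hjR₂` of `nl0_of_sheets`); `hker` is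
`ker_redC2K0_le_centreP … hnode` at a node. -/
theorem hRB (hker : RingHom.ker (redC2K0 h hℓN hA) ≤ 𝔫) (r : locSub F0 𝔫) :
    valF₁ T (galVal2 (N' * ℓ) A h)
      (embF₁ (N' * ℓ) A ζ (algebraMap (locSub F0 𝔫) F0 r)) ≤ 1 := by
  rw [valF₁_apply, coe_embF₁]
  exact ((redData2 (N' * ℓ) A h).Rw.valuation_le_one_iff _).2
    (mapK0Bar_mem_Rw2_of_locSub h hℓN hA 𝔫 hker r)

end Gauss

end Fermat.Agent.GF.KCover.NodeMod.K0Inst

end
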