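/-
GATE-F (S44) / GF-KCOVER-INST, node side, stage 2 (helper75): **helper84's
`NlNodeDataSmooth.nl_node_data_typeI` with the WHOLE downstairs block and `hvE` DISCHARGED at a
SMOOTH point `Pl` of the finite chart `BRingK0 N' ℓ A h`**
(`hnode : ¬ IsNodeP h hℓN hA (primeL hℓN hA Pl hPl)`) — the twin of
`NlNodeDataK0.nl_node_data_K0`:

  `B := BRingK0 N' ℓ A h`, `𝔫 := centreP h hℓN hA (primeL Pl)`, `C₁ := CRing N' A` acting on
  `Ft := FresBar (N' * ℓ) A` through `NodeRingK0Level.algCFres`, `rd₁ := redC1K0`,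
  `𝔫'₁ := primeL Pl`, `(y₁, s, c)` from `thickness_one_prime_typeI`, `l := ellB h`,
  `hvE := hvE_level`.

Frame / tame / fixed field / group / Artin–Schreier binders: `nl_node_data_typeI` VERBATIM (the
second reduction `Rb : RedData K F k Ft₂` is arbitrary: it only carries `w₂`).  The binder `hρB₁` is
stated in the instance-free spelling of `nl0_at_smooth`.

* **`nl_node_data_typeI_K0`**.
-/
import Fermat.Agent.GF.KCover.Node.NodeRingK0Level
import Fermat.Agent.GF.KCover.Node.NlNodeDataSmooth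

set_option autoImplicit false
set_option linter.unusedSectionVars false
set_option linter.unusedVariables false
set_option linter.style.haveILetI false

noncomputable section

open Polynomial AlgebraicCurve

namespace Fermat.Agent.GF.KCover.NodeMod.NlNodeDataSmoothK0

open ModularCurve IsLocalRing IsDedekindDomain
open Fermat.Agent.GL.Val.GaussK0 Fermat.Agent.GL.Val.SecondK0
open Fermat.Agent.GJ.KumGroup Fermat.Agent.GJ.J1 Fermat.Agent.GJ.J1.Val
open Fermat.Agent.GK.AL Fermat.Agent.GL.AL Fermat.Agent.GK.QS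
open Fermat.Agent.Common_helper32
open Fermat.Agent.S24 Fermat.Agent.S24_helper6
open Fermat.Agent.GF.Trop
open Fermat.Agent.GL.BRingK0 Fermat.Agent.GL.BRingChart Fermat.Agent.GL.Thick
open Fermat.Agent.GF.KCover.Node Fermat.Agent.GF.KCover.Node.NodeRingK0Pkg
open Fermat.Agent.GF.KCover.Node.NodeRingK0Level
open Fermat.Agent.GF.KCover.Field Fermat.Agent.GF.KCover.Field.Disc
  Fermat.Agent.GF.KCover.Field.Pack
open Fermat.Agent.GF.KCover.Compl Fermat.Agent.GF.KCover.Compl.Bridge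
  Fermat.Agent.GF.KCover.Compl.RedCompl Fermat.Agent.GF.KCover.Compl.RedAut
  Fermat.Agent.GF.KCover.Compl.BridgeTau
open Fermat.Agent.GF.KCover.Node.OrdRedExt
  Fermat.Agent.GF.KCover.Node.NlNode Fermat.Agent.GF.KCover.Node.NlNodeSheets

attribute [local instance] Fermat.Agent.GL.Frame.InstK0.algSubringFullC

variable {A : ValuationSubring Qb} {N' : ℕ} [NeZero N'] {ℓ : ℕ} [Fact ℓ.Prime] [NeZero ℓ]
  (h : ExactDvd ℓ (N' * ℓ)) (hℓN : ¬ ℓ ∣ N') (hA : A.LiesOverPrime ℓ)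

variable [IsDedekindDomain (CRing N' A)] [IsFractionRing (CRing N' A) (FresBar N' A)]

variable {K F Ft₂ : Type*} [Field K] [Field F] [Algebra K F] [Field Ft₂]
  [Algebra (IsLocalRing.ResidueField A) Ft₂]
variable (Ra : RedData K F (IsLocalRing.ResidueField A) (FresBar (N' * ℓ) A))
  (Rb : RedData K F (IsLocalRing.ResidueField A) Ft₂)
variable {F' : Type*} [Field F'] [Algebra K F'] [Algebra F F'] [IsScalarTower K F F']
variable {E₁ : Type*} [Field E₁] {ϖ : E₁}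
  {va : Valuation E₁ (ValuationSubring.ValueGroup Ra.Rw)}
  {vb : Valuation E₁ (ValuationSubring.ValueGroup Rb.Rw)}
variable (incl : E₁ →+* F) (hincA : ∀ a : E₁, Ra.Rw.valuation (incl a) = va a)
  (hincB : ∀ a : E₁, Rb.Rw.valuation (incl a) = vb a)
variable (hDA : IsDisc va ϖ) (hDB : IsDisc vb ϖ)
variable (harchA : ∀ γ : ValuationSubring.ValueGroup Ra.Rw, γ ≠ 0 → ∃ n : ℕ, va ϖ ^ n < γ)
  (harchB : ∀ γ : ValuationSubring.ValueGroup Rb.Rw, γ ≠ 0 → ∃ n : ℕ, vb ϖ ^ n < γ)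
variable {E' : Type*} [Field E'] [Algebra E₁ E'] {p : ℕ} [NeZero p] [Fact p.Prime] {g₀ : E₁}
  (H₁ : IsAdjoinRoot E' (X ^ p - C g₀ : E₁[X])) {ζ : E₁} (hζ : IsPrimitiveRoot ζ p)
  {γa : Lc hDA} (hγa : γa ^ p = jc hDA g₀) {γb : Lc hDB} (hγb : γb ^ p = jc hDB g₀)
  (H : IsAdjoinRoot F' (X ^ p - C (incl g₀) : F[X]))
  (incl' : E' →+* F')
  (hincl' : ∀ a : E₁, incl' (algebraMap E₁ E' a) = algebraMap F F' (incl a))
  (hroot : incl' H₁.root = H.root)

variable {R F₀ : Type*} [CommRing R] [IsDomain R] [IsIntegrallyClosed R] [IsNoetherianRing R]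
  [Field F₀] [Algebra R F₀] [IsFractionRing R F₀]

include hincl' hroot hincB harchB in
set_option maxHeartbeats 4000000 in
/-- **The per-node theorem at a SMOOTH point of the finite chart `BRingK0`** (data discharged):
helper84's `nl_node_data_typeI` with the downstairs block and `hvE` discharged. -/
theorem nl_node_data_typeI_K0 (h2 : ℓ = 2 → 3 ∣ N') (h3 : ℓ = 3 → 2 ∣ N')
    (hν2 : nuTwo N' = 0) (hν3 : nuThree N' = 0)
    (Pl : Place (IsLocalRing.ResidueField A) (FresBar (N' * ℓ) A))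
    (hPl : ContainsC hℓN hA Pl)
    (hnode : ¬ IsNodeP h hℓN hA (primeL hℓN hA Pl hPl))
    [Algebra (BRingK0 N' ℓ A h) R]
    [IsLocalization.AtPrime R (centreP (A := A) h hℓN hA (primeL hℓN hA Pl hPl))]
    (hunA : Unram Ra)
    -- the tame generator
    (τ : E₁ ≃+* E₁) (hτA : ∀ a, va (τ a) = va a) (hτB : ∀ a, vb (τ a) = vb a)
    (σ : F ≃+* F) (hσA : ∀ y : F, Ra.Rw.valuation (σ y) = Ra.Rw.valuation y)
    (hσK : ∀ c : K, ∃ c' : K, σ (algebraMap K F c) = algebraMap K F c')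
    (hresA : ∀ (a : F) (ha : a ∈ Ra.Rw), Ra.red ⟨σ a, map_mem_Rw Ra σ hσA ha⟩ = Ra.red ⟨a, ha⟩)
    (hcomm : ∀ a : E₁, incl (τ a) = σ (incl a))
    {x : E' ≃+* E'} (hx : IsOver (x : E' →+* E') (τ : E₁ →+* E₁))
    (hxδ : Commute (x : E' →+* E') (deck H₁ hζ)) (hg₀ : g₀ ≠ 0) {d : ℕ}
    (hd : Nat.Coprime d p) (hxd : (x : E' →+* E') ^ d = 1) (hτd : τ ^ d = 1)
    (hFA : ∀ b : E₁, va b ≤ 1 → ∃ a : E₁, τ a = a ∧ va (b - a) < 1)
    -- the fixed field and its `K0`-model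
    (E : Subfield E') (hE : ∀ y, y ∈ E ↔ x y = y)
    [Algebra F₀ E] [Algebra R E] [IsScalarTower R F₀ E] [FiniteDimensional F₀ E]
    (ι₀ : F₀ →+* E₁)
    (hι₀ : ∀ a : F₀, ((algebraMap F₀ E a : E) : E') = algebraMap E₁ E' (ι₀ a))
    (hrank : Module.finrank F₀ E = p)
    -- the group
    (G : Subgroup F'ˣ) (Us : Subgroup G) (a : Us →* Us) (toE : G → E')
    (htoE : ∀ y : G, incl' (toE y) = ((y : F'ˣ) : F'))
    (hmul : ∀ y z : G, toE (y * z) = toE y * toE z)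
    (ha : ∀ u : Us, toE ((a u : Us) : G) = x (toE (u : G)))
    -- the Artin–Schreier normal form and the tame trace
    {cz : E₁} (hζc : ζ = 1 + cz) (hc0 : cz ≠ 0) (hcA : va cz < 1)
    {Z' : E'} (hZ' : H₁.root = 1 + algebraMap E₁ E' cz * Z')
    {g₁ : E₁} (hg₁ : g₀ = 1 + cz ^ p * g₁)
    (hintg : (ι₀.comp (algebraMap R F₀)).IsIntegralElem g₁)
    (θ₀ : E) (hθ₀ : (θ₀ : E') = TraceRes.traceTame x d Z')
    (hpA : va ((p : ℕ) : E₁) < 1)
    (hRA : ∀ r : R, va (ι₀ (algebraMap R F₀ r)) ≤ 1)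
    (hρB₁ : ∀ (i : ZMod p) (b : BRingK0 N' ℓ A h)
      (hb : iotaE incl' E (algebraMap R E (algebraMap (BRingK0 N' ℓ A h) R b)) ∈
        (sheetK Ra incl hincA hDA harchA hζ hγa H i).Rw),
      (sheetK Ra incl hincA hDA harchA hζ hγa H i).red ⟨_, hb⟩ =
        fresInclInv hℓN hA (algebraMap (CRing N' A) (FresBar N' A) (redC1K0 h hℓN hA b)))
    -- horizontal primes: on the `x`-fixed elements of `Us`
    (hhor : ∀ (u : Us) (u₀ : E), toE (u : G) = (u₀ : E') →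
      ∀ V : ValuationSubring E, IsDiscreteValuationRing V →
      (∀ r : R, algebraMap R E r ∈ V) → θ₀ ∈ V →
      (algebraMap R E (algebraMap (BRingK0 N' ℓ A h) R (NodeRingK0.ellB h)))⁻¹ ∈ V →
      ∃ z : E, z ≠ 0 ∧ u₀ * z ^ p ∈ V ∧ (u₀ * z ^ p)⁻¹ ∈ V)
    (i k₂ : ZMod p) (y : G) (hy : y ∈ Us)
    (hy1 : wv hDA H₁ hζ hγa i (toE y) = 0) (hy2 : wv hDB H₁ hζ hγb k₂ (toE y) = 0) :
    (p : ℤ) ∣ nodeOrd (sheetK Ra incl hincA hDA harchA hζ hγa H i)
      (unram_sheetK Ra incl hincA hDA harchA hζ hγa H hunA i) Pl G y := by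
  letI := algCFres (ℓ := ℓ) hℓN hA
  haveI := algCFres_frac (ℓ := ℓ) hℓN hA
  obtain ⟨y₁, s, c, hs, hc, hy₁, hy₁0, hgen₁, hth⟩ :=
    thickness_one_prime_typeI h hℓN hA h2 h3 hν2 hν3 (primeL hℓN hA Pl hPl) hnode
  exact NlNodeDataSmooth.nl_node_data_typeI Ra Rb incl hincA hincB hDA hDB harchA harchB H₁ hζ hγa
    hγb H incl' hincl' hroot (C₁ := CRing N' A) hunA τ hτA hτB σ hσA hσK hresA
    hcomm hx hxδ hg₀ hd hxd hτd hFA E hE ι₀ hι₀ hrank G Us a toE htoE hmul ha Pl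
    (centreP (A := A) h hℓN hA (primeL hℓN hA Pl hPl))
    (redC1K0 h hℓN hA) (redC1K0_surjective h hℓN hA h2 h3)
    (primeL hℓN hA Pl hPl).asIdeal rfl (primeL hℓN hA Pl hPl).ne_bot
    y₁ (NodeRingK0.ellB h) s c hy₁ hy₁0 hgen₁ hs hc hth
    hζc hc0 hcA hZ' hg₁ hintg θ₀ hθ₀ hpA hRA
    (fun i b hb => hρB₁ i b hb)
    (hvE_level hℓN hA Pl hPl) hhor i k₂ y hy hy1 hy2

end Fermat.Agent.GF.KCover.NodeMod.NlNodeDataSmoothK0
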