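/-
GATE-F (S44) / GF-KCOVER-INST, stage 2, group (M-d) (helper65; helper13 RULING-6, board 6782;
= (U15) of helper84 6781): **the binders `hρB_i` of `SheetAsm.nl0_of_sheets` — "the reduction of the
sheet datum `R_i`, restricted to the `K₀`-chart ring `B = BRingK0 N' ℓ A h`, is `rd_i`"**.

Level `N = N' ℓ`, `ℓ ∤ N'`, `A | ℓ`; `B := BRingK0 N' ℓ A h ⊆ F0`, `rd₁ := redC1K0`, `rd₂ := redC2K0 :
B →+* CRing N' A =: E₁ = E₂`, residue function field `Ft = Ft₂ := FresBar (N' ℓ) A`, with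
`Algebra (CRing N' A) (FresBar (N' ℓ) A) := algC` (the `iC`-algebra: `CRing N' A ⊆ FresBar N' A
≃ FresBar (N' ℓ) A`, helper49's `goodEquiv`).

* `algC`, `algebraMap_algC` (`rfl`), `isScalarTower_algC`, `isFractionRing_algC`,
  `algC_injective` : the `E_i`-algebra structure of the consumer and its instances;
* DOWNSTAIRS: `red1_mapK0Bar`, `red2_mapK0Bar` :
  `red_i (mapK0Bar b) = iC (rd_i b)` for `b : B` (`redDataBar`, `redData2` of level `N' ℓ`);
* UPSTAIRS: `hρB₁_of_redExt`, `hρB₂_of_redExt` : for ANY reduction datum `R_i` of a cover `F'` of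
  `FK (N' ℓ)` extending `redDataBar` resp. `redData2` (`OrdRedExt.RedExt`; for the sheets
  `Bridge.redExt_sheetK`) and ANY map `φ : B → F'` which is the modular embedding
  (`hφ : φ b = algebraMap (FK N) F' (mapK0Bar b)`; consumer: `φ b := ι' (algebraMap R K0
  (algebraMap B R b))`): `R_i.red ⟨φ b, hb⟩ = algebraMap (CRing N' A) (FresBar (N' ℓ) A) (rd_i b)`
  — the binder `hρB_i` VERBATIM;
  `mem_Rw_of_redExt₁/₂` : `φ b ∈ R_i.Rw` (the `B`-part of `hSW_i`).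
-/
import Fermat.Agent.GF.KCover.Node.OrdRedExt
import Fermat.Agent.GL.Red.BRingK0
import Fermat.Agent.GK.SS.Modular
import Fermat.Agent.GL.Thick.PlaceDictC

set_option autoImplicit false
set_option linter.unusedSectionVars false
set_option linter.style.haveILetI false

noncomputable section

namespace Fermat.Agent.GF.KCover.NodeMod.RhoB

open HahnSeries ModularCurve IsLocalRing AlgebraicCurve
open Fermat.Agent.S24 Fermat.Agent.S24_helper62
open Fermat.Agent.GJ.J1 Fermat.Agent.GJ.J1.Val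
open Fermat.Agent.GK.AL Fermat.Agent.GK.QS Fermat.Agent.GK.PsiFNGood
open Fermat.Agent.GK.SS.Modular
open Fermat.Agent.GL.Val.GaussK0 Fermat.Agent.GL.Val.SecondK0
open Fermat.Agent.GL.BRingK0
open Fermat.Agent.GF.KCover.Node.OrdRedExt

variable (N' : ℕ) [NeZero N'] (ℓ : ℕ) [Fact ℓ.Prime] [NeZero ℓ]
variable (A : ValuationSubring Kbar) (h : ExactDvd ℓ (N' * ℓ)) (hA : A.LiesOverPrime ℓ)

local notation "kA" => IsLocalRing.ResidueField A
local notation "F0" => modularFunctionFieldFullC (K0 A) (N' * ℓ)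

/-! ### the `iC`-algebra structure -/

/-- **`FresBar (N' ℓ) A` as an algebra over the coordinate ring `CRing N' A`** (through
`iC = goodEquiv ∘ val`). -/
@[reducible] def algC : Algebra (CRing N' A) (FresBar (N' * ℓ) A) :=
  (iC N' ℓ A h hA).toRingHom.toAlgebra

theorem algebraMap_algC (c : CRing N' A) :
    @algebraMap (CRing N' A) (FresBar (N' * ℓ) A) _ _ (algC N' ℓ A h hA) c =
      iC N' ℓ A h hA c := rfl

set_option synthInstance.maxHeartbeats 400000 in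
theorem isScalarTower_algC :
    letI := algC N' ℓ A h hA
    IsScalarTower kA (CRing N' A) (FresBar (N' * ℓ) A) := by
  letI := algC N' ℓ A h hA
  exact IsScalarTower.of_algebraMap_eq fun c => ((iC N' ℓ A h hA).commutes c).symm

set_option synthInstance.maxHeartbeats 400000 in
theorem isFractionRing_algC :
    letI := algC N' ℓ A h hA
    IsFractionRing (CRing N' A) (FresBar (N' * ℓ) A) := by
  letI := algC N' ℓ A h hA
  haveI hfr0 : IsFractionRing (CRing N' A) (FresBar N' A) :=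
    Fermat.Agent.GL.SmallQ.isFractionRing_CRing N' A
  let e : FresBar N' A ≃ₐ[CRing N' A] FresBar (N' * ℓ) A :=
    AlgEquiv.ofRingEquiv (f := (goodEquiv A hA N' h).toRingEquiv) (fun _ => rfl)
  exact IsLocalization.isLocalization_of_algEquiv (nonZeroDivisors (CRing N' A)) e

theorem algC_injective :
    Function.Injective (@algebraMap (CRing N' A) (FresBar (N' * ℓ) A) _ _ (algC N' ℓ A h hA)) :=
  iC_injective N' ℓ A h hA

/-! ### downstairs -/

variable {N' ℓ A}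
variable (hℓN : ¬ ℓ ∣ N')

/-- `B ⊆ Rw₁` -/
theorem mapK0Bar_mem_Rw1 (b : BRingK0 N' ℓ A h) :
    mapK0Bar A (N' * ℓ) (b : F0) ∈ (redDataBar (N' * ℓ) A).Rw :=
  (Fermat.Agent.GK.QS.mem_BRing.1 (mem_BRingK0_iff_map.1 b.2)).2.1

/-- `B ⊆ Rw₂` -/
theorem mapK0Bar_mem_Rw2 (b : BRingK0 N' ℓ A h) :
    mapK0Bar A (N' * ℓ) (b : F0) ∈ (redData2 (N' * ℓ) A h).Rw :=
  (Fermat.Agent.GK.QS.mem_BRing.1 (mem_BRingK0_iff_map.1 b.2)).2.2

/-- **`red₁ (b) = iC (rd₁ b)`** on the `K₀`-chart ring -/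
theorem red1_mapK0Bar (b : BRingK0 N' ℓ A h) :
    (redDataBar (N' * ℓ) A).red
        ⟨mapK0Bar A (N' * ℓ) (b : F0), mapK0Bar_mem_Rw1 h b⟩ =
      iC N' ℓ A h hA (redC1K0 h hℓN hA b) := by
  apply Subtype.ext
  rw [coe_iC, cVal_redC1K0, Fermat.Agent.GK.QS.rho1_apply]
  rfl

/-- **`red₂ (b) = iC (rd₂ b)`** on the `K₀`-chart ring -/
theorem red2_mapK0Bar (b : BRingK0 N' ℓ A h) :
    (redData2 (N' * ℓ) A h).red
        ⟨mapK0Bar A (N' * ℓ) (b : F0), mapK0Bar_mem_Rw2 h b⟩ =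
      iC N' ℓ A h hA (redC2K0 h hℓN hA b) := by
  apply Subtype.ext
  rw [coe_iC, cVal_redC2K0, Fermat.Agent.GK.QS.rho2_apply]
  rfl

/-! ### upstairs: any reduction datum of a cover extending `red_i` -/

section Cover

variable {F' : Type*} [Field F'] [Algebra Kbar F'] [Algebra (FN (N' * ℓ)) F']
  [IsScalarTower Kbar (FN (N' * ℓ)) F']

/-- `B ⊆ R₁.Rw` (the `B`-part of `hSW₁`) -/
theorem mem_Rw_of_redExt₁ {R₁ : RedData Kbar F' kA (FresBar (N' * ℓ) A)}
    (hext : RedExt (redDataBar (N' * ℓ) A) R₁) (φ : BRingK0 N' ℓ A h → F')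
    (hφ : ∀ b, φ b = algebraMap (FN (N' * ℓ)) F' (mapK0Bar A (N' * ℓ) (b : F0)))
    (b : BRingK0 N' ℓ A h) : φ b ∈ R₁.Rw := by
  rw [hφ b]
  exact hext.mem _ (mapK0Bar_mem_Rw1 h b)

/-- `B ⊆ R₂.Rw` (the `B`-part of `hSW₂`) -/
theorem mem_Rw_of_redExt₂ {R₂ : RedData Kbar F' kA (FresBar (N' * ℓ) A)}
    (hext : RedExt (redData2 (N' * ℓ) A h) R₂) (φ : BRingK0 N' ℓ A h → F')
    (hφ : ∀ b, φ b = algebraMap (FN (N' * ℓ)) F' (mapK0Bar A (N' * ℓ) (b : F0)))
    (b : BRingK0 N' ℓ A h) : φ b ∈ R₂.Rw := by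
  rw [hφ b]
  exact hext.mem _ (mapK0Bar_mem_Rw2 h b)

/-- **`hρB₁`**: the reduction of a datum `R₁` extending `redDataBar`, restricted to `B`, is
`rd₁ = redC1K0` (in the `algC` algebra structure). -/
theorem hρB₁_of_redExt {R₁ : RedData Kbar F' kA (FresBar (N' * ℓ) A)}
    (hext : RedExt (redDataBar (N' * ℓ) A) R₁) (φ : BRingK0 N' ℓ A h → F')
    (hφ : ∀ b, φ b = algebraMap (FN (N' * ℓ)) F' (mapK0Bar A (N' * ℓ) (b : F0)))
    (b : BRingK0 N' ℓ A h) (hb : φ b ∈ R₁.Rw) :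
    R₁.red ⟨φ b, hb⟩ =
      @algebraMap (CRing N' A) (FresBar (N' * ℓ) A) _ _ (algC N' ℓ A h hA)
        (redC1K0 h hℓN hA b) := by
  rw [algebraMap_algC, ← red1_mapK0Bar h hA hℓN b,
    ← hext.red_eq _ (mapK0Bar_mem_Rw1 h b)]
  congr 1
  exact Subtype.ext (hφ b)

/-- **`hρB₂`**: the reduction of a datum `R₂` extending `redData2`, restricted to `B`, is
`rd₂ = redC2K0` (in the `algC` algebra structure). -/
theorem hρB₂_of_redExt {R₂ : RedData Kbar F' kA (FresBar (N' * ℓ) A)}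
    (hext : RedExt (redData2 (N' * ℓ) A h) R₂) (φ : BRingK0 N' ℓ A h → F')
    (hφ : ∀ b, φ b = algebraMap (FN (N' * ℓ)) F' (mapK0Bar A (N' * ℓ) (b : F0)))
    (b : BRingK0 N' ℓ A h) (hb : φ b ∈ R₂.Rw) :
    R₂.red ⟨φ b, hb⟩ =
      @algebraMap (CRing N' A) (FresBar (N' * ℓ) A) _ _ (algC N' ℓ A h hA)
        (redC2K0 h hℓN hA b) := by
  rw [algebraMap_algC, ← red2_mapK0Bar h hA hℓN b,
    ← hext.red_eq _ (mapK0Bar_mem_Rw2 h b)]
  congr 1
  exact Subtype.ext (hφ b)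

/-! ### instance-neutral forms (Laurent series) -/

/-- `hρB₁` in Laurent-series form (independent of the chosen `Algebra (CRing N' A) Ft` instance:
any instance with `((algebraMap c : Ft) : k((Q))) = cVal c` concludes by `Subtype.ext`). -/
theorem coe_red_of_redExt₁ {R₁ : RedData Kbar F' kA (FresBar (N' * ℓ) A)}
    (hext : RedExt (redDataBar (N' * ℓ) A) R₁) (φ : BRingK0 N' ℓ A h → F')
    (hφ : ∀ b, φ b = algebraMap (FN (N' * ℓ)) F' (mapK0Bar A (N' * ℓ) (b : F0)))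
    (b : BRingK0 N' ℓ A h) (hb : φ b ∈ R₁.Rw) :
    ((R₁.red ⟨φ b, hb⟩ : FresBar (N' * ℓ) A) : LaurentSeries kA) =
      cVal N' A (redC1K0 h hℓN hA b) := by
  rw [hρB₁_of_redExt h hA hℓN hext φ hφ b hb, algebraMap_algC, coe_iC]

/-- `hρB₂` in Laurent-series form. -/
theorem coe_red_of_redExt₂ {R₂ : RedData Kbar F' kA (FresBar (N' * ℓ) A)}
    (hext : RedExt (redData2 (N' * ℓ) A h) R₂) (φ : BRingK0 N' ℓ A h → F')
    (hφ : ∀ b, φ b = algebraMap (FN (N' * ℓ)) F' (mapK0Bar A (N' * ℓ) (b : F0)))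
    (b : BRingK0 N' ℓ A h) (hb : φ b ∈ R₂.Rw) :
    ((R₂.red ⟨φ b, hb⟩ : FresBar (N' * ℓ) A) : LaurentSeries kA) =
      cVal N' A (redC2K0 h hℓN hA b) := by
  rw [hρB₂_of_redExt h hA hℓN hext φ hφ b hb, algebraMap_algC, coe_iC]

/-- **`hρB₁` for ANY `Algebra (CRing N' A) (FresBar (N' ℓ) A)` instance compatible with the
Laurent-series embeddings** (`halg : ((algebraMap c : Ft) : k((Q))) = cVal c`; e.g. helper75's
`algCFres`, or `algC` above). -/
theorem hρB₁_of_redExt' [Algebra (CRing N' A) (FresBar (N' * ℓ) A)]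
    (halg : ∀ c : CRing N' A,
      ((algebraMap (CRing N' A) (FresBar (N' * ℓ) A) c : FresBar (N' * ℓ) A) :
        LaurentSeries kA) = cVal N' A c)
    {R₁ : RedData Kbar F' kA (FresBar (N' * ℓ) A)}
    (hext : RedExt (redDataBar (N' * ℓ) A) R₁) (φ : BRingK0 N' ℓ A h → F')
    (hφ : ∀ b, φ b = algebraMap (FN (N' * ℓ)) F' (mapK0Bar A (N' * ℓ) (b : F0)))
    (b : BRingK0 N' ℓ A h) (hb : φ b ∈ R₁.Rw) :
    R₁.red ⟨φ b, hb⟩ =
      algebraMap (CRing N' A) (FresBar (N' * ℓ) A) (redC1K0 h hℓN hA b) := by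
  apply Subtype.ext
  rw [halg]
  exact coe_red_of_redExt₁ h hA hℓN hext φ hφ b hb

/-- **`hρB₂` for ANY compatible `Algebra (CRing N' A) (FresBar (N' ℓ) A)` instance.** -/
theorem hρB₂_of_redExt' [Algebra (CRing N' A) (FresBar (N' * ℓ) A)]
    (halg : ∀ c : CRing N' A,
      ((algebraMap (CRing N' A) (FresBar (N' * ℓ) A) c : FresBar (N' * ℓ) A) :
        LaurentSeries kA) = cVal N' A c)
    {R₂ : RedData Kbar F' kA (FresBar (N' * ℓ) A)}
    (hext : RedExt (redData2 (N' * ℓ) A h) R₂) (φ : BRingK0 N' ℓ A h → F')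
    (hφ : ∀ b, φ b = algebraMap (FN (N' * ℓ)) F' (mapK0Bar A (N' * ℓ) (b : F0)))
    (b : BRingK0 N' ℓ A h) (hb : φ b ∈ R₂.Rw) :
    R₂.red ⟨φ b, hb⟩ =
      algebraMap (CRing N' A) (FresBar (N' * ℓ) A) (redC2K0 h hℓN hA b) := by
  apply Subtype.ext
  rw [halg]
  exact coe_red_of_redExt₂ h hA hℓN hext φ hφ b hb

end Cover

end Fermat.Agent.GF.KCover.NodeMod.RhoB

end
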