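/-
GATE-F (S44) / RULING-9 (5) (helper13 7113; helper62): **the modular PER-PLACE theorem at a VARIABLE
level `L`** — `NLAll T h` (helper47 `AuxLevel/AuxTop`) for a tame datum `T : TameDatum L p A ζ`
from `SigmaRel T` and the `c₀`-parametric Artin–Schreier + Krull input `∀ c₀, ASK T h c₀`, at a level
with `4 ∣ L` (so that every node ring has thickness one).

* `norm_emb_Z_le_one` (abstract Kummer frame): `‖e₀ Z'‖ ≤ 1` from the integrality of `g₁`
  (extracted from helper84's `NlNodeDataSmooth.nl_node_data_typeI`; feeds helper56's `K0Inst.hrank`);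
* **`nlPoint_mod`** (level `N' * p` literal): at ANY finite place `Pl` (`ContainsC`), from a raw
  Artin–Schreier datum `(u, g1)` with `KrullData … c₀ g1`, `j~(Pl) = c₀`:
  `∃ c, ∀ k, ∀ y ∈ Us T, wOf … k y = 0 → wOf … (k + c) y = 0 → p ∣ nodeOrd (sheet₁ T hA hD₁ hγ₁ k) …`
  = helper75's `NlPointDataK0.nl_point_data_K0` (by_cases `IsNodeP` inside) with EVERY binder
  discharged: frame := helper3 `RescaleRaw.frameRaw / frameRawb`, tame generator :=
  `Int.exists_tame_generator` + helper56 `TameUs.exists_tame_action`, `R := locSub F₀ (centreP …)` +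
  helper56 `K0Inst`, `hintg` := helper40 `HintF1.hintg_of_krullData`, `hhor` := helper57
  `HhorToE.hhor_toE_at_point`, `hρB_i` := helper65 `RhoB.hρB_i_of_redExt'`;
* **`nlAll_of_hyps`** : `NLAll T h` at a variable level `L` (`obtain ⟨N', rfl⟩ : L = N' * p`).
-/
import Fermat.Agent.GF.KCover.NodeMod.NlPointDataK0
import Fermat.Agent.GF.KCover.NodeMod.K0Inst
import Fermat.Agent.GF.KCover.NodeMod.HintF1
import Fermat.Agent.GF.KCover.NodeMod.HhorToE
import Fermat.Agent.GF.KCover.NodeMod.ValueJt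
import Fermat.Agent.GF.KCover.NodeMod.RhoB
import Fermat.Agent.GF.KCover.NodeMod.ASKDef
import Fermat.Agent.GF.KCover.Field.RescaleSheets
import Fermat.Agent.GF.KCover.Compl.InertialMod
import Fermat.Agent.GF.KCover.AuxLevel.AuxTop
import Fermat.Agent.GB.A.A4.LevelFour

set_option autoImplicit false
set_option linter.unusedSectionVars false
set_option linter.unusedVariables false
set_option linter.style.haveILetI false

noncomputable section

open Polynomial AlgebraicCurve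

namespace Fermat.Agent.GF.KCover.NodeMod.NlAllOfHyps

open ModularCurve IsLocalRing IsDedekindDomain
open Fermat.Agent.GL.Val.GaussK0 Fermat.Agent.GL.Val.SecondK0
open Fermat.Agent.GJ.KumGroup Fermat.Agent.GJ.J1 Fermat.Agent.GJ.J1.Val
open Fermat.Agent.GK.AL Fermat.Agent.GL.AL Fermat.Agent.GK.QS Fermat.Agent.GK.SS
open Fermat.Agent.Common_helper32
open Fermat.Agent.S24 Fermat.Agent.S24_helper6
open Fermat.Agent.GF.Trop
open Fermat.Agent.GL.BRingK0 Fermat.Agent.GL.BRingChart Fermat.Agent.GL.Thick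
open Fermat.Agent.GL.KrullHeightOne
open Fermat.Agent.GF.KCover.Node Fermat.Agent.GF.KCover.Node.NodeRingK0Pkg
open Fermat.Agent.GF.KCover.Node.NodeRingK0Level
open Fermat.Agent.GF.KCover.Field Fermat.Agent.GF.KCover.Field.Disc
  Fermat.Agent.GF.KCover.Field.Pack
open Fermat.Agent.GF.KCover.Compl Fermat.Agent.GF.KCover.Compl.Bridge
  Fermat.Agent.GF.KCover.Compl.RedCompl Fermat.Agent.GF.KCover.Compl.RedAut
  Fermat.Agent.GF.KCover.Compl.BridgeTau
open Fermat.Agent.GF.KCover.Node.OrdRedExt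
  Fermat.Agent.GF.KCover.Node.NlNode Fermat.Agent.GF.KCover.Node.NlNodeSheets
  Fermat.Agent.GF.KCover.Node.NlNodeData

attribute [local instance] Fermat.Agent.GL.Frame.InstK0.algSubringFullC

local notation "Qb" => AlgebraicClosure ℚ
local notation "GQ" => (AlgebraicClosure ℚ ≃ₐ[ℚ] AlgebraicClosure ℚ)

/-! ### (0) transport lemmas -/

/-- powers of a ring automorphism, as ring homomorphisms. -/
theorem ringEquiv_coe_pow' {S : Type*} [Semiring S] (x : S ≃+* S) (n : ℕ) :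
    ((x : S ≃+* S) : S →+* S) ^ n = ((x ^ n : S ≃+* S) : S →+* S) := by
  induction n with
  | zero => rfl
  | succ n ih =>
    rw [pow_succ, pow_succ, ih]
    rfl

/-- `nodeOrd` only depends on the reduction datum. -/
theorem nodeOrd_congr' {K F' k Ft : Type*} [Field K] [Field F'] [Algebra K F'] [Field k] [Field Ft]
    [Algebra k Ft] {S S' : RedData K F' k Ft} (e : S' = S) (hun : Unram S) (hun' : Unram S')
    (Pl : Place k Ft) (G : Subgroup F'ˣ) (y : G) :
    nodeOrd S' hun' Pl G y = nodeOrd S hun Pl G y := by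
  subst e
  rfl

/-- the reduction map only depends on the reduction datum. -/
theorem red_congr'' {K F' k Ft : Type*} [Field K] [Field F'] [Algebra K F'] [Field k] [Field Ft]
    [Algebra k Ft] {S S' : RedData K F' k Ft} (e : S' = S) {z : F'} (hz : z ∈ S'.Rw)
    (hz' : z ∈ S.Rw) : S'.red ⟨z, hz⟩ = S.red ⟨z, hz'⟩ := by
  subst e
  rfl

/-! ### (1) `‖e₀ Z'‖ ≤ 1` in the abstract frame -/

section Abs

variable {K F k Ft : Type*} [Field K] [Field F] [Algebra K F] [Field k] [Field Ft]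
  [Algebra k Ft]
variable (Ra : RedData K F k Ft)
variable {F' : Type*} [Field F'] [Algebra K F'] [Algebra F F'] [IsScalarTower K F F']
variable {E₁ : Type*} [Field E₁] {ϖ : E₁}
  {va : Valuation E₁ (ValuationSubring.ValueGroup Ra.Rw)}
variable (incl : E₁ →+* F) (hincA : ∀ a : E₁, Ra.Rw.valuation (incl a) = va a)
variable (hA : IsDisc va ϖ)
variable (harchA : ∀ γ : ValuationSubring.ValueGroup Ra.Rw, γ ≠ 0 → ∃ n : ℕ, va ϖ ^ n < γ)
variable {E' : Type*} [Field E'] [Algebra E₁ E'] {p : ℕ} [NeZero p] [Fact p.Prime] {g₀ : E₁}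
  (H₁ : IsAdjoinRoot E' (X ^ p - C g₀ : E₁[X])) {ζ : E₁} (hζ : IsPrimitiveRoot ζ p)
  {γa : Lc hA} (hγa : γa ^ p = jc hA g₀)
  (H : IsAdjoinRoot F' (X ^ p - C (incl g₀) : F[X]))
  (incl' : E' →+* F')
  (hincl' : ∀ a : E₁, incl' (algebraMap E₁ E' a) = algebraMap F F' (incl a))
  (hroot : incl' H₁.root = H.root)

variable {R F₀ : Type*} [CommRing R] [Field F₀] [Algebra R F₀]

include hincl' hroot hincA harchA in
/-- **the Artin–Schreier variable is integral on the sheet `0`** as soon as `g₁` is integral over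
`R` and `R` maps into the valuation ring (extracted from `nl_node_data_typeI`). -/
theorem norm_emb_Z_le_one (E : Subfield E')
    [Algebra F₀ E] [Algebra R E] [IsScalarTower R F₀ E]
    (ι₀ : F₀ →+* E₁)
    (hι₀ : ∀ a : F₀, ((algebraMap F₀ E a : E) : E') = algebraMap E₁ E' (ι₀ a))
    {cz : E₁} (hζc : ζ = 1 + cz)
    {Z' : E'} (hZ' : H₁.root = 1 + algebraMap E₁ E' cz * Z')
    {g₁ : E₁} (hg₁ : g₀ = 1 + cz ^ p * g₁)
    (hintg : (ι₀.comp (algebraMap R F₀)).IsIntegralElem g₁)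
    (hRA : ∀ r : R, va (ι₀ (algebraMap R F₀ r)) ≤ 1) :
    ‖emb H₁ hζ (jc hA) hγa 0 Z'‖ ≤ 1 := by
  have heι : ∀ a : F₀, iotaE incl' E (algebraMap F₀ E a) = algebraMap F F' (incl (ι₀ a)) := by
    intro a
    rw [iotaE_apply, hι₀, hincl']
  have heA : ∀ (i : ZMod p) (a : F₀), embV hA Ra.Rw.valuation incl hincA harchA hζ hγa H i
      (iotaE incl' E (algebraMap F₀ E a)) = ((j Ra.Rw.valuation).comp (incl.comp ι₀)) a := by
    intro i a
    rw [heι, embV_algebraMap]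
    rfl
  have hjRA : ∀ r : R, ((j Ra.Rw.valuation).comp (incl.comp ι₀)) (algebraMap R F₀ r) ∈ RwL Ra := by
    intro r
    show j Ra.Rw.valuation (incl (ι₀ (algebraMap R F₀ r))) ∈ RwL Ra
    rw [mem_RwL, val_j, hincA]
    exact hRA r
  have hζE : IsPrimitiveRoot (algebraMap E₁ E' ζ) p :=
    hζ.map_of_injective (algebraMap E₁ E').injective
  have hcE : algebraMap E₁ E' cz = algebraMap E₁ E' ζ - 1 := by
    rw [hζc, map_add, map_one, add_sub_cancel_left]
  have hASE : (1 + algebraMap E₁ E' cz * Z') ^ p =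
      1 + algebraMap E₁ E' cz ^ p * algebraMap E₁ E' g₁ := by
    rw [← hZ', root_pow H₁, hg₁, map_add, map_one, map_mul, map_pow]
  have hφE : ∀ r : R, (E.subtype.comp (algebraMap R E)) r =
      algebraMap E₁ E' ((ι₀.comp (algebraMap R F₀)) r) := by
    intro r
    rw [RingHom.comp_apply, RingHom.comp_apply, IsScalarTower.algebraMap_apply R F₀ E, ← hι₀]
    rfl
  have hgE : (E.subtype.comp (algebraMap R E)).IsIntegralElem (algebraMap E₁ E' g₁) :=
    isIntegralElem_map _ (algebraMap E₁ E') hintg _ hφE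
  have hZE : (E.subtype.comp (algebraMap R E)).IsIntegralElem Z' :=
    ResLift.isIntegralElem_of_kummer_as _ hζE hcE hASE hgE
  have hZF : ((iotaE incl' E).comp (algebraMap R E)).IsIntegralElem (incl' Z') :=
    isIntegralElem_map _ incl' hZE _ (fun r => rfl)
  have hφ : ∀ r : R, embV hA Ra.Rw.valuation incl hincA harchA hζ hγa H 0
      (((iotaE incl' E).comp (algebraMap R E)) r) ∈ RwL Ra := fun r => by
    rw [RingHom.comp_apply, SheetAsm.sheet_algebraMap (iotaE incl' E)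
      ((j Ra.Rw.valuation).comp (incl.comp ι₀))
      (embV hA Ra.Rw.valuation incl hincA harchA hζ hγa H 0) (heA 0)]
    exact hjRA r
  have hz₁ : embV hA Ra.Rw.valuation incl hincA harchA hζ hγa H 0 (incl' Z') ∈ RwL Ra :=
    SheetIdxBridge.emb_mem_of_isIntegralElem (RwL Ra) ((iotaE incl' E).comp (algebraMap R E))
      (embV hA Ra.Rw.valuation incl hincA harchA hζ hγa H 0) hφ hZF
  rw [emb_incl hA Ra.Rw.valuation incl hincA harchA H₁ hζ hγa H incl' hincl' hroot, mem_RwL,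
    val_beta_le_one_iff'] at hz₁
  exact hz₁

end Abs

/-! ### (2) the per-place theorem at the level `N' * p` -/

section Mod

open Fermat.Agent.GF.F2Asm.KummerExt Fermat.Agent.GF.F2Asm.Inst Fermat.Agent.GF.KCover
open Fermat.Agent.GF.Peu Fermat.Agent.GF.F2Asm
open Fermat.Agent.GF.KCover.Field.WDataOf Fermat.Agent.GF.KCover.Field.RescaleMod
open Fermat.Agent.GF.KCover.Field.RescaleRaw
open Fermat.Agent.GF.KCover.Compl.SheetsMod
open Fermat.Agent.GF.KCover.Int Fermat.Agent.GF.KCover.Int.TameLift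
open Fermat.Agent.GF.KCover.Int.K0Model
open Fermat.Agent.GF.KCover.ASNode.KrullUp
open Fermat.Agent.GB.A4.FrameTwo

attribute [local instance] actFK algE'

variable {A : ValuationSubring Qb} {N' : ℕ} [NeZero N'] {p : ℕ} [hpF : Fact p.Prime] [NeZero p]
  (h : ExactDvd p (N' * p)) (hpN : ¬ p ∣ N') (hA : A.LiesOverPrime p)

variable [IsDedekindDomain (CRing N' A)] [IsFractionRing (CRing N' A) (FresBar N' A)]

variable {ζ : Qb} (T : TameDatum (N' * p) p A ζ)

local notation "F0" => modularFunctionFieldFullC (K0 A) (N' * p)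

set_option maxHeartbeats 8000000 in
/-- **The modular per-place theorem at the level `N' * p`**, every binder of
`nl_point_data_K0` discharged. -/
theorem nlPoint_mod (h2 : p = 2 → 3 ∣ N') (h3 : p = 3 → 2 ∣ N')
    (hν2 : nuTwo N' = 0) (hν3 : nuThree N' = 0)
    (hσ : SigmaRel T)
    -- the two Gauss valuations of the cover frame
    (hD₁ : IsDisc (valF₁ T (Fermat.Agent.GK.SS.galVal1 (N' * p) A)) (ϖ₁ T))
    (hD₂ : IsDisc (valF₁ T (Fermat.Agent.GK.SS.galVal2 (N' * p) A h)) (ϖ₁ T))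
    {γ₁ : Pack.Lc hD₁} (hγ₁ : γ₁ ^ p = Pack.jc hD₁ (g₁ T))
    {γ₂ : Pack.Lc hD₂} (hγ₂ : γ₂ ^ p = Pack.jc hD₂ (g₁ T))
    -- the place and its `j~`-value
    (Pl : Place (IsLocalRing.ResidueField A) (FresBar (N' * p) A))
    (hPl : ContainsC hpN hA Pl)
    {c₀ : IsLocalRing.ResidueField A}
    (hc₀ : Fermat.Agent.GK.NodalGraded.ValueAt Pl
      (fresInclInv hpN hA (Fermat.Agent.GK.QS.jt N' A)) c₀)
    -- the raw Artin–Schreier datum with its Krull input at `c₀`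
    {u g1 : FK (N' * p)} (hu0 : u ≠ 0) (hu : u ∈ F₁ (N' * p) A ζ) (hg1 : g1 ∈ F₁ (N' * p) A ζ)
    (hg0 : T.g₀ = u ^ p * (1 + algebraMap Qb (FK (N' * p)) ((ζ - 1) ^ p) * g1))
    {Mg : Type*} [Group Mg] [Finite Mg] {χ : (Qb ≃ₐ[ℚ] Qb) →* Mg}
    (hK : KrullData A (N' * p) h χ c₀ g1) :
    ∃ c : ZMod p, ∀ k : ZMod p, ∀ y ∈ UsInst.Us T,
      wOf T hD₁ hγ₁ k y = 0 → wOf T hD₂ hγ₂ (k + c) y = 0 →
      (p : ℤ) ∣ nodeOrd (sheet₁ T hA hD₁ hγ₁ k) (unram_sheet₁ T hA hD₁ hγ₁ k) Pl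
        (fixedUnits (tameGroup A ζ) T.Fp) y := by
  have hp := hpF.out
  -- the tame generator
  obtain ⟨τ, hτ, ω, -, hgen⟩ := exists_tame_generator (A := A) hA T.prim
  obtain ⟨a, x, g, -, -, ha, -, -, -, -, -, -, hxd, hx, hxδ⟩ :=
    TameUs.exists_tame_action hσ hA hτ
  have hx1 : ∀ b, x (algebraMap (F₁ (N' * p) A ζ) (E' T) b) =
      algebraMap (F₁ (N' * p) A ζ) (E' T) (tauF₁ T hτ b) := fun b => hx b
  have hτdec : τ ∈ A.decompositionSubgroup ℚ :=
    Fermat.Agent.S05.mem_decompositionSubgroup_of_mem_inertiaSubgroupIn hτ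
  have hcop : Nat.Coprime (p - 1) p := by
    rw [Nat.coprime_comm, hp.coprime_iff_not_dvd]
    intro hdvd
    have := Nat.le_of_dvd (by have := hp.one_lt; omega) hdvd
    have := hp.one_lt
    omega
  have hv := vRaw_ne_zero hu0 hu
  have hrel := hrel_raw T hu0 hu hg1 hg0
  have hg₀ : (1 + cz T ^ p * gRaw hg1 : F₁ (N' * p) A ζ) ≠ 0 := by
    rw [hrel]
    exact mul_ne_zero (g₁_ne_zero T) (pow_ne_zero _ hv)
  have hxd' : (x : E' T →+* E' T) ^ (p - 1) = 1 := by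
    rw [ringEquiv_coe_pow', hxd]
    rfl
  have hxδ' : Commute (x : E' T →+* E' T) (deck (frameRaw T hu0 hu hg1 hg0) (ζ₁_prim T)) := by
    have e : deck (frameRaw T hu0 hu hg1 hg0) (ζ₁_prim T) = deck (isAdj' T) (ζ₁_prim T) :=
      deck_frameAS T hv hrel
    rw [e]
    exact hxδ
  -- the local ring of the chart at the centre of `Pl`
  obtain ⟨i1, i2, i3, -⟩ := id (frame_BRingK0 h hA)
  haveI := i1
  haveI := i2
  haveI := i3
  haveI := K0Inst.isNoetherianRing_locSub (F := F0)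
    (centreP (A := A) h hpN hA (primeL hpN hA Pl hPl))
  haveI := K0Inst.isIntegrallyClosed_locSub (F := F0)
    (centreP (A := A) h hpN hA (primeL hpN hA Pl hPl))
  letI := K0Inst.algF₀ T hτ hx
  letI := K0Inst.algR (R := locSub F0 (centreP (A := A) h hpN hA (primeL hpN hA Pl hPl))) T hτ hx
  haveI := K0Inst.tower_algR
    (R := locSub F0 (centreP (A := A) h hpN hA (primeL hpN hA Pl hPl))) T hτ hx
  -- the `K₀`-model binders
  have hRA := K0Inst.hRA h hpN hA (centreP (A := A) h hpN hA (primeL hpN hA Pl hPl)) T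
    (ker_redC1K0_le_centreP h hpN hA (primeL hpN hA Pl hPl))
  have hRB : IsNodeP h hpN hA (primeL hpN hA Pl hPl) → _ := fun hnode =>
    K0Inst.hRB h hpN hA (centreP (A := A) h hpN hA (primeL hpN hA Pl hPl)) T
      (ker_redC2K0_le_centreP h hpN hA (primeL hpN hA Pl hPl) hnode)
  have hintg := HintF1.hintg_of_krullData h hpN hA hK Pl hPl hc₀
    (R := locSub F0 (centreP (A := A) h hpN hA (primeL hpN hA Pl hPl))) hg1
  -- `Z'` is integral on the sheet `0`, the tame trace, the rank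
  have hz : ‖emb (frameRaw T hu0 hu hg1 hg0) (ζ₁_prim T) (jc hD₁)
      (rootRaw_pow T hu0 hu hg1 hg0 hD₁ hγ₁) 0 (Zraw T hu0 hu hg1 hg0)‖ ≤ 1 :=
    norm_emb_Z_le_one (redDataBar (N' * p) A) (F₁ (N' * p) A ζ).subtype (hincl₁ T) hD₁
      (harch₁ T hA) (frameRaw T hu0 hu hg1 hg0) (ζ₁_prim T) (rootRaw_pow T hu0 hu hg1 hg0 hD₁ hγ₁)
      (frameRawb T hu0 hu hg1 hg0) (E' T).subtype (hincl'_AS T) (hroot_raw T hu0 hu hg1 hg0)
      (fixedTame x) (embF₁ (N' * p) A ζ) (fun _ => rfl) (ζ₁_eq T)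
      (frameRaw_root_eq T hu0 hu hg1 hg0) rfl hintg hRA
  obtain ⟨θ₀, hθ₀⟩ : ∃ θ₀ : fixedTame x,
      (θ₀ : E' T) = TraceRes.traceTame x (p - 1) (Zraw T hu0 hu hg1 hg0) :=
    ⟨⟨_, TraceRes.traceTame_mem_fixedTame hxd _⟩, rfl⟩
  obtain ⟨hrank, hfin⟩ := K0Inst.hrank T hτ hx hgen hA hD₁ (frameRaw T hu0 hu hg1 hg0)
    (rootRaw_pow T hu0 hu hg1 hg0 hD₁ hγ₁) hxδ' hg₀ hcop hxd' (tauF₁_pow T hτ) (ζ₁_eq T)
    (cz_ne_zero T) (valF₁_cz_lt_one T hA _) (frameRaw_root_eq T hu0 hu hg1 hg0) hz θ₀ hθ₀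
  haveI : FiniteDimensional F0 (fixedTame x) := hfin
  -- the reductions of the sheets on the chart ring
  have hρB₁ : ∀ (i : ZMod p) (b : BRingK0 N' p A h)
      (hb : iotaE (E' T).subtype (fixedTame x)
          (algebraMap (locSub F0 (centreP (A := A) h hpN hA (primeL hpN hA Pl hPl))) (fixedTame x)
            (algebraMap (BRingK0 N' p A h)
              (locSub F0 (centreP (A := A) h hpN hA (primeL hpN hA Pl hPl))) b)) ∈
        (sheetK (redDataBar (N' * p) A) (F₁ (N' * p) A ζ).subtype (hincl₁ T) hD₁ (harch₁ T hA)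
          (ζ₁_prim T) (rootRaw_pow T hu0 hu hg1 hg0 hD₁ hγ₁) (frameRawb T hu0 hu hg1 hg0) i).Rw),
      (sheetK (redDataBar (N' * p) A) (F₁ (N' * p) A ζ).subtype (hincl₁ T) hD₁ (harch₁ T hA)
          (ζ₁_prim T) (rootRaw_pow T hu0 hu hg1 hg0 hD₁ hγ₁) (frameRawb T hu0 hu hg1 hg0) i).red
          ⟨_, hb⟩ =
        fresInclInv hpN hA (algebraMap (CRing N' A) (FresBar N' A) (redC1K0 h hpN hA b)) := by
    intro i b hb
    letI := algCFres (ℓ := p) hpN hA
    exact RhoB.hρB₁_of_redExt' h hA hpN (fun c => coe_algebraMap_algCFres hpN hA c)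
      (redExt_sheetK (redDataBar (N' * p) A) (F₁ (N' * p) A ζ).subtype (hincl₁ T) hD₁ (harch₁ T hA)
        (ζ₁_prim T) (rootRaw_pow T hu0 hu hg1 hg0 hD₁ hγ₁) (frameRawb T hu0 hu hg1 hg0) i)
      (fun b => iotaE (E' T).subtype (fixedTame x)
          (algebraMap (locSub F0 (centreP (A := A) h hpN hA (primeL hpN hA Pl hPl))) (fixedTame x)
            (algebraMap (BRingK0 N' p A h)
              (locSub F0 (centreP (A := A) h hpN hA (primeL hpN hA Pl hPl))) b)))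
      (fun b => rfl) b hb
  have hρB₂ : IsNodeP h hpN hA (primeL hpN hA Pl hPl) → ∀ (i : ZMod p) (b : BRingK0 N' p A h)
      (hb : iotaE (E' T).subtype (fixedTame x)
          (algebraMap (locSub F0 (centreP (A := A) h hpN hA (primeL hpN hA Pl hPl))) (fixedTame x)
            (algebraMap (BRingK0 N' p A h)
              (locSub F0 (centreP (A := A) h hpN hA (primeL hpN hA Pl hPl))) b)) ∈
        (sheetK (redData2 (N' * p) A h) (F₁ (N' * p) A ζ).subtype (hincl₂ T h) hD₂ (harch₂ T h hA)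
          (ζ₁_prim T) (rootRaw_pow T hu0 hu hg1 hg0 hD₂ hγ₂) (frameRawb T hu0 hu hg1 hg0) i).Rw),
      (sheetK (redData2 (N' * p) A h) (F₁ (N' * p) A ζ).subtype (hincl₂ T h) hD₂ (harch₂ T h hA)
          (ζ₁_prim T) (rootRaw_pow T hu0 hu hg1 hg0 hD₂ hγ₂) (frameRawb T hu0 hu hg1 hg0) i).red
          ⟨_, hb⟩ =
        fresInclInv hpN hA (algebraMap (CRing N' A) (FresBar N' A) (redC2K0 h hpN hA b)) := by
    intro _ i b hb
    letI := algCFres (ℓ := p) hpN hA
    exact RhoB.hρB₂_of_redExt' h hA hpN (fun c => coe_algebraMap_algCFres hpN hA c)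
      (redExt_sheetK (redData2 (N' * p) A h) (F₁ (N' * p) A ζ).subtype (hincl₂ T h) hD₂
        (harch₂ T h hA) (ζ₁_prim T) (rootRaw_pow T hu0 hu hg1 hg0 hD₂ hγ₂)
        (frameRawb T hu0 hu hg1 hg0) i)
      (fun b => iotaE (E' T).subtype (fixedTame x)
          (algebraMap (locSub F0 (centreP (A := A) h hpN hA (primeL hpN hA Pl hPl))) (fixedTame x)
            (algebraMap (BRingK0 N' p A h)
              (locSub F0 (centreP (A := A) h hpN hA (primeL hpN hA Pl hPl))) b)))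
      (fun b => rfl) b hb
  -- the horizontal primes
  obtain ⟨θ₁, hθ₁⟩ := HhorMod.exists_not_mem_range_embK0 T hτ hx1 hrank
  have hhor := HhorToE.hhor_toE_at_point h T hτ hx1 hA hgen θ₁ hθ₁
    (R := locSub F0 (centreP (A := A) h hpN hA (primeL hpN hA Pl hPl))) (fun b => rfl) θ₀
  -- the engine
  obtain ⟨c, hc⟩ := NlPointDataK0.nl_point_data_K0 h hpN hA (redDataBar (N' * p) A)
    (redData2 (N' * p) A h) (F₁ (N' * p) A ζ).subtype (hincl₁ T) (hincl₂ T h) hD₁ hD₂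
    (harch₁ T hA) (harch₂ T h hA) (frameRaw T hu0 hu hg1 hg0) (ζ₁_prim T)
    (rootRaw_pow T hu0 hu hg1 hg0 hD₁ hγ₁) (rootRaw_pow T hu0 hu hg1 hg0 hD₂ hγ₂)
    (frameRawb T hu0 hu hg1 hg0) (E' T).subtype (hincl'_AS T) (hroot_raw T hu0 hu hg1 hg0)
    h2 h3 hν2 hν3 Pl hPl
    (Fermat.Agent.GS.F.unram_redDataBar (N' * p) A)
    (tauF₁ T hτ) (valF₁_tauF₁ T hτ hA _) (valF₁_tauF₁ T hτ hA _)
    (InertialMod.sig (N' * p) τ) (InertialMod.hσ₁ (N' * p) A hp hA hτdec)
    (InertialMod.hσ₂ (N' * p) A h hA hτdec)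
    (InertialMod.hσK (N' * p) τ) (InertialMod.hres₁ (N' * p) A hp hA hτ)
    (InertialMod.hres₂ (N' * p) A h hA hτ)
    (fun b => coe_tauF₁ T hτ b) hx hxδ' hg₀ hcop hxd' (tauF₁_pow T hτ)
    (TameLift.hF T hτ hA _) (TameLift.hF T hτ hA _)
    (fixedTame x) (fun _ => mem_fixedTame) (embF₁ (N' * p) A ζ) (fun _ => rfl) hrank
    (exists_embF₁_of_fixed T hτ hgen) (tauF₁_embF₁ T hτ)
    (fixedUnits (tameGroup A ζ) T.Fp) (UsInst.Us T) a (toE' T) (coe_toE' T) (toE'_mul T) ha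
    (ζ₁_eq T) (cz_ne_zero T) (valF₁_cz_lt_one T hA _) (valF₁_cz_lt_one T hA _)
    (frameRaw_root_eq T hu0 hu hg1 hg0) rfl hintg
    (RescaleSheets.val_gRaw_le_one₁ T hg1 hK.mem1) (RescaleSheets.val_gRaw_le_one₂ T h hg1 hK.mem2)
    θ₀ hθ₀ (RescaleSheets.val_natCast_lt_one₁ T hA) (RescaleSheets.val_natCast_lt_one₂ T h hA)
    hRA hRB hρB₁ hρB₂ hhor
  refine ⟨c, fun k y hy hy1 hy2 => ?_⟩
  rw [← RescaleSheets.nodeOrd_sheet₁_frameRawb T hu0 hu hg1 hg0 hA hD₁ hγ₁ Pl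
    (fixedUnits (tameGroup A ζ) T.Fp) y k]
  exact hc k y hy ((wOf_eq_wv_frameRaw T hu0 hu hg1 hg0 hD₁ hγ₁ k y).symm.trans hy1)
    ((wOf_eq_wv_frameRaw T hu0 hu hg1 hg0 hD₂ hγ₂ (k + c) y).symm.trans hy2)

end Mod

/-! ### (3) `NLAll` at a variable level -/

section All

open Fermat.Agent.GF.F2Asm.KummerExt Fermat.Agent.GF.F2Asm.Inst Fermat.Agent.GF.KCover
open Fermat.Agent.GF.Peu Fermat.Agent.GF.F2Asm
open Fermat.Agent.GF.KCover.Field.WDataOf
open Fermat.Agent.GF.KCover.Compl.SheetsMod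
open Fermat.Agent.GF.KCover.Int Fermat.Agent.GF.KCover.Int.TameLift
open Fermat.Agent.GF.KCover.AuxLevel
open Fermat.Agent.GF.KCover.NodeMod.ASKDef

attribute [local instance] actFK algE'

set_option maxHeartbeats 4000000 in
/-- **RULING-9 (5): the node lemma at ALL finite places of a level `L` with `4 ∣ L`**, from
`SigmaRel T` and the `c₀`-parametric Artin–Schreier + Krull input. -/
theorem nlAll_of_hyps {L : ℕ} [NeZero L] {p : ℕ} [hpF : Fact p.Prime] {A : ValuationSubring Qb}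
    {ζ : Qb} (h : ExactDvd p L) (hA : A.LiesOverPrime p) (hp5 : 5 ≤ p) (h4 : 4 ∣ L)
    (T : TameDatum L p A ζ) (hσ : SigmaRel T) (hASK : ∀ c₀, ASK T h c₀) : NLAll T h := by
  have hp := hpF.out
  obtain ⟨N', rfl⟩ : ∃ N', L = N' * p := ⟨L / p, (Nat.div_mul_cancel h.dvd).symm⟩
  haveI : NeZero N' := ⟨by rintro rfl; exact NeZero.ne (0 * p) (zero_mul p)⟩
  haveI : NeZero p := ⟨hp.ne_zero⟩
  have hpN : ¬ p ∣ N' := fun hd => h.not_sq (by
    rw [pow_two]
    exact Nat.mul_dvd_mul hd dvd_rfl)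
  have hcop4 : Nat.Coprime 4 p := by
    have h2p : Nat.Coprime 2 p := by
      rw [Nat.coprime_comm, hp.coprime_iff_not_dvd]
      intro hd
      have := Nat.le_of_dvd (by norm_num) hd
      omega
    exact Nat.Coprime.pow_left 2 h2p
  have h4' : 4 ∣ N' := hcop4.dvd_of_dvd_mul_right h4
  have hν2 : nuTwo N' = 0 := Fermat.Agent.GB.A4.LevelFour.nuTwo_eq_zero_of_four_dvd h4'
  have hν3 : nuThree N' = 0 :=
    Fermat.Agent.GB.A4.LevelFour.nuThree_eq_zero_of_two_dvd (dvd_trans ⟨2, rfl⟩ h4')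
  haveI := Fermat.Agent.GK.SS.Modular.isDedekindDomain_CRing N' p A hA
  haveI := Fermat.Agent.GL.SmallQ.isFractionRing_CRing N' A
  intro hD₁ hD₂ harch γ₁ hγ₁ γ₂ hγ₂ Pl hjt
  have ejt : fresInclInv hpN hA (Fermat.Agent.GK.QS.jt N' A) = Fermat.Agent.GK.QS.jt (N' * p) A :=
    Subtype.ext (by
      rw [coe_fresInclInv, Fermat.Agent.GK.QS.coe_jt, Fermat.Agent.GK.QS.coe_jt])
  have hPl : ContainsC hpN hA Pl := containsC_of_jt_mem hpN hA Pl (by rw [ejt]; exact hjt)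
  obtain ⟨c₀, hc₀⟩ := ValueJt.exists_valueAt_jt hpN hA Pl hPl
  obtain ⟨u, g1, hu0, hu, hg1, hg0, hK⟩ := hASK c₀
  obtain ⟨c, hc⟩ := nlPoint_mod h hpN hA T (fun h2 => by omega) (fun h3 => by omega) hν2 hν3 hσ
    hD₁ hD₂ hγ₁ hγ₂ Pl hPl hc₀ hu0 hu hg1 hg0 hK
  refine ⟨0, c, fun j hun y hy h1 h2 => ?_⟩
  have e : j + 0 = j := add_zero j
  have h1' : wOf T hD₁ hγ₁ j y = 0 := e ▸ h1
  have key := hc j y hy h1' h2
  rw [← nodeOrd_congr' (congrArg (sheet₁ T hA hD₁ hγ₁) e) (unram_sheet₁ T hA hD₁ hγ₁ j)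
    (unram_sheet₁ T hA hD₁ hγ₁ (j + 0))] at key
  exact key

end All

end Fermat.Agent.GF.KCover.NodeMod.NlAllOfHyps

end
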