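/-
GATE-F (S44) / GF-KCOVER-NODEMOD (M-c), file 2 (helper40): **the hypothesis `hKD` of
`HintMod.hint_mod` for `Z = m • 𝔠.D0`, `𝔠` an `I_A`-fixed chart of the pinned nodal frame, at the
centre `𝔫 = NodeRingK0.centre h hℓN hA Qn hQn` of a place `Qn` of the first component**
(helper60 `KDChart.kd_centre_of_disc1/2`).

LEVEL-FREE VARIANTS of helper60's `kd_of_jvalue` / `kd_centre` (no `I_A`-fixed place needed: the
`j`-value is given as a `K₀`-constant; this is the form which survives a pull-back to a higher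
level, e.g. `4N`):
* `kd_of_jvalue_const`, `kd_centre_const`;
* `exists_jvalue_of_disc1/2` : an `I_A`-fixed non-cuspidal place `X` in the disc of a non-cuspidal
  special point `Q'` has `j(X) = ι₀ c0`, `c0 ∈ R₀`, and `τ(Q') = res c0` (resp. `τ(Q')^ℓ`).

CHART:
* `OffPt H c₀ s` : the special point `s` is not a cusp and its `τ`-value (resp. `τ^ℓ`-value on the
  second component) is not `c₀`;
* `kd_of_offPt`, **`hKD_chart`** : `hKD` of `hint_mod` for `Z := (m : ℤ) • 𝔠.D0`;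
* **`exists_offSet`** : for finitely many node values `cs` there is a FINITE set `S'` of special
  points off which `OffPt H c₀` holds for every `c₀ ∈ cs` — the `S'` of
  `ASRep.exists_fixed_chart_off`.
-/
import Fermat.Agent.GF.KCover.ASNode.KDChart
import Fermat.Agent.GF.KCover.ASRep.RatRepMod

set_option autoImplicit false
set_option linter.unusedSectionVars false
set_option linter.unusedVariables false
set_option linter.style.haveILetI false

noncomputable section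

namespace Fermat.Agent.GF.KCover.NodeMod.HintKD

open AlgebraicCurve IsLocalRing ModularCurve
open Fermat.Agent.S24 Fermat.Agent.S24_helper62 Fermat.Agent.S24_helper6
open Fermat.Agent.GJ.J1 Fermat.Agent.GJ.J1.Val Fermat.Agent.GJ.KumGroup
open Fermat.Agent.GK.AL Fermat.Agent.GK.QS Fermat.Agent.GK.NodalGraded Fermat.Agent.GK.NodalBridge
open Fermat.Agent.GL.Val.GaussK0 Fermat.Agent.GL.Val.SecondK0 Fermat.Agent.GL.Val.DegBase
open Fermat.Agent.RRh45
open Fermat.Agent.GL.BRingK0 Fermat.Agent.GL.Thick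
open Fermat.Agent.Common_helper32
open Fermat.Agent.GF.KCover.Node
open Fermat.Agent.GF.KCover.ASNode.KD Fermat.Agent.GF.KCover.ASNode
open Fermat.Agent.GK.CuspSep Fermat.Agent.GK.BallTwo Fermat.Agent.GK.SymChart
open Fermat.Agent.GS.Nodal.LSR2 Fermat.Agent.GS.Nodal.Inst Fermat.Agent.GS.Nodal.SupplyPin
open Fermat.Agent.GS.Nodal.DiscFacts2 Fermat.Agent.GS.Nodal.FibreHyp2
open Fermat.Agent.GS.Frame Fermat.Agent.GS.Frame.Glue Fermat.Agent.GS.Gal.FixChart
open Fermat.Agent.GJ.J1.InstGen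

attribute [local instance] Fermat.Agent.GL.Frame.InstK0.algSubringFullC

variable {A : ValuationSubring Qb} {N' : ℕ} [NeZero N'] {ℓ : ℕ} [Fact ℓ.Prime] [NeZero ℓ]
  (h : ExactDvd ℓ (N' * ℓ)) (hℓN : ¬ ℓ ∣ N') (hA : A.LiesOverPrime ℓ)

local notation "F0" => modularFunctionFieldFullC (K0 A) (N' * ℓ)
local notation "kA" => IsLocalRing.ResidueField A

/-! ### level-free variants of (KD) -/

/-- **(KD), `j`-value form with the `j`-value given as a `K₀`-constant** -/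
theorem kd_of_jvalue_const (𝔫 : Ideal (BRingK0 N' ℓ A h)) (X : Place Kb (FK (N' * ℓ)))
    (c0 : R0 A) (ha : ValueAt X (jF (N' * ℓ)) (ι0 A (c0 : K0 A)))
    (hsep : jK0B N' ℓ A h - cstK0 N' ℓ A h c0 ∉ 𝔫) :
    ∃ b : BRingK0 N' ℓ A h, b ∉ 𝔫 ∧ 0 < X.ord (mapK0Bar A (N' * ℓ) (b : F0)) := by
  refine ⟨jK0B N' ℓ A h - cstK0 N' ℓ A h c0, hsep, ?_⟩
  have hjC : mapK0Bar A (N' * ℓ) (jC (N' * ℓ) (K0 A)) = jF (N' * ℓ) :=
    Fermat.Agent.GL.RatBRing.mapK0Bar_jC A (N' * ℓ)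
  have e : mapK0Bar A (N' * ℓ) ((jK0B N' ℓ A h - cstK0 N' ℓ A h c0 :
      BRingK0 N' ℓ A h) : F0) =
      jF (N' * ℓ) - algebraMap Kbar (FN (N' * ℓ)) (ι0 A (c0 : K0 A)) := by
    have e1 : ((jK0B N' ℓ A h - cstK0 N' ℓ A h c0 : BRingK0 N' ℓ A h) : F0) =
        jC (N' * ℓ) (K0 A) - algebraMap (K0 A) F0 (c0 : K0 A) := rfl
    rw [e1, map_sub, hjC, mapK0Bar_algebraMap]
  rw [e]
  unfold ValueAt at ha
  rw [mem_ordGE] at ha
  rcases ha with h0 | h1
  · exact absurd h0 (KDChart.jF_sub_const_ne_zero _)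
  · exact lt_of_lt_of_le zero_lt_one h1

variable [IsDedekindDomain (CRing N' A)] [IsFractionRing (CRing N' A) (FresBar N' A)]

include hA in
/-- **(KD) at the centre of `Qn`, `j`-value given as a `K₀`-constant**: a place `X` with
`j(X) = ι₀ c0` whose residue is not the `j~`-value of `Qn` does not specialise into the centre. -/
theorem kd_centre_const (Qn : Place kA (FresBar N' A)) (hQn : ContainsB (CRing N' A) Qn)
    (X : Place Kb (FK (N' * ℓ))) (c0 : R0 A)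
    (ha : ValueAt X (jF (N' * ℓ)) (ι0 A (c0 : K0 A)))
    (hne : ¬ ValueAt Qn (algebraMap (CRing N' A) (FresBar N' A) (jtC N' A)) (resR0 A c0)) :
    ∃ b : BRingK0 N' ℓ A h, b ∉ NodeRingK0.centre h hℓN hA Qn hQn ∧
      0 < X.ord (mapK0Bar A (N' * ℓ) (b : F0)) := by
  refine kd_of_jvalue_const h (NodeRingK0.centre h hℓN hA Qn hQn) X c0 ha fun hmem => hne ?_
  rw [NodeRingK0.centre, Ideal.mem_comap, map_sub, redC1K0_jK0B, redC1K0_cstK0,
    primeOfPlace_asIdeal] at hmem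
  have hcen := Fermat.Agent.GF.Eis.NodesCentred.centredAt_centre (k := kA) Qn hQn
  exact (hcen.valueAt_iff (jtC N' A) (resR0 A c0)).2 hmem

/-! ### the `j`-values of fixed places in the discs -/

section Frame

attribute [local instance] finiteResidues_FN hasPrincipalDivisors_FN nonempty_place_FN
  isAlgClosed_res finiteResidues_Fres hasPrincipalDivisors_Fres nonempty_place_Fres

variable {κ : Type} [Fintype κ]
  {P Q : κ → Place (IsLocalRing.ResidueField A) (FresBar (N' * ℓ) A)}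
variable {g c : ℤ} {n₀ : ℕ}

/-- an `I_A`-fixed constant of `A` is `ι₀` of an element of `R₀`. -/
theorem exists_R0_of_fixed {a : Kbar} (haA : a ∈ A)
    (hfix : ∀ σ ∈ A.inertiaSubgroupIn ℚ, σ a = a) :
    ∃ c0 : R0 A, ι0 A (c0 : K0 A) = a := by
  obtain ⟨c0, hc0⟩ := (mem_range_ι0_iff A a).2 hfix
  have hc0R : c0 ∈ R0 A := by
    rw [mem_R0_iff, hc0]
    exact haA
  exact ⟨⟨c0, hc0R⟩, hc0⟩

include hA in
/-- the `j`-value of an `I_A`-fixed place is `ι₀` of an element of `R₀` as soon as it lies in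
`A`. -/
theorem exists_R0_jvalue (X : Place Kb (FK (N' * ℓ)))
    (hX : ∀ σ ∈ A.inertiaSubgroupIn ℚ,
      arithmeticGalois (L := Qb) (modularFunctionFieldFull (N' * ℓ)) σ • X = X)
    {a : Kbar} (ha : ValueAt X (jF (N' * ℓ)) a) (haA : a ∈ A) :
    ∃ c0 : R0 A, ι0 A (c0 : K0 A) = a ∧
      resR0 A c0 = IsLocalRing.residue A ⟨a, haA⟩ := by
  have hjC : mapK0Bar A (N' * ℓ) (jC (N' * ℓ) (K0 A)) = jF (N' * ℓ) :=
    Fermat.Agent.GL.RatBRing.mapK0Bar_jC A (N' * ℓ)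
  have ha' : ValueAt X (mapK0Bar A (N' * ℓ) (jC (N' * ℓ) (K0 A))) a := by rw [hjC]; exact ha
  have hfix := valueAt_fixed (N' * ℓ) A X hX (jC (N' * ℓ) (K0 A)) ha'
  obtain ⟨c0, hc0⟩ := exists_R0_of_fixed haA hfix
  refine ⟨c0, hc0, ?_⟩
  rw [KDChart.resR0_eq]
  congr 1
  exact Subtype.ext hc0

include hA in
/-- **first component**: an `I_A`-fixed place `X` in the disc of a non-cuspidal `Q'` has
`j(X) = ι₀ c0`, `τ(Q') = res c0`. -/
theorem exists_jvalue_of_disc1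
    (H : NodalHyp (redCompatFN (N' * ℓ) A h) P Q (CS (N' * ℓ) h) (Dτ (N' * ℓ) A ℓ)
      (Dτ (N' * ℓ) A ℓ) g c n₀)
    (X : Place Kb (FK (N' * ℓ)))
    (hX : ∀ σ ∈ A.inertiaSubgroupIn ℚ,
      arithmeticGalois (L := Qb) (modularFunctionFieldFull (N' * ℓ)) σ • X = X)
    {Q' : Place kA (FresBar (N' * ℓ) A)} (hd : X ∈ disc1 H Q')
    (hQ' : 0 ≤ Q'.ord (tauF (N' * ℓ) A)) :
    ∃ c0 : R0 A, ValueAt X (jF (N' * ℓ)) (ι0 A (c0 : K0 A)) ∧
      ValueAt Q' (tauF (N' * ℓ) A) (resR0 A c0) := by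
  haveI : Infinite kA := IsAlgClosed.instInfinite
  have hXj : 0 ≤ X.ord (jF (N' * ℓ)) := by
    by_contra hneg
    have := ord_tau_neg_of_mem_disc1 (N' * ℓ) A h H (not_le.1 hneg) hd
    omega
  obtain ⟨a, ha1, ha2⟩ := valueAt_jF_of_mem_disc1 (N' * ℓ) A h H hA hd hXj hQ'
  obtain ⟨c0, hc0, hres⟩ := exists_R0_jvalue hA X hX ha1 a.2
  refine ⟨c0, by rw [hc0]; exact ha1, ?_⟩
  rw [hres]
  exact ha2

include hA in
/-- **second component**: an `I_A`-fixed place `X` in the disc of a non-cuspidal `Q'` has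
`j(X) = ι₀ c0`, `τ(Q')^ℓ = res c0`. -/
theorem exists_jvalue_of_disc2
    (H : NodalHyp (redCompatFN (N' * ℓ) A h) P Q (CS (N' * ℓ) h) (Dτ (N' * ℓ) A ℓ)
      (Dτ (N' * ℓ) A ℓ) g c n₀)
    (X : Place Kb (FK (N' * ℓ)))
    (hX : ∀ σ ∈ A.inertiaSubgroupIn ℚ,
      arithmeticGalois (L := Qb) (modularFunctionFieldFull (N' * ℓ)) σ • X = X)
    {Q' : Place kA (FresBar (N' * ℓ) A)} (hd : X ∈ disc2 H Q')
    (hQ' : 0 ≤ Q'.ord (tauF (N' * ℓ) A)) :
    ∃ c0 : R0 A, ValueAt X (jF (N' * ℓ)) (ι0 A (c0 : K0 A)) ∧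
      ValueAt Q' (tauF (N' * ℓ) A ^ ℓ) (resR0 A c0) := by
  haveI : Infinite kA := IsAlgClosed.instInfinite
  have hXj : 0 ≤ X.ord (jF (N' * ℓ)) := by
    by_contra hneg
    have := ord_tau_neg_of_mem_disc2 (N' * ℓ) A h H (not_le.1 hneg) hd
    omega
  obtain ⟨a, ha1, ha2⟩ := valueAt_jF_of_mem_disc2 (N' * ℓ) A h H hA hd hXj hQ'
  have haA : (a : Kbar) ∈ A := a.2
  obtain ⟨c0, hc0, hres⟩ := exists_R0_jvalue hA X hX ha1 haA
  refine ⟨c0, by rw [hc0]; exact ha1, ?_⟩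
  rw [hres]
  exact ha2

/-! ### the chart -/

/-- **the off-condition** on a special point `s` of the pinned frame for the node value `c₀`:
`s` is not a cusp and its `τ`-value (`τ^ℓ`-value on the second component) is not `c₀`. -/
def OffPt (H : NodalHyp (redCompatFN (N' * ℓ) A h) P Q (CS (N' * ℓ) h) (Dτ (N' * ℓ) A ℓ)
      (Dτ (N' * ℓ) A ℓ) g c n₀) (c₀ : kA) :
    SpPt (fibreHyp1_of_nodal H (ff2_pin H)) (fibreHyp2_of_nodal H (ff2_pin H)) → Prop
  | Sum.inl q => 0 ≤ q.1.ord (tauF (N' * ℓ) A) ∧ ¬ ValueAt q.1 (tauF (N' * ℓ) A) c₀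
  | Sum.inr q => 0 ≤ q.1.ord (tauF (N' * ℓ) A) ∧ ¬ ValueAt q.1 (tauF (N' * ℓ) A ^ ℓ) c₀

include hA in
/-- (KD) for an `I_A`-fixed place in the disc of a special point satisfying the off-condition. -/
theorem kd_of_offPt
    (H : NodalHyp (redCompatFN (N' * ℓ) A h) P Q (CS (N' * ℓ) h) (Dτ (N' * ℓ) A ℓ)
      (Dτ (N' * ℓ) A ℓ) g c n₀)
    (Qn : Place kA (FresBar N' A)) (hQn : ContainsB (CRing N' A) Qn)
    {c₀ : kA} (hQnc : ValueAt Qn (algebraMap (CRing N' A) (FresBar N' A) (jtC N' A)) c₀)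
    (s : SpPt (fibreHyp1_of_nodal H (ff2_pin H)) (fibreHyp2_of_nodal H (ff2_pin H)))
    (hs : OffPt h H c₀ s) (X : Place Kb (FK (N' * ℓ)))
    (hX : ∀ σ ∈ A.inertiaSubgroupIn ℚ,
      arithmeticGalois (L := Qb) (modularFunctionFieldFull (N' * ℓ)) σ • X = X)
    (hd : X ∈ (pinData H).disc s) :
    ∃ b : BRingK0 N' ℓ A h, b ∉ NodeRingK0.centre h hℓN hA Qn hQn ∧
      0 < X.ord (mapK0Bar A (N' * ℓ) (b : F0)) := by
  rcases s with q | q
  · rw [nodalData_disc_inl] at hd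
    exact KDChart.kd_centre_of_disc1 h hℓN hA H Qn hQn hQnc X hX hd hs.1 hs.2
  · rw [nodalData_disc_inr] at hd
    exact KDChart.kd_centre_of_disc2 h hℓN hA H Qn hQn hQnc X hX hd hs.1 hs.2

include hA in
/-- **the hypothesis `hKD` of `HintMod.hint_mod` for `Z := (m : ℤ) • 𝔠.D0`**, `𝔠` an `I_A`-fixed
chart whose special points satisfy the off-condition for the `j~`-value `c₀` of `Qn`. -/
theorem hKD_chart
    (H : NodalHyp (redCompatFN (N' * ℓ) A h) P Q (CS (N' * ℓ) h) (Dτ (N' * ℓ) A ℓ)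
      (Dτ (N' * ℓ) A ℓ) g c n₀)
    {n : ℕ} (𝔠 : Chart (pinData H) n)
    (hfixC : ∀ τ ∈ A.inertiaSubgroupIn ℚ,
      FixesChart (arithmeticGalois (modularFunctionFieldFull (N' * ℓ)) τ) 𝔠)
    (Qn : Place kA (FresBar N' A)) (hQn : ContainsB (CRing N' A) Qn)
    {c₀ : kA} (hQnc : ValueAt Qn (algebraMap (CRing N' A) (FresBar N' A) (jtC N' A)) c₀)
    (hoff : ∀ i, OffPt h H c₀ (𝔠.Q i)) (m : ℕ) :
    ∀ X : Place Kb (FK (N' * ℓ)), 0 < ((m : ℤ) • 𝔠.D0) X →
      ∃ b : BRingK0 N' ℓ A h, b ∉ NodeRingK0.centre h hℓN hA Qn hQn ∧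
        0 < X.ord (mapK0Bar A (N' * ℓ) (b : F0)) := by
  classical
  intro X hX
  rw [Finsupp.smul_apply, smul_eq_mul] at hX
  have h1 : 𝔠.D0 X ≠ 0 := fun h0 => by rw [h0, mul_zero] at hX; exact lt_irrefl _ hX
  unfold Chart.D0 at h1
  rw [Finsupp.finsetSum_apply] at h1
  obtain ⟨i, -, hi⟩ := Finset.exists_ne_zero_of_sum_ne_zero h1
  rw [Finsupp.single_apply] at hi
  have hXi : (𝔠.pt i).P = X := by
    by_contra hne
    exact hi (if_neg hne)
  rw [← hXi]
  exact kd_of_offPt h hℓN hA H Qn hQn hQnc (𝔠.Q i) (hoff i) (𝔠.pt i).P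
    (fun σ hσ => (hfixC σ hσ i).1) (𝔠.pt i).hP

/-! ### the finite exceptional set -/

/-- the places where a nonzero function has nonzero order form a finite set. -/
theorem finite_ord_ne_zero' {K F : Type*} [Field K] [Field F] [Algebra K F]
    [HasPrincipalDivisors K F] {f : F} (hf : f ≠ 0) : {v : Place K F | v.ord f ≠ 0}.Finite := by
  obtain ⟨D, hD, -⟩ := HasPrincipalDivisors.exists_divisor (K := K) f hf
  refine D.support.finite_toSet.subset fun v hv => ?_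
  rw [Finset.mem_coe, Finsupp.mem_support_iff, hD]
  exact hv

/-- the places where a transcendental function takes the value `c₀` form a finite set. -/
theorem finite_valueAt {K F : Type*} [Field K] [Field F] [Algebra K F]
    [HasPrincipalDivisors K F] {f : F} (hf : Transcendental K f) (c₀ : K) :
    {v : Place K F | ValueAt v f c₀}.Finite := by
  have hne : f - algebraMap K F c₀ ≠ 0 := fun h0 =>
    hf (sub_eq_zero.mp h0 ▸ isAlgebraic_algebraMap c₀)
  refine (finite_ord_ne_zero' (K := K) hne).subset fun v hv => ?_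
  have hv' : f - algebraMap K F c₀ ∈ ordGE v 1 := hv
  rw [mem_ordGE] at hv'
  rcases hv' with h0 | h1
  · exact absurd h0 hne
  · show v.ord (f - algebraMap K F c₀) ≠ 0
    omega

/-- **the finite exceptional set of special points**: off `S'`, the off-condition holds for every
node value of the finite set `cs`. -/
theorem exists_offSet
    (H : NodalHyp (redCompatFN (N' * ℓ) A h) P Q (CS (N' * ℓ) h) (Dτ (N' * ℓ) A ℓ)
      (Dτ (N' * ℓ) A ℓ) g c n₀) (cs : Finset kA) :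
    ∃ S' : Finset (SpPt (fibreHyp1_of_nodal H (ff2_pin H)) (fibreHyp2_of_nodal H (ff2_pin H))),
      ∀ s, s ∉ S' → ∀ c₀ ∈ cs, OffPt h H c₀ s := by
  classical
  have hℓ : ℓ.Prime := Fact.out
  have htr : Transcendental kA (tauF (N' * ℓ) A) := transcendental_tauF (N' * ℓ) A
  have htrℓ : Transcendental kA (tauF (N' * ℓ) A ^ ℓ) := htr.pow hℓ.pos
  have h0 : tauF (N' * ℓ) A ≠ 0 := fun h0 => htr (h0 ▸ isAlgebraic_zero)
  -- the bad places
  set Bad : Set (Place kA (FresBar (N' * ℓ) A)) :=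
    {v | v.ord (tauF (N' * ℓ) A) ≠ 0} ∪
      ⋃ c₀ ∈ cs, ({v | ValueAt v (tauF (N' * ℓ) A) c₀} ∪
        {v | ValueAt v (tauF (N' * ℓ) A ^ ℓ) c₀}) with hBad
  have hBadfin : Bad.Finite := by
    refine (finite_ord_ne_zero' (K := kA) h0).union ?_
    refine Set.Finite.biUnion cs.finite_toSet fun c₀ _ => ?_
    exact (finite_valueAt htr c₀).union (finite_valueAt htrℓ c₀)
  -- the underlying place of a special point
  let u : SpPt (fibreHyp1_of_nodal H (ff2_pin H)) (fibreHyp2_of_nodal H (ff2_pin H)) →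
      Place kA (FresBar (N' * ℓ) A) ⊕ Place kA (FresBar (N' * ℓ) A) :=
    Sum.map Subtype.val Subtype.val
  have hu : Function.Injective u :=
    Function.Injective.sumMap Subtype.val_injective Subtype.val_injective
  have hfin : (u ⁻¹' (Sum.inl '' Bad ∪ Sum.inr '' Bad)).Finite :=
    Set.Finite.preimage hu.injOn ((hBadfin.image _).union (hBadfin.image _))
  refine ⟨hfin.toFinset, fun s hs c₀ hc₀ => ?_⟩
  rw [Set.Finite.mem_toFinset, Set.mem_preimage] at hs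
  rcases s with q | q
  · have hq : q.1 ∉ Bad := fun hmem => hs (Or.inl ⟨q.1, hmem, rfl⟩)
    rw [hBad, Set.mem_union, not_or] at hq
    refine ⟨?_, fun hv => hq.2 ?_⟩
    · have : q.1.ord (tauF (N' * ℓ) A) = 0 := not_not.1 hq.1
      rw [this]
    · exact Set.mem_biUnion hc₀ (Or.inl hv)
  · have hq : q.1 ∉ Bad := fun hmem => hs (Or.inr ⟨q.1, hmem, rfl⟩)
    rw [hBad, Set.mem_union, not_or] at hq
    refine ⟨?_, fun hv => hq.2 ?_⟩
    · have : q.1.ord (tauF (N' * ℓ) A) = 0 := not_not.1 hq.1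
      rw [this]
    · exact Set.mem_biUnion hc₀ (Or.inr hv)

include hA in
/-- **an `I_A`-fixed chart of the pinned frame all of whose special points satisfy the
off-condition for every node value in `cs`** (`ASRep.exists_fixed_chart_off` at the `S'` of
`exists_offSet`). -/
theorem exists_fixed_chart_offPt {c : ℤ} {n₀ : ℕ}
    (FF : FrameFacts (N' * ℓ) A h P Q)
    (NH : NodalHyp (redCompatFN (N' * ℓ) A h) P Q (CS (N' * ℓ) h) (Dτ (N' * ℓ) A ℓ)
      (Dτ (N' * ℓ) A ℓ) (genusRR Kbar (FN (N' * ℓ))) c n₀) (cs : Finset kA) :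
    ∃ (n : ℕ) (_ : (n : ℤ) = genusRR Kbar (FN (N' * ℓ))) (𝔠₀ : Chart (pinData NH) n),
      (∀ i, ∀ c₀ ∈ cs, OffPt h NH c₀ (𝔠₀.Q i)) ∧
      ∀ τ ∈ A.inertiaSubgroupIn ℚ,
        FixesChart (arithmeticGalois (modularFunctionFieldFull (N' * ℓ)) τ) 𝔠₀ := by
  obtain ⟨S', hS'⟩ := exists_offSet h NH cs
  obtain ⟨n, hn, 𝔠₀, hoff, hfix⟩ :=
    Fermat.Agent.GF.KCover.ASRep.exists_fixed_chart_off h hA FF NH S'
  exact ⟨n, hn, 𝔠₀, fun i c₀ hc₀ => hS' _ (hoff i) c₀ hc₀, hfix⟩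

end Frame

end Fermat.Agent.GF.KCover.NodeMod.HintKD

end
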