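/-
GATE-F (S44) / GF-KCOVER-NODEMOD (M-c), file 3 (helper40): **the SOURCE side of helper60's
`KrullUp.KrullData`** — `hsupp` of `KrullData.of_chart` from the chart vocabulary, for ALL node
values at once.

* `hsupp_chart` : for an `I_A`-fixed chart `𝔠` of the pinned frame whose special points satisfy
  `HintKD.OffPt h H c₀`, every point of the support of `(m : ℤ) • 𝔠.D0` is an `I_A`-fixed place in
  the disc of a non-cuspidal special point off the value `c₀` (= the binder `hsupp` of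
  `KrullData.of_chart` VERBATIM);
* **`krullData_of_chart`** : `KrullData A (N' ℓ) h χ c₀ g1` for `χ :=` the mod `ℓ` cyclotomic
  character (`hζ.autToPow ℚ`), from the outputs `(hfix hg1 hg2 hZ)` of
  `ASFormChart.exists_asForm_chart`;
* `krullData_of_chart_all` : the same for every `c₀` in a finite set `cs` (ONE chart for all nodes,
  chosen by `HintKD.exists_fixed_chart_offPt`).
-/
import Fermat.Agent.GF.KCover.NodeMod.HintKD
import Fermat.Agent.GF.KCover.ASNode.KrullUp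

set_option autoImplicit false
set_option linter.unusedSectionVars false
set_option linter.unusedVariables false
set_option linter.style.haveILetI false

noncomputable section

namespace Fermat.Agent.GF.KCover.NodeMod.HintKrullSrc

open AlgebraicCurve IsLocalRing ModularCurve
open Fermat.Agent.S24 Fermat.Agent.S24_helper62 Fermat.Agent.S24_helper6
open Fermat.Agent.GJ.J1 Fermat.Agent.GJ.J1.Val Fermat.Agent.GJ.KumGroup
open Fermat.Agent.GK.AL Fermat.Agent.GK.QS Fermat.Agent.GK.NodalGraded Fermat.Agent.GK.NodalBridge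
open Fermat.Agent.GL.Val.GaussK0 Fermat.Agent.GL.Val.SecondK0 Fermat.Agent.GL.Val.DegBase
open Fermat.Agent.RRh45
open Fermat.Agent.Common_helper32
open Fermat.Agent.GF.Peu
open Fermat.Agent.GF.KCover.ASNode.KrullUp
open Fermat.Agent.GF.KCover.NodeMod.HintKD
open Fermat.Agent.GK.CuspSep Fermat.Agent.GK.BallTwo Fermat.Agent.GK.SymChart
open Fermat.Agent.GS.Nodal.LSR2 Fermat.Agent.GS.Nodal.Inst Fermat.Agent.GS.Nodal.SupplyPin
open Fermat.Agent.GS.Nodal.DiscFacts2 Fermat.Agent.GS.Nodal.FibreHyp2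
open Fermat.Agent.GS.Frame Fermat.Agent.GS.Frame.Glue Fermat.Agent.GS.Gal.FixChart

local notation "GQ" => (AlgebraicClosure ℚ ≃ₐ[ℚ] AlgebraicClosure ℚ)

attribute [local instance] finiteResidues_FN hasPrincipalDivisors_FN nonempty_place_FN
  isAlgClosed_res finiteResidues_Fres hasPrincipalDivisors_Fres nonempty_place_Fres

variable {A : ValuationSubring Qb} {N' : ℕ} [NeZero N'] {ℓ : ℕ} [Fact ℓ.Prime] [NeZero ℓ]
  (h : ExactDvd ℓ (N' * ℓ)) (hA : A.LiesOverPrime ℓ)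

local notation "kA" => IsLocalRing.ResidueField A

variable {κ : Type} [Fintype κ]
  {P Q : κ → Place (IsLocalRing.ResidueField A) (FresBar (N' * ℓ) A)}
variable {g c : ℤ} {n₀ : ℕ}

/-- **the binder `hsupp` of `KrullData.of_chart`** for `Z := (m : ℤ) • 𝔠.D0`. -/
theorem hsupp_chart
    (H : NodalHyp (redCompatFN (N' * ℓ) A h) P Q (CS (N' * ℓ) h) (Dτ (N' * ℓ) A ℓ)
      (Dτ (N' * ℓ) A ℓ) g c n₀)
    {n : ℕ} (𝔠 : Chart (pinData H) n)
    (hfixC : ∀ τ ∈ A.inertiaSubgroupIn ℚ,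
      FixesChart (arithmeticGalois (modularFunctionFieldFull (N' * ℓ)) τ) 𝔠)
    {c₀ : kA} (hoff : ∀ i, OffPt h H c₀ (𝔠.Q i)) (m : ℕ) :
    ∀ X : Place Kb (FK (N' * ℓ)), 0 < ((m : ℤ) • 𝔠.D0) X →
      (∀ σ ∈ A.inertiaSubgroupIn ℚ,
        arithmeticGalois (L := Qb) (modularFunctionFieldFull (N' * ℓ)) σ • X = X) ∧
      ((∃ Q' : Place kA (FresBar (N' * ℓ) A), X ∈ disc1 H Q' ∧
          0 ≤ Q'.ord (tauF (N' * ℓ) A) ∧ ¬ ValueAt Q' (tauF (N' * ℓ) A) c₀) ∨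
        (∃ Q' : Place kA (FresBar (N' * ℓ) A), X ∈ disc2 H Q' ∧
          0 ≤ Q'.ord (tauF (N' * ℓ) A) ∧ ¬ ValueAt Q' (tauF (N' * ℓ) A ^ ℓ) c₀)) := by
  classical
  intro X hX
  rw [Finsupp.smul_apply, smul_eq_mul] at hX
  have h1 : 𝔠.D0 X ≠ 0 := fun h0 => by rw [h0, mul_zero] at hX; exact lt_irrefl _ hX
  unfold Chart.D0 at h1
  rw [Finsupp.finsetSum_apply] at h1
  obtain ⟨i, -, hi⟩ := Finset.exists_ne_zero_of_sum_ne_zero h1
  rw [Finsupp.single_apply] at hi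
  have hXi : (𝔠.pt i).P = X := by
    by_contra hne
    exact hi (if_neg hne)
  rw [← hXi]
  refine ⟨fun σ hσ => (hfixC σ hσ i).1, ?_⟩
  have hd := (𝔠.pt i).hP
  have ho := hoff i
  revert hd ho
  generalize (𝔠.pt i).P = Y
  generalize 𝔠.Q i = s
  intro hd ho
  rcases s with q | q
  · rw [nodalData_disc_inl] at hd
    exact Or.inl ⟨q.1, hd, ho.1, ho.2⟩
  · rw [nodalData_disc_inr] at hd
    exact Or.inr ⟨q.1, hd, ho.1, ho.2⟩

include hA in
/-- **helper60's `KrullData` from the chart**: `χ :=` the mod `ℓ` cyclotomic character, `g1` the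
Artin–Schreier function of `ASFormChart.exists_asForm_chart`. -/
theorem krullData_of_chart {ζ : Qb} (hζ : IsPrimitiveRoot ζ ℓ)
    (H : NodalHyp (redCompatFN (N' * ℓ) A h) P Q (CS (N' * ℓ) h) (Dτ (N' * ℓ) A ℓ)
      (Dτ (N' * ℓ) A ℓ) g c n₀)
    {n : ℕ} (𝔠 : Chart (pinData H) n)
    (hfixC : ∀ τ ∈ A.inertiaSubgroupIn ℚ,
      FixesChart (arithmeticGalois (modularFunctionFieldFull (N' * ℓ)) τ) 𝔠)
    {c₀ : kA} (hoff : ∀ i, OffPt h H c₀ (𝔠.Q i))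
    (g1 : FK (N' * ℓ))
    (hfix : ∀ ρ : GQ, IsTameFix A ζ ρ →
      arithmeticRingAut (modularFunctionFieldFull (N' * ℓ)) ρ g1 = g1)
    (hg1 : g1 ∈ (redDataBar (N' * ℓ) A).Rw) (hg2 : g1 ∈ (redData2 (N' * ℓ) A h).Rw)
    (m : ℕ) (hZ : (g1 : FN (N' * ℓ)) ∈ riemannRochSpace ((m : ℤ) • 𝔠.D0)) :
    KrullData A (N' * ℓ) h (hζ.autToPow ℚ) c₀ g1 := by
  have hℓ : ℓ.Prime := Fact.out
  refine KrullData.of_chart hA H (hζ.autToPow ℚ) c₀ g1 (fun σ hσ hχ => ?_) hg1 hg2 _ hZ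
    (hsupp_chart h H 𝔠 hfixC hoff m)
  refine hfix σ ⟨hσ, ?_⟩
  have hs := hζ.autToPow_spec ℚ σ
  rw [hχ] at hs
  have h1 : (((1 : (ZMod ℓ)ˣ) : ZMod ℓ)).val = 1 := by
    rw [Units.val_one]
    have : Fact (1 < ℓ) := ⟨hℓ.one_lt⟩
    exact ZMod.val_one ℓ
  rw [h1, pow_one] at hs
  exact hs.symm

include hA in
/-- the same for every node value of a finite set (ONE chart for all nodes). -/
theorem krullData_of_chart_all {ζ : Qb} (hζ : IsPrimitiveRoot ζ ℓ)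
    (H : NodalHyp (redCompatFN (N' * ℓ) A h) P Q (CS (N' * ℓ) h) (Dτ (N' * ℓ) A ℓ)
      (Dτ (N' * ℓ) A ℓ) g c n₀)
    {n : ℕ} (𝔠 : Chart (pinData H) n)
    (hfixC : ∀ τ ∈ A.inertiaSubgroupIn ℚ,
      FixesChart (arithmeticGalois (modularFunctionFieldFull (N' * ℓ)) τ) 𝔠)
    (cs : Finset kA) (hoff : ∀ i, ∀ c₀ ∈ cs, OffPt h H c₀ (𝔠.Q i))
    (g1 : FK (N' * ℓ))
    (hfix : ∀ ρ : GQ, IsTameFix A ζ ρ →
      arithmeticRingAut (modularFunctionFieldFull (N' * ℓ)) ρ g1 = g1)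
    (hg1 : g1 ∈ (redDataBar (N' * ℓ) A).Rw) (hg2 : g1 ∈ (redData2 (N' * ℓ) A h).Rw)
    (m : ℕ) (hZ : (g1 : FN (N' * ℓ)) ∈ riemannRochSpace ((m : ℤ) • 𝔠.D0)) :
    ∀ c₀ ∈ cs, KrullData A (N' * ℓ) h (hζ.autToPow ℚ) c₀ g1 := fun c₀ hc₀ =>
  krullData_of_chart h hA hζ H 𝔠 hfixC (fun i => hoff i c₀ hc₀) g1 hfix hg1 hg2 m hZ

end Fermat.Agent.GF.KCover.NodeMod.HintKrullSrc

end
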