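/-
GATE-F (S44) / GF-KCOVER-NODEMOD-HHOR (M-f), file 5 (helper57): **`hhor` at helper56's `K0Inst`
instance block** — `R := locSub F₀ 𝔫` (`B := BRingK0 N' p A h`, `𝔫` ANY prime of `B`),
`Algebra R (fixedTame x) := K0Inst.algR T hτ hx`, `Algebra F₀ (fixedTame x) := K0Inst.algF₀ T hτ hx`.
The compatibility `hBK` of `HhorPoint.hhor_at_point` is `rfl` there and `θ₁ ∉ K₀(X₀(N))` comes from
`hrank` (`K0Inst.hrank`), so NOTHING about `R` is left:

* `hBK_locSub` ;
* **`hhor_locSub`** : the binder `hhor` of `NlPointDataK0.nl_point_data_K0` / `NlNodeDataK0` /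
  `NlNodeDataSmoothK0` / `NlNodeSmooth.nl_node_smooth` VERBATIM; inputs = the tame generator
  (`hτ hx hgen`), `hA`, `hrank`.
-/
import Fermat.Agent.GF.KCover.NodeMod.HhorToE
import Fermat.Agent.GF.KCover.NodeMod.K0Inst

set_option autoImplicit false
set_option linter.unusedSectionVars false
set_option linter.unusedVariables false
set_option linter.style.haveILetI false

noncomputable section

namespace Fermat.Agent.GF.KCover.NodeMod.HhorK0Inst

open ModularCurve Polynomial AlgebraicCurve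
open Fermat.Agent.S24
open Fermat.Agent.GL.KrullHeightOne
open Fermat.Agent.GK.SS Fermat.Agent.GK.AL Fermat.Agent.GJ.KumGroup Fermat.Agent.GF.Peu
open Fermat.Agent.GF.F2Asm.Inst Fermat.Agent.GF.KCover Fermat.Agent.GF.F2Asm
open Fermat.Agent.GF.KCover.Field Fermat.Agent.GF.KCover.Field.WDataOf
open Fermat.Agent.GF.KCover.Int Fermat.Agent.GF.KCover.Int.TameLift
open Fermat.Agent.GF.KCover.Int.TameNL Fermat.Agent.GF.KCover.Int.K0Model
open Fermat.Agent.GL.Val.GaussK0 Fermat.Agent.GL.Val.SecondK0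
open Fermat.Agent.GL.BRingK0 Fermat.Agent.GJ.J1 Fermat.Agent.GJ.J1.Val Fermat.Agent.GK.QS
open Fermat.Agent.GF.KCover.Node Fermat.Agent.GF.KCover.NodeMod.HhorMod
open Fermat.Agent.GF.KCover.NodeMod.HhorPoint Fermat.Agent.GF.KCover.NodeMod.HhorToE

local notation "Qb" => AlgebraicClosure ℚ
local notation "GQ" => (AlgebraicClosure ℚ ≃ₐ[ℚ] AlgebraicClosure ℚ)

attribute [local instance] actFK algE' Fermat.Agent.GL.Frame.InstK0.algSubringFullC

variable {A : ValuationSubring Qb} {N' : ℕ} [NeZero N'] {p : ℕ} [hpF : Fact p.Prime] [NeZero p]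
  (h : ExactDvd p (N' * p)) {ζ : Qb}

variable [IsDedekindDomain (CRing N' A)] [IsFractionRing (CRing N' A) (FresBar N' A)]
variable [IsFractionRing (BRingK0 N' p A h) (modularFunctionFieldFullC (K0 A) (N' * p))]

local notation "F0" => modularFunctionFieldFullC (K0 A) (N' * p)

variable (T : TameDatum (N' * p) p A ζ) {x : E' T ≃+* E' T} {τ : GQ}
  (hτ : τ ∈ A.inertiaSubgroupIn ℚ)
  (hx : IsOver (x : E' T →+* E' T)
    ((tauF₁ T hτ : F₁ (N' * p) A ζ ≃+* F₁ (N' * p) A ζ) :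
      F₁ (N' * p) A ζ →+* F₁ (N' * p) A ζ))
  (𝔫 : Ideal (BRingK0 N' p A h)) [𝔫.IsPrime]

/-- the compatibility `hBK` of `HhorPoint.hhor_at_point` at the `K0Inst` block. -/
theorem hBK_locSub (b : BRingK0 N' p A h) :
    letI := K0Inst.algR (R := locSub F0 𝔫) T hτ hx
    algebraMap (locSub F0 𝔫) (fixedTame x) (algebraMap (BRingK0 N' p A h) (locSub F0 𝔫) b) =
      embK0 T hτ (fun a => hx a) (b : F0) := rfl

/-- **the binder `hhor` of the per-point theorems at the `K0Inst` instance block**: no hypothesis on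
`R = B_𝔫` is left. -/
theorem hhor_locSub (hA : A.LiesOverPrime p)
    (hgen : ∀ σ ∈ A.inertiaSubgroupIn ℚ, ∃ m : ℕ, IsTameFix A ζ ((τ ^ m)⁻¹ * σ))
    (hrank : letI := K0Inst.algF₀ T hτ hx
      Module.finrank F0 (fixedTame x) = p)
    (θ₀ : fixedTame x) :
    letI := K0Inst.algR (R := locSub F0 𝔫) T hτ hx
    ∀ (u : UsInst.Us T) (u₀ : fixedTame x),
      toE' T (u : fixedUnits (tameGroup A ζ) T.Fp) = (u₀ : E' T) →
      ∀ V : ValuationSubring (fixedTame x), IsDiscreteValuationRing V →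
      (∀ r : locSub F0 𝔫, algebraMap (locSub F0 𝔫) (fixedTame x) r ∈ V) → θ₀ ∈ V →
      (algebraMap (locSub F0 𝔫) (fixedTame x)
        (algebraMap (BRingK0 N' p A h) (locSub F0 𝔫) (NodeRingK0.ellB h)))⁻¹ ∈ V →
      ∃ z : fixedTame x, z ≠ 0 ∧ u₀ * z ^ p ∈ V ∧ (u₀ * z ^ p)⁻¹ ∈ V := by
  letI := K0Inst.algR (R := locSub F0 𝔫) T hτ hx
  obtain ⟨θ₁, hθ₁⟩ := exists_not_mem_range_embK0 T hτ (fun a => hx a) hrank
  exact hhor_toE_at_point h T hτ (fun a => hx a) hA hgen θ₁ hθ₁ (hBK_locSub h T hτ hx 𝔫) θ₀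

end Fermat.Agent.GF.KCover.NodeMod.HhorK0Inst

end
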