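/-
GATE-F (S44) / GF-KCOVER-INST, node side, stage 2 (helper75): **the binder `hz` of
`K0Inst.hrank` / `K0Inst.finrank_fixed_of_sheet` (and `hzA`, `hzB` of `nl_node_sheets`) from the
Artin–Schreier normal form ALONE**: if `g₀ = 1 + cz ^ p * g₁` with `v g₁ ≤ 1`, `ζ = 1 + cz`,
`H₁.root = 1 + cz * Z'`, then `Z'` is integral over the valuation ring of `v`, hence

  `‖emb H₁ hζ (jc h) hγ k Z'‖ ≤ 1`   for every sheet `k`

(`ResLift.isIntegralElem_of_kummer_as` over `R := v.integer`, then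
`SheetIdxBridge.emb_mem_of_isIntegralElem` into the unit ball `NlNodeSheets.ballC h`).  No local
ring `R = B_𝔫`, no `K₀`-model: this is what lets the per-place proof obtain `hrank` BEFORE the
`R`-block is used.

* `isIntegralElem_Z_of_as` : `Z'` is integral over `v.integer`;
* **`norm_emb_Z_le_one`**.
-/
import Fermat.Agent.GF.KCover.Node.NlNodeSheets
import Fermat.Agent.GF.KCover.Node.ResLift
import Fermat.Agent.GF.KCover.Node.SheetIdxBridge

set_option autoImplicit false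
set_option linter.unusedSectionVars false
set_option linter.unusedVariables false

noncomputable section

open Polynomial

namespace Fermat.Agent.GF.KCover.NodeMod.HzAS

open Fermat.Agent.GF.KCover.Field Fermat.Agent.GF.KCover.Field.Disc
  Fermat.Agent.GF.KCover.Field.Pack
open Fermat.Agent.GF.KCover.Node Fermat.Agent.GF.KCover.Node.NlNodeSheets

variable {E₁ : Type*} [Field E₁] {Γ₀ : Type*} [LinearOrderedCommGroupWithZero Γ₀]
variable {v : Valuation E₁ Γ₀} {ϖ : E₁} (h : IsDisc v ϖ)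
variable {E' : Type*} [Field E'] [Algebra E₁ E'] {p : ℕ} [NeZero p] [Fact p.Prime] {g₀ : E₁}
  (H₁ : IsAdjoinRoot E' (X ^ p - C g₀ : E₁[X])) {ζ : E₁} (hζ : IsPrimitiveRoot ζ p)
  {γ : Lc h} (hγ : γ ^ p = jc h g₀)

include H₁ hζ in
/-- `Z'` is integral over the valuation ring of `v`. -/
theorem isIntegralElem_Z_of_as {cz : E₁} (hζc : ζ = 1 + cz)
    {Z' : E'} (hZ' : H₁.root = 1 + algebraMap E₁ E' cz * Z')
    {g₁ : E₁} (hg₁ : g₀ = 1 + cz ^ p * g₁) (hg₁v : v g₁ ≤ 1) :
    ((algebraMap E₁ E').comp v.integer.subtype).IsIntegralElem Z' := by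
  have hζE : IsPrimitiveRoot (algebraMap E₁ E' ζ) p :=
    hζ.map_of_injective (algebraMap E₁ E').injective
  have hcE : algebraMap E₁ E' cz = algebraMap E₁ E' ζ - 1 := by
    rw [hζc, map_add, map_one, add_sub_cancel_left]
  have hASE : (1 + algebraMap E₁ E' cz * Z') ^ p =
      1 + algebraMap E₁ E' cz ^ p * algebraMap E₁ E' g₁ := by
    rw [← hZ', root_pow H₁, hg₁, map_add, map_one, map_mul, map_pow]
  have hgE : ((algebraMap E₁ E').comp v.integer.subtype).IsIntegralElem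
      (algebraMap E₁ E' g₁) := by
    refine ⟨X - C (⟨g₁, hg₁v⟩ : v.integer), monic_X_sub_C _, ?_⟩
    rw [eval₂_sub, eval₂_X, eval₂_C]
    exact sub_self _
  exact ResLift.isIntegralElem_of_kummer_as _ hζE hcE hASE hgE

/-- **`hz`**: the Artin–Schreier generator is in the unit ball on every sheet. -/
theorem norm_emb_Z_le_one {cz : E₁} (hζc : ζ = 1 + cz)
    {Z' : E'} (hZ' : H₁.root = 1 + algebraMap E₁ E' cz * Z')
    {g₁ : E₁} (hg₁ : g₀ = 1 + cz ^ p * g₁) (hg₁v : v g₁ ≤ 1) (k : ZMod p) :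
    ‖emb H₁ hζ (jc h) hγ k Z'‖ ≤ 1 := by
  rw [← mem_ballC]
  refine SheetIdxBridge.emb_mem_of_isIntegralElem (ballC h)
    ((algebraMap E₁ E').comp v.integer.subtype) (emb H₁ hζ (jc h) hγ k) (fun r => ?_)
    (isIntegralElem_Z_of_as H₁ hζ hζc hZ' hg₁ hg₁v)
  rw [RingHom.comp_apply, emb_algebraMap, mem_ballC, norm_jc_le_one_iff]
  exact r.2

end Fermat.Agent.GF.KCover.NodeMod.HzAS
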