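/-
GATE-F (S44) / GF-KCOVER-INST, node side, stage 2, leaf (S2-SD) (helper45; re-scoped after helper84's
`NlNodeData.nl_node_data` absorbed the abstract sheet block and helper40's `HintF1` the binder
`hintg`): **the binders `hρB₁`, `hρB₂` of `NlNodeDataK0.nl_node_data_K0` /
`NlPointDataK0.nl_point_data_K0` / `nl_node_data_typeI_K0` VERBATIM**, for ALL sheets
`Bridge.sheetK … i` over `redDataBar (N' ℓ) A`, `redData2 (N' ℓ) A h`, in the `fresInclInv` spelling,
for ANY Kummer frame over `FK (N' ℓ)` (`frameASb`, `frameRawb`, …) and ANY `K₀`-model `[Algebra R E]`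
of the fixed field `E : Subfield E'` with
`hι' : iotaE incl' E (algebraMap R E (algebraMap B R b)) = algebraMap _ F' (mapK0Bar b)`
(= `RhoBK0.hρB_of_redExt` ∘ `Bridge.redExt_sheetK` ∘ helper75 `red_i_mapK0Bar`):

* **`hρB₁_sheetK`**, **`hρB₂_sheetK`**.
-/
import Fermat.Agent.GF.KCover.Node.NlNode
import Fermat.Agent.GF.KCover.Node.NodeRingK0Level
import Fermat.Agent.GF.KCover.Node.RhoBK0

set_option autoImplicit false
set_option linter.unusedSectionVars false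
set_option linter.unusedVariables false
set_option linter.style.haveILetI false

noncomputable section

namespace Fermat.Agent.GF.KCover.NodeMod.SheetDataMod

open Polynomial
open ModularCurve AlgebraicCurve IsLocalRing IsDedekindDomain
open Fermat.Agent.S24 Fermat.Agent.S24_helper62 Fermat.Agent.S24_helper6
open Fermat.Agent.GJ.J1 Fermat.Agent.GJ.J1.Val Fermat.Agent.GJ.KumGroup
open Fermat.Agent.GK.SS Fermat.Agent.GK.AL Fermat.Agent.GL.AL Fermat.Agent.GK.QS
open Fermat.Agent.GL.Val.GaussK0 Fermat.Agent.GL.Val.SecondK0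
open Fermat.Agent.GL.BRingK0 Fermat.Agent.GL.BRingChart Fermat.Agent.GL.Thick
open Fermat.Agent.Common_helper32
open Fermat.Agent.GF.Trop
open Fermat.Agent.GF.KCover.Field Fermat.Agent.GF.KCover.Field.Disc
  Fermat.Agent.GF.KCover.Field.Pack
open Fermat.Agent.GF.KCover.Compl Fermat.Agent.GF.KCover.Compl.Bridge
  Fermat.Agent.GF.KCover.Compl.RedCompl
open Fermat.Agent.GF.KCover.Node Fermat.Agent.GF.KCover.Node.NodeRingK0Pkg
open Fermat.Agent.GF.KCover.Node.NodeRingK0Level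
open Fermat.Agent.GF.KCover.Node.OrdRedExt Fermat.Agent.GF.KCover.Node.NlNode

attribute [local instance] Fermat.Agent.GL.Frame.InstK0.algSubringFullC

local notation "Qb" => AlgebraicClosure ℚ
local notation "GQ" => (AlgebraicClosure ℚ ≃ₐ[ℚ] AlgebraicClosure ℚ)

/-! ### (b) the binders `hρB_i` on all sheets -/

section Rho

variable {A : ValuationSubring Qb} {N' : ℕ} [NeZero N'] {ℓ : ℕ} [Fact ℓ.Prime] [NeZero ℓ]
  (h : ExactDvd ℓ (N' * ℓ)) (hℓN : ¬ ℓ ∣ N') (hA : A.LiesOverPrime ℓ)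

local notation "F0" => modularFunctionFieldFullC (K0 A) (N' * ℓ)

variable {F' : Type*} [Field F'] [Algebra Kb F'] [Algebra (FK (N' * ℓ)) F']
  [IsScalarTower Kb (FK (N' * ℓ)) F']
variable {E₁ : Type*} [Field E₁] {ϖ : E₁}
  {va : Valuation E₁ (ValuationSubring.ValueGroup (redDataBar (N' * ℓ) A).Rw)}
  {vb : Valuation E₁ (ValuationSubring.ValueGroup (redData2 (N' * ℓ) A h).Rw)}
variable (incl : E₁ →+* FK (N' * ℓ))
  (hincA : ∀ a : E₁, (redDataBar (N' * ℓ) A).Rw.valuation (incl a) = va a)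
  (hincB : ∀ a : E₁, (redData2 (N' * ℓ) A h).Rw.valuation (incl a) = vb a)
variable (hDA : IsDisc va ϖ) (hDB : IsDisc vb ϖ)
variable
  (harchA : ∀ γ : ValuationSubring.ValueGroup (redDataBar (N' * ℓ) A).Rw, γ ≠ 0 →
    ∃ n : ℕ, va ϖ ^ n < γ)
  (harchB : ∀ γ : ValuationSubring.ValueGroup (redData2 (N' * ℓ) A h).Rw, γ ≠ 0 →
    ∃ n : ℕ, vb ϖ ^ n < γ)
variable {E' : Type*} [Field E'] [Algebra E₁ E'] {p : ℕ} [NeZero p] {g₀ : E₁}
  {ζ : E₁} (hζ : IsPrimitiveRoot ζ p)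
  {γa : Lc hDA} (hγa : γa ^ p = jc hDA g₀) {γb : Lc hDB} (hγb : γb ^ p = jc hDB g₀)
  (H : IsAdjoinRoot F' (X ^ p - C (incl g₀) : (FK (N' * ℓ))[X]))
  (incl' : E' →+* F')

/-- **`hρB₁` of `nl_node_data_K0` VERBATIM** (every sheet over the first Gauss valuation). -/
theorem hρB₁_sheetK (E : Subfield E') {R : Type*} [CommRing R] [Algebra (BRingK0 N' ℓ A h) R]
    [Algebra R E]
    (hι' : ∀ b : BRingK0 N' ℓ A h,
      iotaE incl' E (algebraMap R E (algebraMap (BRingK0 N' ℓ A h) R b)) =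
        algebraMap (FK (N' * ℓ)) F' (mapK0Bar A (N' * ℓ) (b : F0)))
    (i : ZMod p) (b : BRingK0 N' ℓ A h)
    (hb : iotaE incl' E (algebraMap R E (algebraMap (BRingK0 N' ℓ A h) R b)) ∈
      (sheetK (redDataBar (N' * ℓ) A) incl hincA hDA harchA hζ hγa H i).Rw) :
    (sheetK (redDataBar (N' * ℓ) A) incl hincA hDA harchA hζ hγa H i).red ⟨_, hb⟩ =
      fresInclInv hℓN hA (algebraMap (CRing N' A) (FresBar N' A) (redC1K0 h hℓN hA b)) := by
  letI := algCFres (ℓ := ℓ) hℓN hA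
  exact RhoBK0.hρB_of_redExt (B := ↥(BRingK0 N' ℓ A h)) (R := R) (K0 := ↥E)
    (E := ↥(CRing N' A)) (redDataBar (N' * ℓ) A)
    (sheetK (redDataBar (N' * ℓ) A) incl hincA hDA harchA hζ hγa H i)
    (redExt_sheetK (redDataBar (N' * ℓ) A) incl hincA hDA harchA hζ hγa H i)
    (iotaE incl' E) (fun b : ↥(BRingK0 N' ℓ A h) => mapK0Bar A (N' * ℓ) (b : F0)) hι'
    (fun b => (mapK0Bar_mem_Rw h b).1)
    (redC1K0 h hℓN hA) (fun b => red1_mapK0Bar h hℓN hA b _) b hb

/-- **`hρB₂` of `nl_node_data_K0` VERBATIM** (every sheet over the second Gauss valuation). -/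
theorem hρB₂_sheetK (E : Subfield E') {R : Type*} [CommRing R] [Algebra (BRingK0 N' ℓ A h) R]
    [Algebra R E]
    (hι' : ∀ b : BRingK0 N' ℓ A h,
      iotaE incl' E (algebraMap R E (algebraMap (BRingK0 N' ℓ A h) R b)) =
        algebraMap (FK (N' * ℓ)) F' (mapK0Bar A (N' * ℓ) (b : F0)))
    (i : ZMod p) (b : BRingK0 N' ℓ A h)
    (hb : iotaE incl' E (algebraMap R E (algebraMap (BRingK0 N' ℓ A h) R b)) ∈
      (sheetK (redData2 (N' * ℓ) A h) incl hincB hDB harchB hζ hγb H i).Rw) :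
    (sheetK (redData2 (N' * ℓ) A h) incl hincB hDB harchB hζ hγb H i).red ⟨_, hb⟩ =
      fresInclInv hℓN hA (algebraMap (CRing N' A) (FresBar N' A) (redC2K0 h hℓN hA b)) := by
  letI := algCFres (ℓ := ℓ) hℓN hA
  exact RhoBK0.hρB_of_redExt (B := ↥(BRingK0 N' ℓ A h)) (R := R) (K0 := ↥E)
    (E := ↥(CRing N' A)) (redData2 (N' * ℓ) A h)
    (sheetK (redData2 (N' * ℓ) A h) incl hincB hDB harchB hζ hγb H i)
    (redExt_sheetK (redData2 (N' * ℓ) A h) incl hincB hDB harchB hζ hγb H i)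
    (iotaE incl' E) (fun b : ↥(BRingK0 N' ℓ A h) => mapK0Bar A (N' * ℓ) (b : F0)) hι'
    (fun b => (mapK0Bar_mem_Rw h b).2)
    (redC2K0 h hℓN hA) (fun b => red2_mapK0Bar h hℓN hA b _) b hb

end Rho

end Fermat.Agent.GF.KCover.NodeMod.SheetDataMod

end
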