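/-
GATE-F (S44) / GF-KCOVER-INST, node side, stage 2 (helper75): **the local ring of the finite chart
at a point lies in the Gauss valuation rings** = item (V) of helper56's `K0Inst` list, the binders
`hRA` / `hRB` of `NlNodeSheets.nl_node_sheets`, `NlNodeData.nl_node_data`,
`NlPointDataK0.nl_point_data_K0` for `R := KrullHeightOne.locSub F₀ 𝔫`,
`𝔫 := centreP h hℓN hA P`, `ι₀ := K0Model.embF₁`:

* `mapK0Bar_mem_Rw1_of_mem_locSub` : `r ∈ B_𝔫 ⟹ mapK0Bar r ∈ (redDataBar (N' ℓ) A).Rw`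
  (always: `𝔫 ⊇ ker redC1K0`);
* `mapK0Bar_mem_Rw2_of_mem_locSub` : the same for `(redData2 (N' ℓ) A h).Rw` AT A NODE
  (`IsNodeP`: `𝔫 ⊇ ker redC2K0`) — at a smooth point it is false (helper42, board 6925);
* `red1_mapK0Bar_ne_zero`, `red2_mapK0Bar_ne_zero` : elements of the chart outside `𝔫` have nonzero
  reduction;
* `hRA_locSub`, `hRB_locSub` : the `valF₁ T V (embF₁ … r) ≤ 1` spelling, for any `V : GalVal` with
  `V.W` the first / second Gauss ring (`galVal1`, `galVal2` by `rfl`).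

The statements about `locSub` carry the instance binder `[IsFractionRing (BRingK0 N' ℓ A h) F₀]`
(consumer: `haveI := Fermat.Agent.GL.BRingChart.isFractionRing_BRingK0 h hA`).
-/
import Fermat.Agent.GF.KCover.Node.NodeRingK0Level
import Fermat.Agent.GF.KCover.Int.K0Model

set_option autoImplicit false
set_option linter.unusedSectionVars false
set_option linter.unusedVariables false
set_option linter.style.haveILetI false

noncomputable section

namespace Fermat.Agent.GF.KCover.NodeMod.K0LocMem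

open ModularCurve IsLocalRing AlgebraicCurve IsDedekindDomain
open Fermat.Agent.GL.Val.GaussK0 Fermat.Agent.GL.Val.SecondK0
open Fermat.Agent.GJ.KumGroup Fermat.Agent.GJ.J1 Fermat.Agent.GJ.J1.Val
open Fermat.Agent.GK.AL Fermat.Agent.GL.AL Fermat.Agent.GK.QS
open Fermat.Agent.Common_helper32
open Fermat.Agent.S24_helper6
open Fermat.Agent.GL.BRingK0 Fermat.Agent.GL.BRingChart Fermat.Agent.GL.Thick
open Fermat.Agent.GL.KrullHeightOne
open Fermat.Agent.GF.KCover.Node Fermat.Agent.GF.KCover.Node.NodeRingK0Pkg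
open Fermat.Agent.GF.KCover.Node.NodeRingK0Level

attribute [local instance] Fermat.Agent.GL.Frame.InstK0.algSubringFullC

variable {A : ValuationSubring Qb} {N' : ℕ} [NeZero N'] {ℓ : ℕ} [Fact ℓ.Prime] [NeZero ℓ]
  (h : ExactDvd ℓ (N' * ℓ)) (hℓN : ¬ ℓ ∣ N') (hA : A.LiesOverPrime ℓ)

local notation "F0" => modularFunctionFieldFullC (K0 A) (N' * ℓ)

variable [IsDedekindDomain (CRing N' A)] [IsFractionRing (CRing N' A) (FresBar N' A)]

/-- an element of the chart outside the centre has nonzero first reduction. -/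
theorem red1_mapK0Bar_ne_zero (P : HeightOneSpectrum (CRing N' A)) {s : BRingK0 N' ℓ A h}
    (hs : s ∉ centreP h hℓN hA P)
    (hsR : mapK0Bar A (N' * ℓ) (s : F0) ∈ (redDataBar (N' * ℓ) A).Rw) :
    (redDataBar (N' * ℓ) A).red ⟨mapK0Bar A (N' * ℓ) (s : F0), hsR⟩ ≠ 0 := by
  letI := algCFres (ℓ := ℓ) hℓN hA
  haveI := algCFres_frac (ℓ := ℓ) hℓN hA
  rw [red1_mapK0Bar h hℓN hA s hsR]
  intro h0
  have h1 : redC1K0 h hℓN hA s = 0 :=
    (map_eq_zero_iff _ (IsFractionRing.injective (CRing N' A) (FresBar (N' * ℓ) A))).1 h0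
  exact hs (ker_redC1K0_le_centreP h hℓN hA P ((RingHom.mem_ker).2 h1))

/-- at a node, an element of the chart outside the centre has nonzero second reduction. -/
theorem red2_mapK0Bar_ne_zero (P : HeightOneSpectrum (CRing N' A)) (hnode : IsNodeP h hℓN hA P)
    {s : BRingK0 N' ℓ A h} (hs : s ∉ centreP h hℓN hA P)
    (hsR : mapK0Bar A (N' * ℓ) (s : F0) ∈ (redData2 (N' * ℓ) A h).Rw) :
    (redData2 (N' * ℓ) A h).red ⟨mapK0Bar A (N' * ℓ) (s : F0), hsR⟩ ≠ 0 := by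
  letI := algCFres (ℓ := ℓ) hℓN hA
  haveI := algCFres_frac (ℓ := ℓ) hℓN hA
  rw [red2_mapK0Bar h hℓN hA s hsR]
  intro h0
  have h1 : redC2K0 h hℓN hA s = 0 :=
    (map_eq_zero_iff _ (IsFractionRing.injective (CRing N' A) (FresBar (N' * ℓ) A))).1 h0
  exact hs (ker_redC2K0_le_centreP h hℓN hA P hnode ((RingHom.mem_ker).2 h1))

variable [IsFractionRing (BRingK0 N' ℓ A h) (modularFunctionFieldFullC (K0 A) (N' * ℓ))]

/-- fraction form of the membership in the local ring of the chart. -/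
theorem exists_mul_eq_of_mem_locSub (𝔫 : Ideal (BRingK0 N' ℓ A h)) [𝔫.IsPrime] {r : F0}
    (hr : r ∈ locSub F0 𝔫) :
    ∃ s b : BRingK0 N' ℓ A h, s ∉ 𝔫 ∧ (s : F0) * r = (b : F0) := by
  obtain ⟨s, hs, b, hb⟩ := (mem_locSub_iff 𝔫).1 hr
  refine ⟨s, b, hs, ?_⟩
  rw [Algebra.smul_def] at hb
  exact hb.symm

/-- **the local ring of the chart at a point lies in the first Gauss valuation ring.** -/
theorem mapK0Bar_mem_Rw1_of_mem_locSub (P : HeightOneSpectrum (CRing N' A)) {r : F0}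
    (hr : r ∈ locSub F0 (centreP h hℓN hA P)) :
    mapK0Bar A (N' * ℓ) r ∈ (redDataBar (N' * ℓ) A).Rw := by
  obtain ⟨s, b, hs, hsb⟩ := exists_mul_eq_of_mem_locSub h (centreP h hℓN hA P) hr
  have hsR := (mapK0Bar_mem_Rw h s).1
  have hbR := (mapK0Bar_mem_Rw h b).1
  have hinv := Fermat.Agent.GJ.J1.InstRed.inv_mem_Rw (redDataBar (N' * ℓ) A) hsR
    (red1_mapK0Bar_ne_zero h hℓN hA P hs hsR)
  have hs0 : mapK0Bar A (N' * ℓ) (s : F0) ≠ 0 := fun h0 => by
    rw [h0, inv_zero] at hinv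
    exact red1_mapK0Bar_ne_zero h hℓN hA P hs hsR (by
      have e : (⟨mapK0Bar A (N' * ℓ) (s : F0), hsR⟩ : (redDataBar (N' * ℓ) A).Rw) = 0 :=
        Subtype.ext h0
      rw [e, map_zero])
  have e : mapK0Bar A (N' * ℓ) r =
      mapK0Bar A (N' * ℓ) (b : F0) * (mapK0Bar A (N' * ℓ) (s : F0))⁻¹ := by
    rw [← hsb, map_mul, mul_comm (mapK0Bar A (N' * ℓ) (s : F0)), mul_assoc,
      mul_inv_cancel₀ hs0, mul_one]
  rw [e]
  exact (redDataBar (N' * ℓ) A).Rw.mul_mem _ _ hbR hinv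

/-- **at a NODE, the local ring of the chart lies in the second Gauss valuation ring.** -/
theorem mapK0Bar_mem_Rw2_of_mem_locSub (P : HeightOneSpectrum (CRing N' A))
    (hnode : IsNodeP h hℓN hA P) {r : F0}
    (hr : r ∈ locSub F0 (centreP h hℓN hA P)) :
    mapK0Bar A (N' * ℓ) r ∈ (redData2 (N' * ℓ) A h).Rw := by
  obtain ⟨s, b, hs, hsb⟩ := exists_mul_eq_of_mem_locSub h (centreP h hℓN hA P) hr
  have hsR := (mapK0Bar_mem_Rw h s).2
  have hbR := (mapK0Bar_mem_Rw h b).2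
  have hinv := Fermat.Agent.GJ.J1.InstRed.inv_mem_Rw (redData2 (N' * ℓ) A h) hsR
    (red2_mapK0Bar_ne_zero h hℓN hA P hnode hs hsR)
  have hs0 : mapK0Bar A (N' * ℓ) (s : F0) ≠ 0 := fun h0 => by
    exact red2_mapK0Bar_ne_zero h hℓN hA P hnode hs hsR (by
      have e : (⟨mapK0Bar A (N' * ℓ) (s : F0), hsR⟩ : (redData2 (N' * ℓ) A h).Rw) = 0 :=
        Subtype.ext h0
      rw [e, map_zero])
  have e : mapK0Bar A (N' * ℓ) r =
      mapK0Bar A (N' * ℓ) (b : F0) * (mapK0Bar A (N' * ℓ) (s : F0))⁻¹ := by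
    rw [← hsb, map_mul, mul_comm (mapK0Bar A (N' * ℓ) (s : F0)), mul_assoc,
      mul_inv_cancel₀ hs0, mul_one]
  rw [e]
  exact (redData2 (N' * ℓ) A h).Rw.mul_mem _ _ hbR hinv

/-! ### the `valF₁` spelling (`hRA`, `hRB`) -/

section Val

open Fermat.Agent.GK.SS Fermat.Agent.GF.KCover Fermat.Agent.GF.KCover.Field.WDataOf
  Fermat.Agent.GF.KCover.Int.K0Model Fermat.Agent.GF.F2Asm.Inst

variable {p : ℕ} [Fact p.Prime] {ζ : Qb} (T : TameDatum (N' * ℓ) p A ζ)

/-- **`hRA`** for `R := locSub F₀ (centreP …)`, `ι₀ := embF₁`. -/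
theorem hRA_locSub (V : GalVal (N' * ℓ) A) (hV : V.W = (redDataBar (N' * ℓ) A).Rw)
    (P : HeightOneSpectrum (CRing N' A)) (r : locSub F0 (centreP h hℓN hA P)) :
    valF₁ T V (embF₁ (N' * ℓ) A ζ (r : F0)) ≤ 1 := by
  rw [valF₁_apply, V.W.valuation_le_one_iff, coe_embF₁, hV]
  exact mapK0Bar_mem_Rw1_of_mem_locSub h hℓN hA P r.2

/-- **`hRB`** (at a node) for `R := locSub F₀ (centreP …)`, `ι₀ := embF₁`. -/
theorem hRB_locSub (V : GalVal (N' * ℓ) A) (hV : V.W = (redData2 (N' * ℓ) A h).Rw)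
    (P : HeightOneSpectrum (CRing N' A)) (hnode : IsNodeP h hℓN hA P)
    (r : locSub F0 (centreP h hℓN hA P)) :
    valF₁ T V (embF₁ (N' * ℓ) A ζ (r : F0)) ≤ 1 := by
  rw [valF₁_apply, V.W.valuation_le_one_iff, coe_embF₁, hV]
  exact mapK0Bar_mem_Rw2_of_mem_locSub h hℓN hA P hnode r.2

end Val

end Fermat.Agent.GF.KCover.NodeMod.K0LocMem
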