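/-
GATE-F (S44) / GF-KCOVER-NODEMOD, RULING-9 (1) (helper40): **`exists_valueAt_jt`** — every place
`Pl` of `F̃_{N'ℓ}` at which `j~` is regular (`ContainsC hℓN hA Pl`) has a `j~`-value `c₀ : k_A`
(`k_A` algebraically closed, so every place has degree one).  This is the `c₀` of
`KrullUp.KrullData` / `HintKrull.hint_of_krullData` / `HintF1.hintg_of_krullData`, chosen AFTER
`intro Pl` in the per-place theorem.
-/
import Fermat.Agent.GF.KCover.Node.NodeRingK0Level
import Fermat.Agent.GS.Loc2.PthRoot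
import Fermat.Agent.GS.Nodal.Inst.Frame

set_option autoImplicit false
set_option linter.unusedSectionVars false
set_option linter.unusedVariables false
set_option linter.style.haveILetI false

noncomputable section

namespace Fermat.Agent.GF.KCover.NodeMod.ValueJt

open AlgebraicCurve IsLocalRing ModularCurve
open Fermat.Agent.S24 Fermat.Agent.GK.NodalGraded Fermat.Agent.GK.QS Fermat.Agent.GK.AL
open Fermat.Agent.GK.CuspSep Fermat.Agent.GK.SymChart Fermat.Agent.GK.SymDegree
open Fermat.Agent.GL.Thick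
open Fermat.Agent.RRh45 Fermat.Agent.GJ.KumGroup Fermat.Agent.GJ.J1 Fermat.Agent.GJ.J1.Val
open Fermat.Agent.Common_helper32
open Fermat.Agent.GS.Nodal.Inst
open Fermat.Agent.GF.KCover.Node.NodeRingK0Level

attribute [local instance] isAlgClosed_res

variable {A : ValuationSubring Qb} {N' : ℕ} [NeZero N'] {ℓ : ℕ} [Fact ℓ.Prime] [NeZero ℓ]
  (hℓN : ¬ ℓ ∣ N') (hA : A.LiesOverPrime ℓ)

local notation "kA" => IsLocalRing.ResidueField A

/-- a function regular at a place of the residue function field has a value there. -/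
theorem exists_valueAt_of_mem (N : ℕ) [NeZero N] (Pl : Place kA (FresBar N A)) {z : FresBar N A}
    (hz : z ∈ Pl.toValuationSubring) : ∃ c₀ : kA, ValueAt Pl z c₀ := by
  haveI := isGen_tauF N A
  have hdeg : Pl.deg = 1 := PlaceB.deg_eq_one Pl (tauF N A)
  refine Fermat.Agent.GS.Loc2.PthRoot.exists_valueAt_of_mem_ordGE_zero hdeg ?_
  rw [mem_ordGE]
  by_cases hz0 : z = 0
  · exact Or.inl hz0
  · exact Or.inr ((PlaceB.ord_nonneg_iff Pl hz0).2 hz)

/-- **the `j~`-value of a place of `F̃_{N'ℓ}` at which `j~` is regular.** -/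
theorem exists_valueAt_jt (Pl : Place kA (FresBar (N' * ℓ) A)) (hPl : ContainsC hℓN hA Pl) :
    ∃ c₀ : kA, ValueAt Pl (fresInclInv hℓN hA (Fermat.Agent.GK.QS.jt N' A)) c₀ :=
  exists_valueAt_of_mem (N' * ℓ) Pl (hPl (jtC N' A))

variable [IsDedekindDomain (CRing N' A)] [IsFractionRing (CRing N' A) (FresBar N' A)]

/-- the same from `j~ ∈ O_{Pl}`, together with `ContainsC`. -/
theorem exists_valueAt_jt_of_mem (Pl : Place kA (FresBar (N' * ℓ) A))
    (hj : fresInclInv hℓN hA (Fermat.Agent.GK.QS.jt N' A) ∈ Pl.toValuationSubring) :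
    ContainsC hℓN hA Pl ∧ ∃ c₀ : kA, ValueAt Pl (fresInclInv hℓN hA (Fermat.Agent.GK.QS.jt N' A)) c₀ :=
  ⟨containsC_of_jt_mem hℓN hA Pl hj, exists_valueAt_of_mem (N' * ℓ) Pl hj⟩

end Fermat.Agent.GF.KCover.NodeMod.ValueJt

end
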