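/-
GATE-F (S44) / GF-KCOVER-INST, node side (L-c), stage 2, SMOOTH variant, MODULAR INSTANCE
(helper62, second seat of helper42; helper13 6997, helper42 7071):
**the per-node theorem `NL on Us T` at a SMOOTH point `Pl` of the finite chart `BRingK0 N' p A h` of
the concrete cover `T.Fp / F_{N' p}`** — helper84's `NlNodeDataSmooth.nl_node_data_typeI`
instantiated at the modular Artin–Schreier frame of helper3's `Field/RescaleMod`.

* `nl_node_typeI_K0` : `nl_node_data_typeI` with the downstairs block and `hvE` discharged at a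
  smooth point of the finite chart (twin of helper75's `NlNodeDataK0.nl_node_data_K0`).
* `ringEquiv_coe_pow`, `nodeOrd_congr` : two transport lemmas.
* **`nl_node_smooth_mod`** : level `N' * p` literal, `T : TameDatum (N' * p) p A ζ`,
  frame `H₁ := frameAS T hv hrel`, `H := frameASb T hv hrel`, tame generator `(τ, x, a)` as
  parameters (= the output of `TameUs.exists_tame_action`), `E := fixedTame x`,
  `F₀ := K₀(X₀(N' p))`, `ι₀ := K0Model.embF₁`; conclusion in the spelling of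
  `FourDown.NLAt` / `NodeSupplyAsmS.NLNodeS`:
  `∀ y ∈ Us T, wOf T hD₁ hγ₁ i y = 0 → wOf T hD₂ hγ₂ k₂ y = 0 →
     p ∣ nodeOrd (sheet₁ T hA hD₁ hγ₁ i) (unram_sheet₁ T hA hD₁ hγ₁ i) Pl (fixedUnits I′ T.Fp) y`.
-/
import Fermat.Agent.GF.KCover.Node.NlNodeDataSmooth
import Fermat.Agent.GF.KCover.Node.NodeRingK0Level
import Fermat.Agent.GF.KCover.Field.RescaleMod
import Fermat.Agent.GF.KCover.Compl.SheetsMod
import Fermat.Agent.GF.KCover.Compl.InertialMod
import Fermat.Agent.GF.KCover.Int.K0Model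

set_option autoImplicit false
set_option linter.unusedSectionVars false
set_option linter.unusedVariables false
set_option linter.style.haveILetI false

noncomputable section

open Polynomial AlgebraicCurve

namespace Fermat.Agent.GF.KCover.NodeMod.NlNodeSmoothMod

open ModularCurve IsLocalRing IsDedekindDomain
open Fermat.Agent.GL.Val.GaussK0 Fermat.Agent.GL.Val.SecondK0
open Fermat.Agent.GJ.KumGroup Fermat.Agent.GJ.J1 Fermat.Agent.GJ.J1.Val
open Fermat.Agent.GK.AL Fermat.Agent.GL.AL Fermat.Agent.GK.QS Fermat.Agent.GK.SS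
open Fermat.Agent.Common_helper32
open Fermat.Agent.S24 Fermat.Agent.S24_helper6
open Fermat.Agent.GF.Trop
open Fermat.Agent.GL.BRingK0 Fermat.Agent.GL.BRingChart Fermat.Agent.GL.Thick
open Fermat.Agent.GF.KCover.Node Fermat.Agent.GF.KCover.Node.NodeRingK0Pkg
open Fermat.Agent.GF.KCover.Node.NodeRingK0Level
open Fermat.Agent.GF.KCover.Field Fermat.Agent.GF.KCover.Field.Disc
  Fermat.Agent.GF.KCover.Field.Pack
open Fermat.Agent.GF.KCover.Compl Fermat.Agent.GF.KCover.Compl.Bridge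
  Fermat.Agent.GF.KCover.Compl.RedCompl Fermat.Agent.GF.KCover.Compl.RedAut
  Fermat.Agent.GF.KCover.Compl.BridgeTau
open Fermat.Agent.GF.KCover.Node.OrdRedExt
  Fermat.Agent.GF.KCover.Node.NlNode Fermat.Agent.GF.KCover.Node.NlNodeSheets

attribute [local instance] Fermat.Agent.GL.Frame.InstK0.algSubringFullC

local notation "Qb" => AlgebraicClosure ℚ
local notation "GQ" => (AlgebraicClosure ℚ ≃ₐ[ℚ] AlgebraicClosure ℚ)

/-! ### (0) two transport lemmas -/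

/-- powers of a ring automorphism, as ring homomorphisms. -/
theorem ringEquiv_coe_pow {S : Type*} [Semiring S] (x : S ≃+* S) (n : ℕ) :
    ((x : S ≃+* S) : S →+* S) ^ n = ((x ^ n : S ≃+* S) : S →+* S) := by
  induction n with
  | zero => rfl
  | succ n ih =>
    rw [pow_succ, pow_succ, ih]
    rfl

/-- `nodeOrd` only depends on the reduction datum. -/
theorem nodeOrd_congr {K F' k Ft : Type*} [Field K] [Field F'] [Algebra K F'] [Field k] [Field Ft]
    [Algebra k Ft] {S S' : RedData K F' k Ft} (e : S' = S) (hun : Unram S) (hun' : Unram S')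
    (Pl : Place k Ft) (G : Subgroup F'ˣ) (y : G) :
    nodeOrd S' hun' Pl G y = nodeOrd S hun Pl G y := by
  subst e
  rfl

/-- the reduction map only depends on the reduction datum. -/
theorem red_congr' {K F' k Ft : Type*} [Field K] [Field F'] [Algebra K F'] [Field k] [Field Ft]
    [Algebra k Ft] {S S' : RedData K F' k Ft} (e : S' = S) {z : F'} (hz : z ∈ S'.Rw)
    (hz' : z ∈ S.Rw) : S'.red ⟨z, hz⟩ = S.red ⟨z, hz'⟩ := by
  subst e
  rfl

/-! ### (1) `nl_node_data_typeI` at a smooth point of the finite chart `BRingK0` -/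

section K0

variable {A : ValuationSubring Qb} {N' : ℕ} [NeZero N'] {ℓ : ℕ} [Fact ℓ.Prime] [NeZero ℓ]
  (h : ExactDvd ℓ (N' * ℓ)) (hℓN : ¬ ℓ ∣ N') (hA : A.LiesOverPrime ℓ)

variable [IsDedekindDomain (CRing N' A)] [IsFractionRing (CRing N' A) (FresBar N' A)]

variable {K F Ft₂ : Type*} [Field K] [Field F] [Algebra K F] [Field Ft₂]
  [Algebra (IsLocalRing.ResidueField A) Ft₂]
variable (Ra : RedData K F (IsLocalRing.ResidueField A) (FresBar (N' * ℓ) A))
  (Rb : RedData K F (IsLocalRing.ResidueField A) Ft₂)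
variable {F' : Type*} [Field F'] [Algebra K F'] [Algebra F F'] [IsScalarTower K F F']
variable {E₁ : Type*} [Field E₁] {ϖ : E₁}
  {va : Valuation E₁ (ValuationSubring.ValueGroup Ra.Rw)}
  {vb : Valuation E₁ (ValuationSubring.ValueGroup Rb.Rw)}
variable (incl : E₁ →+* F) (hincA : ∀ a : E₁, Ra.Rw.valuation (incl a) = va a)
  (hincB : ∀ a : E₁, Rb.Rw.valuation (incl a) = vb a)
variable (hDA : IsDisc va ϖ) (hDB : IsDisc vb ϖ)
variable (harchA : ∀ γ : ValuationSubring.ValueGroup Ra.Rw, γ ≠ 0 → ∃ n : ℕ, va ϖ ^ n < γ)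
  (harchB : ∀ γ : ValuationSubring.ValueGroup Rb.Rw, γ ≠ 0 → ∃ n : ℕ, vb ϖ ^ n < γ)
variable {E' : Type*} [Field E'] [Algebra E₁ E'] {p : ℕ} [NeZero p] [Fact p.Prime] {g₀ : E₁}
  (H₁ : IsAdjoinRoot E' (X ^ p - C g₀ : E₁[X])) {ζ : E₁} (hζ : IsPrimitiveRoot ζ p)
  {γa : Lc hDA} (hγa : γa ^ p = jc hDA g₀) {γb : Lc hDB} (hγb : γb ^ p = jc hDB g₀)
  (H : IsAdjoinRoot F' (X ^ p - C (incl g₀) : F[X]))
  (incl' : E' →+* F')
  (hincl' : ∀ a : E₁, incl' (algebraMap E₁ E' a) = algebraMap F F' (incl a))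
  (hroot : incl' H₁.root = H.root)

variable {R F₀ : Type*} [CommRing R] [IsDomain R] [IsIntegrallyClosed R] [IsNoetherianRing R]
  [Field F₀] [Algebra R F₀] [IsFractionRing R F₀]

include hincl' hroot hincB harchB in
set_option maxHeartbeats 4000000 in
/-- **The per-node theorem at a SMOOTH point of the finite chart `BRingK0`**: helper84's
`nl_node_data_typeI` with the downstairs block and `hvE` discharged. -/
theorem nl_node_typeI_K0 (h2 : ℓ = 2 → 3 ∣ N') (h3 : ℓ = 3 → 2 ∣ N')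
    (hν2 : nuTwo N' = 0) (hν3 : nuThree N' = 0)
    (Pl : Place (IsLocalRing.ResidueField A) (FresBar (N' * ℓ) A))
    (hPl : ContainsC hℓN hA Pl)
    (hnode : ¬ IsNodeP h hℓN hA (primeL hℓN hA Pl hPl))
    [Algebra (BRingK0 N' ℓ A h) R]
    [IsLocalization.AtPrime R (centreP (A := A) h hℓN hA (primeL hℓN hA Pl hPl))]
    (hunA : Unram Ra)
    -- the tame generator
    (τ : E₁ ≃+* E₁) (hτA : ∀ a, va (τ a) = va a) (hτB : ∀ a, vb (τ a) = vb a)
    (σ : F ≃+* F) (hσA : ∀ y : F, Ra.Rw.valuation (σ y) = Ra.Rw.valuation y)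
    (hσK : ∀ c : K, ∃ c' : K, σ (algebraMap K F c) = algebraMap K F c')
    (hresA : ∀ (a : F) (ha : a ∈ Ra.Rw), Ra.red ⟨σ a, map_mem_Rw Ra σ hσA ha⟩ = Ra.red ⟨a, ha⟩)
    (hcomm : ∀ a : E₁, incl (τ a) = σ (incl a))
    {x : E' ≃+* E'} (hx : IsOver (x : E' →+* E') (τ : E₁ →+* E₁))
    (hxδ : Commute (x : E' →+* E') (deck H₁ hζ)) (hg₀ : g₀ ≠ 0) {d : ℕ}
    (hd : Nat.Coprime d p) (hxd : (x : E' →+* E') ^ d = 1) (hτd : τ ^ d = 1)
    (hFA : ∀ b : E₁, va b ≤ 1 → ∃ a : E₁, τ a = a ∧ va (b - a) < 1)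
    -- the fixed field and its `K0`-model
    (E : Subfield E') (hE : ∀ y, y ∈ E ↔ x y = y)
    [Algebra F₀ E] [Algebra R E] [IsScalarTower R F₀ E] [FiniteDimensional F₀ E]
    (ι₀ : F₀ →+* E₁)
    (hι₀ : ∀ a : F₀, ((algebraMap F₀ E a : E) : E') = algebraMap E₁ E' (ι₀ a))
    (hrank : Module.finrank F₀ E = p)
    -- the group
    (G : Subgroup F'ˣ) (Us : Subgroup G) (a : Us →* Us) (toE : G → E')
    (htoE : ∀ y : G, incl' (toE y) = ((y : F'ˣ) : F'))
    (hmul : ∀ y z : G, toE (y * z) = toE y * toE z)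
    (ha : ∀ u : Us, toE ((a u : Us) : G) = x (toE (u : G)))
    -- the Artin–Schreier normal form and the tame trace
    {cz : E₁} (hζc : ζ = 1 + cz) (hc0 : cz ≠ 0) (hcA : va cz < 1)
    {Z' : E'} (hZ' : H₁.root = 1 + algebraMap E₁ E' cz * Z')
    {g₁ : E₁} (hg₁ : g₀ = 1 + cz ^ p * g₁)
    (hintg : (ι₀.comp (algebraMap R F₀)).IsIntegralElem g₁)
    (θ₀ : E) (hθ₀ : (θ₀ : E') = TraceRes.traceTame x d Z')
    (hpA : va ((p : ℕ) : E₁) < 1)
    (hRA : ∀ r : R, va (ι₀ (algebraMap R F₀ r)) ≤ 1)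
    (hρB₁ : ∀ (i : ZMod p) (b : BRingK0 N' ℓ A h)
      (hb : iotaE incl' E (algebraMap R E (algebraMap (BRingK0 N' ℓ A h) R b)) ∈
        (sheetK Ra incl hincA hDA harchA hζ hγa H i).Rw),
      (sheetK Ra incl hincA hDA harchA hζ hγa H i).red ⟨_, hb⟩ =
        fresInclInv hℓN hA (algebraMap (CRing N' A) (FresBar N' A) (redC1K0 h hℓN hA b)))
    -- horizontal primes: on the `x`-fixed elements of `Us`
    (hhor : ∀ (u : Us) (u₀ : E), toE (u : G) = (u₀ : E') →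
      ∀ V : ValuationSubring E, IsDiscreteValuationRing V →
      (∀ r : R, algebraMap R E r ∈ V) → θ₀ ∈ V →
      (algebraMap R E (algebraMap (BRingK0 N' ℓ A h) R (NodeRingK0.ellB h)))⁻¹ ∈ V →
      ∃ z : E, z ≠ 0 ∧ u₀ * z ^ p ∈ V ∧ (u₀ * z ^ p)⁻¹ ∈ V)
    (i k₂ : ZMod p) (y : G) (hy : y ∈ Us)
    (hy1 : wv hDA H₁ hζ hγa i (toE y) = 0) (hy2 : wv hDB H₁ hζ hγb k₂ (toE y) = 0) :
    (p : ℤ) ∣ nodeOrd (sheetK Ra incl hincA hDA harchA hζ hγa H i)
      (unram_sheetK Ra incl hincA hDA harchA hζ hγa H hunA i) Pl G y := by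
  letI := algCFres (ℓ := ℓ) hℓN hA
  haveI := algCFres_frac (ℓ := ℓ) hℓN hA
  obtain ⟨y₁, s, c, hs, hc, hy₁, hy₁0, hgen₁, hth⟩ :=
    thickness_one_prime_typeI h hℓN hA h2 h3 hν2 hν3 (primeL hℓN hA Pl hPl) hnode
  exact NlNodeDataSmooth.nl_node_data_typeI Ra Rb incl hincA hincB hDA hDB harchA harchB H₁ hζ hγa
    hγb H incl' hincl' hroot (C₁ := CRing N' A) hunA τ hτA hτB σ hσA hσK hresA hcomm hx hxδ hg₀ hd
    hxd hτd hFA E hE ι₀ hι₀ hrank G Us a toE htoE hmul ha Pl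
    (centreP (A := A) h hℓN hA (primeL hℓN hA Pl hPl))
    (redC1K0 h hℓN hA) (redC1K0_surjective h hℓN hA h2 h3)
    (primeL hℓN hA Pl hPl).asIdeal rfl (primeL hℓN hA Pl hPl).ne_bot
    y₁ (NodeRingK0.ellB h) s c hy₁ hy₁0 hgen₁ hs hc hth
    hζc hc0 hcA hZ' hg₁ hintg θ₀ hθ₀ hpA hRA
    (fun i b hb => hρB₁ i b hb)
    (hvE_level hℓN hA Pl hPl) hhor i k₂ y hy hy1 hy2

end K0

/-! ### (2) the modular instance -/

section Mod

open Fermat.Agent.GF.F2Asm.KummerExt Fermat.Agent.GF.F2Asm.Inst Fermat.Agent.GF.KCover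
open Fermat.Agent.GF.Peu Fermat.Agent.GF.F2Asm
open Fermat.Agent.GF.KCover.Field.WDataOf Fermat.Agent.GF.KCover.Field.RescaleMod
open Fermat.Agent.GF.KCover.Compl.SheetsMod
open Fermat.Agent.GF.KCover.Int Fermat.Agent.GF.KCover.Int.TameLift
open Fermat.Agent.GF.KCover.Int.K0Model

attribute [local instance] actFK algE'

variable {A : ValuationSubring Qb} {N' : ℕ} [NeZero N'] {p : ℕ} [hpF : Fact p.Prime] [NeZero p]
  (h : ExactDvd p (N' * p)) (hpN : ¬ p ∣ N') (hA : A.LiesOverPrime p)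

variable [IsDedekindDomain (CRing N' A)] [IsFractionRing (CRing N' A) (FresBar N' A)]

variable {ζ : Qb} (T : TameDatum (N' * p) p A ζ)

local notation "F0" => modularFunctionFieldFullC (K0 A) (N' * p)

set_option maxHeartbeats 4000000 in
/-- **The modular per-node theorem at a SMOOTH point of the finite chart** (hypothesis form for the
`K₀`-model block). -/
theorem nl_node_smooth_mod (h2 : p = 2 → 3 ∣ N') (h3 : p = 3 → 2 ∣ N')
    (hν2 : nuTwo N' = 0) (hν3 : nuThree N' = 0)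
    -- the two Gauss valuations of the cover frame
    (hD₁ : IsDisc (valF₁ T (galVal1 (N' * p) A)) (ϖ₁ T))
    (hD₂ : IsDisc (valF₁ T (galVal2 (N' * p) A h)) (ϖ₁ T))
    {γ₁ : Pack.Lc hD₁} (hγ₁ : γ₁ ^ p = Pack.jc hD₁ (g₁ T))
    {γ₂ : Pack.Lc hD₂} (hγ₂ : γ₂ ^ p = Pack.jc hD₂ (g₁ T))
    -- the Artin–Schreier form of the cover
    {v g1 : F₁ (N' * p) A ζ} (hv : v ≠ 0) (hrel : 1 + cz T ^ p * g1 = g₁ T * v ^ p)
    -- the tame generator (= the output of `TameUs.exists_tame_action`)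
    {τ : GQ} (hτ : τ ∈ A.inertiaSubgroupIn ℚ)
    {x : E' T ≃+* E' T}
    (hx : IsOver (x : E' T →+* E' T)
      ((tauF₁ T hτ : F₁ (N' * p) A ζ ≃+* F₁ (N' * p) A ζ) :
        F₁ (N' * p) A ζ →+* F₁ (N' * p) A ζ))
    (hxδ : Commute (x : E' T →+* E' T) (deck (isAdj' T) (ζ₁_prim T)))
    (hxd : x ^ (p - 1) = 1)
    (a : UsInst.Us T →* UsInst.Us T)
    (ha : ∀ u : UsInst.Us T, toE' T (a u : fixedUnits (tameGroup A ζ) T.Fp)
      = x (toE' T (u : fixedUnits (tameGroup A ζ) T.Fp)))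
    -- the place
    (Pl : Place (IsLocalRing.ResidueField A) (FresBar (N' * p) A))
    (hPl : ContainsC hpN hA Pl)
    (hnode : ¬ IsNodeP h hpN hA (primeL hpN hA Pl hPl))
    -- the `K₀`-model of the fixed field of the tame generator
    {R : Type*} [CommRing R] [IsDomain R] [IsIntegrallyClosed R] [IsNoetherianRing R]
    [Algebra R F0] [IsFractionRing R F0]
    [Algebra (BRingK0 N' p A h) R]
    [IsLocalization.AtPrime R (centreP (A := A) h hpN hA (primeL hpN hA Pl hPl))]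
    [Algebra F0 (fixedTame x)] [Algebra R (fixedTame x)] [IsScalarTower R F0 (fixedTame x)]
    [FiniteDimensional F0 (fixedTame x)]
    (hι₀ : ∀ b : F0, ((algebraMap F0 (fixedTame x) b : fixedTame x) : E' T) =
      algebraMap (F₁ (N' * p) A ζ) (E' T) (embF₁ (N' * p) A ζ b))
    (hrank : Module.finrank F0 (fixedTame x) = p)
    (hintg : ((embF₁ (N' * p) A ζ).comp (algebraMap R F0)).IsIntegralElem g1)
    (θ₀ : fixedTame x) (hθ₀ : (θ₀ : E' T) = TraceRes.traceTame x (p - 1) (Zas T hv hrel))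
    (hRA : ∀ r : R, valF₁ T (galVal1 (N' * p) A) (embF₁ (N' * p) A ζ (algebraMap R F0 r)) ≤ 1)
    (hρB₁ : ∀ (i : ZMod p) (b : BRingK0 N' p A h)
      (hb : iotaE (E' T).subtype (fixedTame x)
          (algebraMap R (fixedTame x) (algebraMap (BRingK0 N' p A h) R b)) ∈
        (sheet₁ T hA hD₁ hγ₁ i).Rw),
      (sheet₁ T hA hD₁ hγ₁ i).red ⟨_, hb⟩ =
        fresInclInv hpN hA (algebraMap (CRing N' A) (FresBar N' A) (redC1K0 h hpN hA b)))
    (hhor : ∀ (u : UsInst.Us T) (u₀ : fixedTame x),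
      toE' T (u : fixedUnits (tameGroup A ζ) T.Fp) = (u₀ : E' T) →
      ∀ V : ValuationSubring (fixedTame x), IsDiscreteValuationRing V →
      (∀ r : R, algebraMap R (fixedTame x) r ∈ V) → θ₀ ∈ V →
      (algebraMap R (fixedTame x)
        (algebraMap (BRingK0 N' p A h) R (NodeRingK0.ellB h)))⁻¹ ∈ V →
      ∃ z : fixedTame x, z ≠ 0 ∧ u₀ * z ^ p ∈ V ∧ (u₀ * z ^ p)⁻¹ ∈ V)
    (i k₂ : ZMod p) :
    ∀ y ∈ UsInst.Us T, wOf T hD₁ hγ₁ i y = 0 → wOf T hD₂ hγ₂ k₂ y = 0 →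
      (p : ℤ) ∣ nodeOrd (sheet₁ T hA hD₁ hγ₁ i) (unram_sheet₁ T hA hD₁ hγ₁ i) Pl
        (fixedUnits (tameGroup A ζ) T.Fp) y := by
  intro y hy hy1 hy2
  have hp := hpF.out
  have hτdec : τ ∈ A.decompositionSubgroup ℚ :=
    Fermat.Agent.S05.mem_decompositionSubgroup_of_mem_inertiaSubgroupIn hτ
  have hcop : Nat.Coprime (p - 1) p := by
    rw [Nat.coprime_comm, hp.coprime_iff_not_dvd]
    intro hdvd
    have := Nat.le_of_dvd (by have := hp.one_lt; omega) hdvd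
    have := hp.one_lt
    omega
  have hg₀ : (1 + cz T ^ p * g1 : F₁ (N' * p) A ζ) ≠ 0 := by
    rw [hrel]
    exact mul_ne_zero (g₁_ne_zero T) (pow_ne_zero _ hv)
  have hxd' : (x : E' T →+* E' T) ^ (p - 1) = 1 := by
    rw [ringEquiv_coe_pow, hxd]
    rfl
  have hxδ' : Commute (x : E' T →+* E' T) (deck (frameAS T hv hrel) (ζ₁_prim T)) := by
    rw [deck_frameAS]
    exact hxδ
  have hpA : valF₁ T (galVal1 (N' * p) A) ((p : ℕ) : F₁ (N' * p) A ζ) < 1 := by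
    rw [valF₁_apply]
    have e : (((p : ℕ) : F₁ (N' * p) A ζ) : FK (N' * p)) = ((p : ℕ) : FK (N' * p)) :=
      map_natCast (F₁ (N' * p) A ζ).subtype p
    rw [e]
    exact valuation_natCast_lt_one (galVal1 (N' * p) A) hA
  -- the sheets of the Artin–Schreier frame are the sheets of the `T`-frame
  have hsh : ∀ i : ZMod p,
      sheetK (redDataBar (N' * p) A) (F₁ (N' * p) A ζ).subtype (hincl₁ T) hD₁ (harch₁ T hA)
        (ζ₁_prim T) (rootAS_pow T hrel hD₁ hγ₁) (frameASb T hv hrel) i = sheet₁ T hA hD₁ hγ₁ i :=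
    fun i => sheetK_frameASb T hv hrel (redDataBar (N' * p) A) (hincl₁ T) hD₁ (harch₁ T hA) hγ₁ i
  rw [← nodeOrd_congr (hsh i) (unram_sheet₁ T hA hD₁ hγ₁ i)
    (unram_sheetK (redDataBar (N' * p) A) (F₁ (N' * p) A ζ).subtype (hincl₁ T) hD₁ (harch₁ T hA)
      (ζ₁_prim T) (rootAS_pow T hrel hD₁ hγ₁) (frameASb T hv hrel)
      (Fermat.Agent.GS.F.unram_redDataBar (N' * p) A) i)]
  exact nl_node_typeI_K0 h hpN hA (redDataBar (N' * p) A) (redData2 (N' * p) A h)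
    (F₁ (N' * p) A ζ).subtype (hincl₁ T) (hincl₂ T h) hD₁ hD₂ (harch₁ T hA) (harch₂ T h hA)
    (frameAS T hv hrel) (ζ₁_prim T) (rootAS_pow T hrel hD₁ hγ₁) (rootAS_pow T hrel hD₂ hγ₂)
    (frameASb T hv hrel) (E' T).subtype (hincl'_AS T) (hroot_AS T hv hrel)
    h2 h3 hν2 hν3 Pl hPl hnode
    (Fermat.Agent.GS.F.unram_redDataBar (N' * p) A)
    (tauF₁ T hτ) (valF₁_tauF₁ T hτ hA _) (valF₁_tauF₁ T hτ hA _)
    (InertialMod.sig (N' * p) τ) (InertialMod.hσ₁ (N' * p) A hp hA hτdec)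
    (InertialMod.hσK (N' * p) τ) (InertialMod.hres₁ (N' * p) A hp hA hτ)
    (fun b => coe_tauF₁ T hτ b) hx hxδ' hg₀ hcop hxd' (tauF₁_pow T hτ)
    (TameLift.hF T hτ hA _)
    (fixedTame x) (fun _ => mem_fixedTame) (embF₁ (N' * p) A ζ) hι₀ hrank
    (fixedUnits (tameGroup A ζ) T.Fp) (UsInst.Us T) a (toE' T) (coe_toE' T) (toE'_mul T) ha
    (ζ₁_eq T) (cz_ne_zero T) (valF₁_cz_lt_one T hA _) (frameAS_root_eq T hv hrel) rfl hintg
    θ₀ hθ₀ hpA hRA
    (fun i b hb =>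
      (red_congr' (hsh i) hb ((hsh i) ▸ hb)).trans (hρB₁ i b ((hsh i) ▸ hb)))
    hhor i k₂ y hy
    ((wOf_eq_wv_frameAS T hv hrel hD₁ hγ₁ i y).symm.trans hy1)
    ((wOf_eq_wv_frameAS T hv hrel hD₂ hγ₂ k₂ y).symm.trans hy2)

end Mod

end Fermat.Agent.GF.KCover.NodeMod.NlNodeSmoothMod

end
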