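/-
GATE-F (S44) / GF-KCOVER-INST, node side (L-c), stage 2 (helper75): **the MODULAR per-point theorem
`NL on Us T` at ANY point `Pl` of the finite chart `BRingK0 N' p A h` of the concrete cover
`T.Fp / F_{N' p}`, node or smooth** — `NlPointDataK0.nl_point_data_K0` (`by_cases IsNodeP` inside)
instantiated at the modular Artin–Schreier frame of helper3's `Field/RescaleMod`, with helper62's
argument block of `NlNodeSmoothMod.nl_node_smooth_mod` VERBATIM for the frame / tame / group / AS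
binders, plus the branch-2 tail.

* **`nl_point_mod`** : level `N' * p` literal, `T : TameDatum (N' * p) p A ζ`, frame
  `H₁ := frameAS T hv hrel`, `H := frameASb T hv hrel`, tame generator `(τ, x, a)` as parameters
  (= the output of `TameUs.exists_tame_action`), `E := fixedTame x`, `F₀ := K₀(X₀(N' p))`,
  `ι₀ := K0Model.embF₁`; the two node-only binders `hRB`, `hρB₂` UNDER `IsNodeP`; conclusion
  `∃ c, ∀ k, ∀ y ∈ Us T, wOf T hD₁ hγ₁ k y = 0 → wOf T hD₂ hγ₂ (k + c) y = 0 →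
     p ∣ nodeOrd (sheet₁ T hA hD₁ hγ₁ k) (unram_sheet₁ T hA hD₁ hγ₁ k) Pl (fixedUnits I′ T.Fp) y`
  = `∃ c, ∀ k, FourDown.NLAt T hA h hD₁ hD₂ hγ₁ hγ₂ Pl k (k + c)` = the per-node clause of
  `NodeSupplyAsmS.NLNodeS` / `AuxTop.NLAll` with `(a, b) := (0, c)`.
-/
import Fermat.Agent.GF.KCover.NodeMod.NlPointDataK0
import Fermat.Agent.GF.KCover.NodeMod.NlNodeSmoothMod

set_option autoImplicit false
set_option linter.unusedSectionVars false
set_option linter.unusedVariables false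
set_option linter.style.haveILetI false

noncomputable section

open Polynomial AlgebraicCurve

namespace Fermat.Agent.GF.KCover.NodeMod.NlPointMod

open ModularCurve IsLocalRing IsDedekindDomain
open Fermat.Agent.GL.Val.GaussK0 Fermat.Agent.GL.Val.SecondK0
open Fermat.Agent.GJ.KumGroup Fermat.Agent.GJ.J1 Fermat.Agent.GJ.J1.Val
open Fermat.Agent.GK.AL Fermat.Agent.GL.AL Fermat.Agent.GK.QS Fermat.Agent.GK.SS
open Fermat.Agent.Common_helper32
open Fermat.Agent.S24 Fermat.Agent.S24_helper6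
open Fermat.Agent.GF.Trop
open Fermat.Agent.GL.BRingK0 Fermat.Agent.GL.BRingChart Fermat.Agent.GL.Thick
open Fermat.Agent.GF.KCover.Node Fermat.Agent.GF.KCover.Node.NodeRingK0Pkg
open Fermat.Agent.GF.KCover.Node.NodeRingK0Level
open Fermat.Agent.GF.KCover.Field Fermat.Agent.GF.KCover.Field.Disc
  Fermat.Agent.GF.KCover.Field.Pack
open Fermat.Agent.GF.KCover.Compl Fermat.Agent.GF.KCover.Compl.Bridge
  Fermat.Agent.GF.KCover.Compl.RedCompl Fermat.Agent.GF.KCover.Compl.RedAut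
  Fermat.Agent.GF.KCover.Compl.BridgeTau
open Fermat.Agent.GF.KCover.Node.OrdRedExt
  Fermat.Agent.GF.KCover.Node.NlNode Fermat.Agent.GF.KCover.Node.NlNodeSheets
open Fermat.Agent.GF.KCover.NodeMod.NlNodeSmoothMod

attribute [local instance] Fermat.Agent.GL.Frame.InstK0.algSubringFullC

local notation "Qb" => AlgebraicClosure ℚ
local notation "GQ" => (AlgebraicClosure ℚ ≃ₐ[ℚ] AlgebraicClosure ℚ)

open Fermat.Agent.GF.F2Asm.KummerExt Fermat.Agent.GF.F2Asm.Inst Fermat.Agent.GF.KCover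
open Fermat.Agent.GF.Peu Fermat.Agent.GF.F2Asm
open Fermat.Agent.GF.KCover.Field.WDataOf Fermat.Agent.GF.KCover.Field.RescaleMod
open Fermat.Agent.GF.KCover.Compl.SheetsMod
open Fermat.Agent.GF.KCover.Int Fermat.Agent.GF.KCover.Int.TameLift
open Fermat.Agent.GF.KCover.Int.K0Model

attribute [local instance] actFK algE'

variable {A : ValuationSubring Qb} {N' : ℕ} [NeZero N'] {p : ℕ} [hpF : Fact p.Prime] [NeZero p]
  (h : ExactDvd p (N' * p)) (hpN : ¬ p ∣ N') (hA : A.LiesOverPrime p)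

variable [IsDedekindDomain (CRing N' A)] [IsFractionRing (CRing N' A) (FresBar N' A)]

variable {ζ : Qb} (T : TameDatum (N' * p) p A ζ)

local notation "F0" => modularFunctionFieldFullC (K0 A) (N' * p)

set_option maxHeartbeats 8000000 in
/-- **The modular per-point theorem at ANY point of the finite chart** (node or smooth; hypothesis
form for the `K₀`-model block). -/
theorem nl_point_mod (h2 : p = 2 → 3 ∣ N') (h3 : p = 3 → 2 ∣ N')
    (hν2 : nuTwo N' = 0) (hν3 : nuThree N' = 0)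
    -- the two Gauss valuations of the cover frame
    (hD₁ : IsDisc (valF₁ T (galVal1 (N' * p) A)) (ϖ₁ T))
    (hD₂ : IsDisc (valF₁ T (galVal2 (N' * p) A h)) (ϖ₁ T))
    {γ₁ : Pack.Lc hD₁} (hγ₁ : γ₁ ^ p = Pack.jc hD₁ (g₁ T))
    {γ₂ : Pack.Lc hD₂} (hγ₂ : γ₂ ^ p = Pack.jc hD₂ (g₁ T))
    -- the Artin–Schreier form of the cover
    {v g1 : F₁ (N' * p) A ζ} (hv : v ≠ 0) (hrel : 1 + cz T ^ p * g1 = g₁ T * v ^ p)
    (hg1A : valF₁ T (galVal1 (N' * p) A) g1 ≤ 1) (hg1B : valF₁ T (galVal2 (N' * p) A h) g1 ≤ 1)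
    -- the tame generator (= the output of `TameUs.exists_tame_action`)
    {τ : GQ} (hτ : τ ∈ A.inertiaSubgroupIn ℚ)
    (hgen : ∀ σ ∈ A.inertiaSubgroupIn ℚ, ∃ m : ℕ, IsTameFix A ζ ((τ ^ m)⁻¹ * σ))
    {x : E' T ≃+* E' T}
    (hx : IsOver (x : E' T →+* E' T)
      ((tauF₁ T hτ : F₁ (N' * p) A ζ ≃+* F₁ (N' * p) A ζ) :
        F₁ (N' * p) A ζ →+* F₁ (N' * p) A ζ))
    (hxδ : Commute (x : E' T →+* E' T) (deck (isAdj' T) (ζ₁_prim T)))
    (hxd : x ^ (p - 1) = 1)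
    (a : UsInst.Us T →* UsInst.Us T)
    (ha : ∀ u : UsInst.Us T, toE' T (a u : fixedUnits (tameGroup A ζ) T.Fp)
      = x (toE' T (u : fixedUnits (tameGroup A ζ) T.Fp)))
    -- the place
    (Pl : Place (IsLocalRing.ResidueField A) (FresBar (N' * p) A))
    (hPl : ContainsC hpN hA Pl)
    -- the `K₀`-model of the fixed field of the tame generator
    {R : Type*} [CommRing R] [IsDomain R] [IsIntegrallyClosed R] [IsNoetherianRing R]
    [Algebra R F0] [IsFractionRing R F0]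
    [Algebra (BRingK0 N' p A h) R]
    [IsLocalization.AtPrime R (centreP (A := A) h hpN hA (primeL hpN hA Pl hPl))]
    [Algebra F0 (fixedTame x)] [Algebra R (fixedTame x)] [IsScalarTower R F0 (fixedTame x)]
    [FiniteDimensional F0 (fixedTame x)]
    (hι₀ : ∀ b : F0, ((algebraMap F0 (fixedTame x) b : fixedTame x) : E' T) =
      algebraMap (F₁ (N' * p) A ζ) (E' T) (embF₁ (N' * p) A ζ b))
    (hrank : Module.finrank F0 (fixedTame x) = p)
    (hintg : ((embF₁ (N' * p) A ζ).comp (algebraMap R F0)).IsIntegralElem g1)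
    (θ₀ : fixedTame x) (hθ₀ : (θ₀ : E' T) = TraceRes.traceTame x (p - 1) (Zas T hv hrel))
    (hRA : ∀ r : R, valF₁ T (galVal1 (N' * p) A) (embF₁ (N' * p) A ζ (algebraMap R F0 r)) ≤ 1)
    (hRB : IsNodeP h hpN hA (primeL hpN hA Pl hPl) →
      ∀ r : R, valF₁ T (galVal2 (N' * p) A h) (embF₁ (N' * p) A ζ (algebraMap R F0 r)) ≤ 1)
    (hρB₁ : ∀ (i : ZMod p) (b : BRingK0 N' p A h)
      (hb : iotaE (E' T).subtype (fixedTame x)
          (algebraMap R (fixedTame x) (algebraMap (BRingK0 N' p A h) R b)) ∈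
        (sheet₁ T hA hD₁ hγ₁ i).Rw),
      (sheet₁ T hA hD₁ hγ₁ i).red ⟨_, hb⟩ =
        fresInclInv hpN hA (algebraMap (CRing N' A) (FresBar N' A) (redC1K0 h hpN hA b)))
    (hρB₂ : IsNodeP h hpN hA (primeL hpN hA Pl hPl) →
      ∀ (i : ZMod p) (b : BRingK0 N' p A h)
      (hb : iotaE (E' T).subtype (fixedTame x)
          (algebraMap R (fixedTame x) (algebraMap (BRingK0 N' p A h) R b)) ∈
        (sheet₂ T h hA hD₂ hγ₂ i).Rw),
      (sheet₂ T h hA hD₂ hγ₂ i).red ⟨_, hb⟩ =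
        fresInclInv hpN hA (algebraMap (CRing N' A) (FresBar N' A) (redC2K0 h hpN hA b)))
    (hhor : ∀ (u : UsInst.Us T) (u₀ : fixedTame x),
      toE' T (u : fixedUnits (tameGroup A ζ) T.Fp) = (u₀ : E' T) →
      ∀ V : ValuationSubring (fixedTame x), IsDiscreteValuationRing V →
      (∀ r : R, algebraMap R (fixedTame x) r ∈ V) → θ₀ ∈ V →
      (algebraMap R (fixedTame x)
        (algebraMap (BRingK0 N' p A h) R (NodeRingK0.ellB h)))⁻¹ ∈ V →
      ∃ z : fixedTame x, z ≠ 0 ∧ u₀ * z ^ p ∈ V ∧ (u₀ * z ^ p)⁻¹ ∈ V) :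
    ∃ c : ZMod p, ∀ k : ZMod p, ∀ y ∈ UsInst.Us T,
      wOf T hD₁ hγ₁ k y = 0 → wOf T hD₂ hγ₂ (k + c) y = 0 →
      (p : ℤ) ∣ nodeOrd (sheet₁ T hA hD₁ hγ₁ k) (unram_sheet₁ T hA hD₁ hγ₁ k) Pl
        (fixedUnits (tameGroup A ζ) T.Fp) y := by
  have hp := hpF.out
  have hτdec : τ ∈ A.decompositionSubgroup ℚ :=
    Fermat.Agent.S05.mem_decompositionSubgroup_of_mem_inertiaSubgroupIn hτ
  have hcop : Nat.Coprime (p - 1) p := by
    rw [Nat.coprime_comm, hp.coprime_iff_not_dvd]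
    intro hdvd
    have := Nat.le_of_dvd (by have := hp.one_lt; omega) hdvd
    have := hp.one_lt
    omega
  have hg₀ : (1 + cz T ^ p * g1 : F₁ (N' * p) A ζ) ≠ 0 := by
    rw [hrel]
    exact mul_ne_zero (g₁_ne_zero T) (pow_ne_zero _ hv)
  have hxd' : (x : E' T →+* E' T) ^ (p - 1) = 1 := by
    rw [ringEquiv_coe_pow, hxd]
    rfl
  have hxδ' : Commute (x : E' T →+* E' T) (deck (frameAS T hv hrel) (ζ₁_prim T)) := by
    rw [deck_frameAS]
    exact hxδ
  have hpV : ∀ V : GalVal (N' * p) A, valF₁ T V ((p : ℕ) : F₁ (N' * p) A ζ) < 1 := by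
    intro V
    rw [valF₁_apply]
    have e : (((p : ℕ) : F₁ (N' * p) A ζ) : FK (N' * p)) = ((p : ℕ) : FK (N' * p)) :=
      map_natCast (F₁ (N' * p) A ζ).subtype p
    rw [e]
    exact valuation_natCast_lt_one V hA
  -- the sheets of the Artin–Schreier frame are the sheets of the `T`-frame
  have hsh₁ : ∀ i : ZMod p,
      sheetK (redDataBar (N' * p) A) (F₁ (N' * p) A ζ).subtype (hincl₁ T) hD₁ (harch₁ T hA)
        (ζ₁_prim T) (rootAS_pow T hrel hD₁ hγ₁) (frameASb T hv hrel) i = sheet₁ T hA hD₁ hγ₁ i :=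
    fun i => sheetK_frameASb T hv hrel (redDataBar (N' * p) A) (hincl₁ T) hD₁ (harch₁ T hA) hγ₁ i
  have hsh₂ : ∀ i : ZMod p,
      sheetK (redData2 (N' * p) A h) (F₁ (N' * p) A ζ).subtype (hincl₂ T h) hD₂ (harch₂ T h hA)
        (ζ₁_prim T) (rootAS_pow T hrel hD₂ hγ₂) (frameASb T hv hrel) i =
        sheet₂ T h hA hD₂ hγ₂ i :=
    fun i => sheetK_frameASb T hv hrel (redData2 (N' * p) A h) (hincl₂ T h) hD₂ (harch₂ T h hA)
      hγ₂ i
  obtain ⟨c, hc⟩ := NlPointDataK0.nl_point_data_K0 h hpN hA (redDataBar (N' * p) A)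
    (redData2 (N' * p) A h)
    (F₁ (N' * p) A ζ).subtype (hincl₁ T) (hincl₂ T h) hD₁ hD₂ (harch₁ T hA) (harch₂ T h hA)
    (frameAS T hv hrel) (ζ₁_prim T) (rootAS_pow T hrel hD₁ hγ₁) (rootAS_pow T hrel hD₂ hγ₂)
    (frameASb T hv hrel) (E' T).subtype (hincl'_AS T) (hroot_AS T hv hrel)
    h2 h3 hν2 hν3 Pl hPl
    (Fermat.Agent.GS.F.unram_redDataBar (N' * p) A)
    (tauF₁ T hτ) (valF₁_tauF₁ T hτ hA _) (valF₁_tauF₁ T hτ hA _)
    (InertialMod.sig (N' * p) τ) (InertialMod.hσ₁ (N' * p) A hp hA hτdec)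
    (InertialMod.hσ₂ (N' * p) A h hA hτdec)
    (InertialMod.hσK (N' * p) τ) (InertialMod.hres₁ (N' * p) A hp hA hτ)
    (InertialMod.hres₂ (N' * p) A h hA hτ)
    (fun b => coe_tauF₁ T hτ b) hx hxδ' hg₀ hcop hxd' (tauF₁_pow T hτ)
    (TameLift.hF T hτ hA _) (TameLift.hF T hτ hA _)
    (fixedTame x) (fun _ => mem_fixedTame) (embF₁ (N' * p) A ζ) hι₀ hrank
    (fun y hy => exists_embF₁_of_fixed T hτ hgen y hy) (fun a0 => tauF₁_embF₁ T hτ a0)
    (fixedUnits (tameGroup A ζ) T.Fp) (UsInst.Us T) a (toE' T) (coe_toE' T) (toE'_mul T) ha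
    (ζ₁_eq T) (cz_ne_zero T) (valF₁_cz_lt_one T hA _) (valF₁_cz_lt_one T hA _)
    (frameAS_root_eq T hv hrel) rfl hintg hg1A hg1B
    θ₀ hθ₀ (hpV _) (hpV _) hRA hRB
    (fun i b hb =>
      (red_congr' (hsh₁ i) hb ((hsh₁ i) ▸ hb)).trans (hρB₁ i b ((hsh₁ i) ▸ hb)))
    (fun hnode i b hb =>
      (red_congr' (hsh₂ i) hb ((hsh₂ i) ▸ hb)).trans (hρB₂ hnode i b ((hsh₂ i) ▸ hb)))
    hhor
  refine ⟨c, fun k y hy hy1 hy2 => ?_⟩
  rw [← nodeOrd_congr (hsh₁ k) (unram_sheet₁ T hA hD₁ hγ₁ k)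
    (unram_sheetK (redDataBar (N' * p) A) (F₁ (N' * p) A ζ).subtype (hincl₁ T) hD₁ (harch₁ T hA)
      (ζ₁_prim T) (rootAS_pow T hrel hD₁ hγ₁) (frameASb T hv hrel)
      (Fermat.Agent.GS.F.unram_redDataBar (N' * p) A) k)]
  exact hc k y hy
    ((wOf_eq_wv_frameAS T hv hrel hD₁ hγ₁ k y).symm.trans hy1)
    ((wOf_eq_wv_frameAS T hv hrel hD₂ hγ₂ (k + c) y).symm.trans hy2)

end Fermat.Agent.GF.KCover.NodeMod.NlPointMod
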