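/-
GATE-F (S44) / GF-KCOVER-NODEMOD-HINTKRULL (helper60): **the binder `hint` from `KrullData`.**

helper40's `HintMod.hint_mod` takes `(hfix hg1 hg2 Z hZ hKD)` at the level of the chart.  At the
auxiliary level `M·2·2` there is no chart and no divisor `Z`; the input there is the level-generic
package `KrullUp.KrullData` (which goes up along `alphaB`).  This file is the thin twin:

* `isIntegralElem_g1_of_monic` : `HintMod.isIntegralElem_g1` with the monic polynomial as input;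
* `hint_of_monic`              : `HintMod.hint_mod` with the monic polynomial as input;
* **`hint_of_krullData`**      : `IsIntegral R θ₀` at `𝔫 := centreP (primeL Pl)` — the prime of
  `NodeK0Call.nl0_at_point` / `NodeK0CallSplit` — from `hK : KrullData A (N' p) h χ c₀ g1` and
  `j~(Pl) = c₀`.
-/
import Fermat.Agent.GF.KCover.NodeMod.HintMod
import Fermat.Agent.GF.KCover.ASNode.KrullUp

set_option autoImplicit false
set_option linter.unusedSectionVars false
set_option linter.unusedVariables false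

noncomputable section

namespace Fermat.Agent.GF.KCover.NodeMod.HintKrull

open Polynomial
open Fermat.Agent.GF.KCover.Field
open Fermat.Agent.GF.KCover.Node
open ModularCurve AlgebraicCurve
open Fermat.Agent.S24 Fermat.Agent.S24_helper62
open Fermat.Agent.GJ.J1 Fermat.Agent.GJ.J1.Val Fermat.Agent.GJ.KumGroup
open Fermat.Agent.GK.SS Fermat.Agent.GK.AL Fermat.Agent.GL.AL Fermat.Agent.GK.QS
open Fermat.Agent.GK.NodalGraded
open Fermat.Agent.GL.Val.GaussK0 Fermat.Agent.GL.Val.SecondK0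
open Fermat.Agent.GL.BRingK0
open Fermat.Agent.GL.KrullHeightOne
open Fermat.Agent.Common_helper32
open Fermat.Agent.GF.Peu Fermat.Agent.GF.F2Asm.Inst
open Fermat.Agent.GF.KCover.Field.WDataOf
open Fermat.Agent.GF.KCover.Int Fermat.Agent.GF.KCover.Int.TameLift
open Fermat.Agent.GF.KCover.Int.TameNL Fermat.Agent.GF.KCover.Int.K0Model
open Fermat.Agent.GF.KCover.ASNode Fermat.Agent.GF.KCover.ASNode.KrullUp
open Fermat.Agent.GF.KCover.Node.NodeRingK0Level
open Fermat.Agent.GF.KCover.NodeMod.HintMod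

attribute [local instance] Fermat.Agent.GL.Frame.InstK0.algSubringFullC
attribute [local instance] actFK algE'

local notation "Qb" => AlgebraicClosure ℚ
local notation "GQ" => (AlgebraicClosure ℚ ≃ₐ[ℚ] AlgebraicClosure ℚ)

variable {A : ValuationSubring Qb} {N' : ℕ} [NeZero N'] {p : ℕ} [hpF : Fact p.Prime]
  (h : ExactDvd p (N' * p)) (hℓN : ¬ p ∣ N') (hA : A.LiesOverPrime p) {ζ : Qb}

local notation "F0" => modularFunctionFieldFullC (K0 A) (N' * p)

variable (T : TameDatum (N' * p) p A ζ)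

/-- **the image of `g1` in `E′ T` is integral over `R = B_𝔫`**, from a monic polynomial over `F₀`
with coefficients in `B_𝔫` (fraction-free form) vanishing at `g1`. -/
theorem isIntegralElem_g1_of_monic (𝔫 : Ideal (BRingK0 N' p A h)) [𝔫.IsPrime]
    {R : Type*} [CommRing R] [Algebra (BRingK0 N' p A h) R] [IsLocalization.AtPrime R 𝔫]
    [Algebra R F0] [IsScalarTower (BRingK0 N' p A h) R F0]
    (g1 : FK (N' * p)) (f : F0[X]) (hfm : f.Monic)
    (hcoef : ∀ k, ∃ s a : BRingK0 N' p A h, s ∉ 𝔫 ∧ (a : F0) = (s : F0) * f.coeff k)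
    (hroot : Polynomial.eval₂ (mapK0Bar A (N' * p)) g1 f = 0)
    (g₁E : E' T) (hg₁E : (g₁E : T.Fp) = algebraMap (FK (N' * p)) T.Fp g1) :
    ((embE' T).comp (algebraMap R F0)).IsIntegralElem g₁E := by
  have hint := isIntegralElem_of_monic_frac (R := R) 𝔫 (mapK0Bar A (N' * p))
    (algebraMap (FK (N' * p)) T.Fp) g1 f hfm (fun k => hcoef k) hroot
  obtain ⟨P, hPm, hP⟩ := hint
  refine ⟨P, hPm, ?_⟩
  apply Subtype.ext
  have e : (E' T).subtype.comp ((embE' T).comp (algebraMap R F0)) =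
      ((algebraMap (FK (N' * p)) T.Fp).comp (mapK0Bar A (N' * p))).comp (algebraMap R F0) := rfl
  have h1 : (E' T).subtype (P.eval₂ ((embE' T).comp (algebraMap R F0)) g₁E) =
      P.eval₂ ((E' T).subtype.comp ((embE' T).comp (algebraMap R F0))) ((E' T).subtype g₁E) :=
    Polynomial.hom_eval₂ P _ _ _
  show (E' T).subtype (P.eval₂ ((embE' T).comp (algebraMap R F0)) g₁E) = (0 : T.Fp)
  rw [h1, e]
  show P.eval₂ _ (g₁E : T.Fp) = 0
  rw [hg₁E]
  exact hP

variable {τ : GQ} (hτ : τ ∈ A.inertiaSubgroupIn ℚ) {x : E' T ≃+* E' T}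
  (hx1 : ∀ a, x (algebraMap (F₁ (N' * p) A ζ) (E' T) a)
    = algebraMap (F₁ (N' * p) A ζ) (E' T) (tauF₁ T hτ a))

/-- **`HintMod.hint_mod` with the monic polynomial as input.** -/
theorem hint_of_monic (𝔫 : Ideal (BRingK0 N' p A h)) [𝔫.IsPrime]
    {R : Type*} [CommRing R] [Algebra (BRingK0 N' p A h) R] [IsLocalization.AtPrime R 𝔫]
    [Algebra R F0] [IsScalarTower (BRingK0 N' p A h) R F0] [Algebra R (fixedTame x)]
    (hRK : ∀ r : R, algebraMap R (fixedTame x) r = embK0 T hτ hx1 (algebraMap R F0 r))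
    (g1 : FK (N' * p)) (f : F0[X]) (hfm : f.Monic)
    (hcoef : ∀ k, ∃ s a : BRingK0 N' p A h, s ∉ 𝔫 ∧ (a : F0) = (s : F0) * f.coeff k)
    (hroot : Polynomial.eval₂ (mapK0Bar A (N' * p)) g1 f = 0)
    {ζE c Z' g₁E : E' T} (hζE : IsPrimitiveRoot ζE p) (hc : c = ζE - 1)
    (hg₁E : (g₁E : T.Fp) = algebraMap (FK (N' * p)) T.Fp g1)
    (hAS : (1 + c * Z') ^ p = 1 + c ^ p * g₁E)
    (d : ℕ) (θ₀ : fixedTame x) (hθ : (θ₀ : E' T) = TraceRes.traceTame x d Z') :
    IsIntegral R θ₀ := by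
  have hg := isIntegralElem_g1_of_monic h T 𝔫 (R := R) g1 f hfm hcoef hroot g₁E hg₁E
  have hxφ : ∀ r : R, x (((embE' T).comp (algebraMap R F0)) r) =
      ((embE' T).comp (algebraMap R F0)) r := fun r =>
    mem_fixedTame.1 (embE'_mem_fixedTame T hτ hx1 (algebraMap R F0 r))
  have htr := isIntegralElem_traceTame ((embE' T).comp (algebraMap R F0)) x hxφ d hζE hc hAS hg
  refine isIntegral_of_comp (fixedTame x).subtype Subtype.val_injective θ₀ ?_
  have e : (fixedTame x).subtype.comp (algebraMap R (fixedTame x)) =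
      (embE' T).comp (algebraMap R F0) := by
    refine RingHom.ext fun r => ?_
    show ((algebraMap R (fixedTame x) r : fixedTame x) : E' T) = _
    rw [hRK r]
    rfl
  rw [e]
  show ((embE' T).comp (algebraMap R F0)).IsIntegralElem (θ₀ : E' T)
  rw [hθ]
  exact htr

variable [IsDedekindDomain (CRing N' A)] [IsFractionRing (CRing N' A) (FresBar N' A)]

include hA in
/-- **(M-c) at the point of `NodeK0Call.nl0_at_point`, from `KrullData`**: `Pl` a place of
`F̃_{N'p}` at which `j~` is regular with value `c₀`, `𝔫 := centreP (primeL Pl)`, `R = B_𝔫`,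
`θ₀ = Tr_x (Z')`, `(1 + c Z')^p = 1 + c^p g₁E`, `g₁E` the image of `g1`, `hK : KrullData … c₀ g1`. -/
theorem hint_of_krullData {Mg : Type*} [Group Mg] [Finite Mg] {χ : GQ →* Mg}
    {c₀ : IsLocalRing.ResidueField A} {g1 : FK (N' * p)}
    (hK : KrullData A (N' * p) h χ c₀ g1)
    (Pl : Place (IsLocalRing.ResidueField A) (FresBar (N' * p) A)) (hPl : ContainsC hℓN hA Pl)
    (hc₀ : ValueAt Pl (fresInclInv hℓN hA (Fermat.Agent.GK.QS.jt N' A)) c₀)
    {R : Type*} [CommRing R] [Algebra (BRingK0 N' p A h) R]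
    [IsLocalization.AtPrime R (centreP (A := A) h hℓN hA (primeL hℓN hA Pl hPl))]
    [Algebra R F0] [IsScalarTower (BRingK0 N' p A h) R F0] [Algebra R (fixedTame x)]
    (hRK : ∀ r : R, algebraMap R (fixedTame x) r = embK0 T hτ hx1 (algebraMap R F0 r))
    {ζE c Z' g₁E : E' T} (hζE : IsPrimitiveRoot ζE p) (hc : c = ζE - 1)
    (hg₁E : (g₁E : T.Fp) = algebraMap (FK (N' * p)) T.Fp g1)
    (hAS : (1 + c * Z') ^ p = 1 + c ^ p * g₁E)
    (d : ℕ) (θ₀ : fixedTame x) (hθ : (θ₀ : E' T) = TraceRes.traceTame x d Z') :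
    IsIntegral R θ₀ := by
  obtain ⟨f, hfm, hcoef, hroot⟩ := hK.exists_monic_centreP' h hℓN hA Pl hPl hc₀
  exact hint_of_monic h T hτ hx1 (centreP (A := A) h hℓN hA (primeL hℓN hA Pl hPl)) (R := R) hRK
    g1 f hfm hcoef hroot hζE hc hg₁E hAS d θ₀ hθ

end Fermat.Agent.GF.KCover.NodeMod.HintKrull
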