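/-
GATE-F (S44) / GF-KCOVER-NODEMOD-K0INST, file 2 (helper56): **`hrank` from `hintg`, and the PLUG-TEST
of the `K₀`-model block** (`NodeMod/K0Inst`) into the modular per-node theorems.

* `norm_emb_le_one_of_hintg` (abstract): `‖emb H₁ hζ (jc h) hγ 0 Z'‖ ≤ 1` (the binder `hz` of
  `K0Inst.finrank_fixed_of_sheet`) from `hintg : φ.IsIntegralElem g₁`, `g₀ = 1 + c^p g₁`,
  `H₁.root = 1 + c Z'` and `v ∘ φ ≤ 1` — the same derivation as inside `nl_node_data(_typeI)`,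
  on the `K'`-rational frame only;
* `hrank_of_hintg` (modular): `K0Inst.hrank` with `hz` replaced by `hintg` and `hRA`;
* **`nl_node_smooth_K0Inst`** : helper62's `NlNodeSmoothMod.nl_node_smooth_mod` at
  `R := locSub F₀ (centreP … (primeL Pl))` with the WHOLE `K₀`-model block discharged
  (`R`-block, `E`-block, `hι₀`, `hrank`, `hRA`): what remains is `hintg`, `hρB₁`, `hhor`.
-/
import Fermat.Agent.GF.KCover.NodeMod.K0Inst
import Fermat.Agent.GF.KCover.NodeMod.NlNodeSmoothMod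

set_option autoImplicit false
set_option linter.unusedSectionVars false
set_option linter.unusedVariables false
set_option linter.style.haveILetI false

noncomputable section

open Polynomial AlgebraicCurve

namespace Fermat.Agent.GF.KCover.NodeMod.K0InstPlug

open Fermat.Agent.GF.KCover.Field Fermat.Agent.GF.KCover.Field.Disc
  Fermat.Agent.GF.KCover.Field.Pack
open Fermat.Agent.GF.KCover.Node Fermat.Agent.GF.KCover.Node.NlNodeSheets

/-! ### `hz` from `hintg`, abstract -/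

section Abs

variable {E₁ : Type*} [Field E₁] {Γ₀ : Type*} [LinearOrderedCommGroupWithZero Γ₀]
variable {v : Valuation E₁ Γ₀} {ϖ : E₁} (h : IsDisc v ϖ)
variable {E' : Type*} [Field E'] [Algebra E₁ E'] {p : ℕ} [NeZero p] [Fact p.Prime] {g₀ : E₁}
  (H₁ : IsAdjoinRoot E' (X ^ p - C g₀ : E₁[X])) {ζ : E₁} (hζ : IsPrimitiveRoot ζ p)
  {γ : Lc h} (hγ : γ ^ p = jc h g₀)

/-- **the Artin–Schreier generator is integral on the sheet `0`.** -/
theorem norm_emb_le_one_of_hintg {R : Type*} [CommRing R] (φ : R →+* E₁)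
    (hφv : ∀ r : R, v (φ r) ≤ 1)
    {cz : E₁} (hζc : ζ = 1 + cz) {Z' : E'} (hZ' : H₁.root = 1 + algebraMap E₁ E' cz * Z')
    {g₁ : E₁} (hg₁ : g₀ = 1 + cz ^ p * g₁) (hintg : φ.IsIntegralElem g₁) :
    ‖emb H₁ hζ (jc h) hγ 0 Z'‖ ≤ 1 := by
  have hζE : IsPrimitiveRoot (algebraMap E₁ E' ζ) p :=
    hζ.map_of_injective (algebraMap E₁ E').injective
  have hcE : algebraMap E₁ E' cz = algebraMap E₁ E' ζ - 1 := by
    rw [hζc, map_add, map_one, add_sub_cancel_left]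
  have hASE : (1 + algebraMap E₁ E' cz * Z') ^ p =
      1 + algebraMap E₁ E' cz ^ p * algebraMap E₁ E' g₁ := by
    rw [← hZ', root_pow H₁, hg₁, map_add, map_one, map_mul, map_pow]
  have hgE : ((algebraMap E₁ E').comp φ).IsIntegralElem (algebraMap E₁ E' g₁) :=
    NlNodeData.isIntegralElem_map φ (algebraMap E₁ E') hintg _ (fun _ => rfl)
  have hZE : ((algebraMap E₁ E').comp φ).IsIntegralElem Z' :=
    ResLift.isIntegralElem_of_kummer_as _ hζE hcE hASE hgE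
  have hmem := SheetIdxBridge.emb_mem_of_isIntegralElem (ballC h) ((algebraMap E₁ E').comp φ)
    (emb H₁ hζ (jc h) hγ 0) (fun r => by
      rw [RingHom.comp_apply, emb_algebraMap]
      exact (mem_ballC h).2 ((norm_jc_le_one_iff h).2 (hφv r))) hZE
  exact (mem_ballC h).1 hmem

end Abs

/-! ### the modular statements -/

section Mod

open ModularCurve IsLocalRing IsDedekindDomain
open Fermat.Agent.GL.KrullHeightOne
open Fermat.Agent.GL.Val.GaussK0 Fermat.Agent.GL.Val.SecondK0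
open Fermat.Agent.GJ.KumGroup Fermat.Agent.GJ.J1 Fermat.Agent.GJ.J1.Val
open Fermat.Agent.GK.AL Fermat.Agent.GL.AL Fermat.Agent.GK.QS Fermat.Agent.GK.SS
open Fermat.Agent.Common_helper32
open Fermat.Agent.S24 Fermat.Agent.S24_helper6
open Fermat.Agent.GF.Trop
open Fermat.Agent.GL.BRingK0 Fermat.Agent.GL.BRingChart Fermat.Agent.GL.Thick
open Fermat.Agent.GF.KCover.Node.NodeRingK0Pkg
open Fermat.Agent.GF.KCover.Node.NodeRingK0Level
open Fermat.Agent.GF.KCover.Compl Fermat.Agent.GF.KCover.Compl.Bridge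
  Fermat.Agent.GF.KCover.Compl.RedCompl Fermat.Agent.GF.KCover.Compl.RedAut
  Fermat.Agent.GF.KCover.Compl.BridgeTau
open Fermat.Agent.GF.KCover.Node.OrdRedExt Fermat.Agent.GF.KCover.Node.NlNode
open Fermat.Agent.GF.F2Asm.KummerExt Fermat.Agent.GF.F2Asm.Inst Fermat.Agent.GF.KCover
open Fermat.Agent.GF.Peu Fermat.Agent.GF.F2Asm
open Fermat.Agent.GF.KCover.Field.WDataOf Fermat.Agent.GF.KCover.Field.RescaleMod
open Fermat.Agent.GF.KCover.Compl.SheetsMod
open Fermat.Agent.GF.KCover.Int Fermat.Agent.GF.KCover.Int.TameLift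
open Fermat.Agent.GF.KCover.Int.K0Model
open Fermat.Agent.GF.KCover.NodeMod.K0Inst

attribute [local instance] Fermat.Agent.GL.Frame.InstK0.algSubringFullC
attribute [local instance] actFK algE'

local notation "Qb" => AlgebraicClosure ℚ
local notation "GQ" => (AlgebraicClosure ℚ ≃ₐ[ℚ] AlgebraicClosure ℚ)

section AnyLevel

variable {N : ℕ} [NeZero N] {p : ℕ} [hpF : Fact p.Prime] {A : ValuationSubring Qb} {ζ : Qb}
variable (T : TameDatum N p A ζ) {τ : GQ} (hτ : τ ∈ A.inertiaSubgroupIn ℚ)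
  {x : E' T ≃+* E' T}
  (hx : IsOver (x : E' T →+* E' T)
    ((tauF₁ T hτ : F₁ N A ζ ≃+* F₁ N A ζ) : F₁ N A ζ →+* F₁ N A ζ))

/-- **`hrank` and `Module.Finite` from `hintg` and `hRA`** (the binders of the per-node theorems):
`K0Inst.hrank` with `hz` discharged. -/
theorem hrank_of_hintg
    (hgen : ∀ σ ∈ A.inertiaSubgroupIn ℚ, ∃ m : ℕ, IsTameFix A ζ ((τ ^ m)⁻¹ * σ))
    (hAp : (p : Qb) ∈ A.nonunits)
    {V : GalVal N A} (hD : IsDisc (valF₁ T V) (ϖ₁ T))
    {g₀' : F₁ N A ζ} (H₁ : IsAdjoinRoot (E' T) (X ^ p - C g₀' : (F₁ N A ζ)[X]))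
    {γ : Lc hD} (hγ : γ ^ p = jc hD g₀')
    (hxδ : Commute (x : E' T →+* E' T) (deck H₁ (ζ₁_prim T))) (hg₀ : g₀' ≠ 0) {d : ℕ}
    (hd : Nat.Coprime d p) (hxd : (x : E' T →+* E' T) ^ d = 1) (hτd : tauF₁ T hτ ^ d = 1)
    {cz : F₁ N A ζ} (hζc : ζ₁ T = 1 + cz) (hc0 : cz ≠ 0) (hcv : valF₁ T V cz < 1)
    {Z' : E' T} (hZ' : H₁.root = 1 + algebraMap (F₁ N A ζ) (E' T) cz * Z')
    {g1 : F₁ N A ζ} (hg1 : g₀' = 1 + cz ^ p * g1)
    {R : Type*} [CommRing R] [Algebra R (modularFunctionFieldFullC (K0 A) N)]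
    (hRV : ∀ r : R, valF₁ T V
      (embF₁ N A ζ (algebraMap R (modularFunctionFieldFullC (K0 A) N) r)) ≤ 1)
    (hintg : ((embF₁ N A ζ).comp
      (algebraMap R (modularFunctionFieldFullC (K0 A) N))).IsIntegralElem g1)
    (θ₀ : fixedTame x) (hθ₀ : (θ₀ : E' T) = TraceRes.traceTame x d Z') :
    letI := algF₀ T hτ hx
    Module.finrank (modularFunctionFieldFullC (K0 A) N) (fixedTame x) = p ∧
      Module.Finite (modularFunctionFieldFullC (K0 A) N) (fixedTame x) :=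
  K0Inst.hrank T hτ hx hgen hAp hD H₁ hγ hxδ hg₀ hd hxd hτd hζc hc0 hcv hZ'
    (norm_emb_le_one_of_hintg hD H₁ (ζ₁_prim T) hγ
      ((embF₁ N A ζ).comp (algebraMap R (modularFunctionFieldFullC (K0 A) N))) hRV hζc hZ' hg1
      hintg) θ₀ hθ₀

end AnyLevel

section Plug

variable {A : ValuationSubring Qb} {N' : ℕ} [NeZero N'] {p : ℕ} [hpF : Fact p.Prime] [NeZero p]
  (h : ExactDvd p (N' * p)) (hpN : ¬ p ∣ N') (hA : A.LiesOverPrime p)

variable [IsDedekindDomain (CRing N' A)] [IsFractionRing (CRing N' A) (FresBar N' A)]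
variable [IsFractionRing (BRingK0 N' p A h) (modularFunctionFieldFullC (K0 A) (N' * p))]

variable {ζ : Qb} (T : TameDatum (N' * p) p A ζ)

local notation "F0" => modularFunctionFieldFullC (K0 A) (N' * p)

set_option maxHeartbeats 4000000 in
/-- **PLUG-TEST: the modular smooth per-node theorem with the `K₀`-model block discharged**
(`R := locSub F₀ (centreP … (primeL Pl))`, `E := fixedTame x`, `algF₀`, `algR`, `hι₀`, `hrank`,
`hRA` from `NodeMod/K0Inst`).  Remaining inputs: `hgen` (the tame generator generates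
`I_A / I'`), `hintg`, `hρB₁`, `hhor`. -/
theorem nl_node_smooth_K0Inst (h2 : p = 2 → 3 ∣ N') (h3 : p = 3 → 2 ∣ N')
    (hν2 : nuTwo N' = 0) (hν3 : nuThree N' = 0)
    (hD₁ : IsDisc (valF₁ T (galVal1 (N' * p) A)) (ϖ₁ T))
    (hD₂ : IsDisc (valF₁ T (galVal2 (N' * p) A h)) (ϖ₁ T))
    {γ₁ : Pack.Lc hD₁} (hγ₁ : γ₁ ^ p = Pack.jc hD₁ (g₁ T))
    {γ₂ : Pack.Lc hD₂} (hγ₂ : γ₂ ^ p = Pack.jc hD₂ (g₁ T))
    {v g1 : F₁ (N' * p) A ζ} (hv : v ≠ 0) (hrel : 1 + cz T ^ p * g1 = g₁ T * v ^ p)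
    {τ : GQ} (hτ : τ ∈ A.inertiaSubgroupIn ℚ)
    (hgen : ∀ σ ∈ A.inertiaSubgroupIn ℚ, ∃ m : ℕ, IsTameFix A ζ ((τ ^ m)⁻¹ * σ))
    {x : E' T ≃+* E' T}
    (hx : IsOver (x : E' T →+* E' T)
      ((tauF₁ T hτ : F₁ (N' * p) A ζ ≃+* F₁ (N' * p) A ζ) :
        F₁ (N' * p) A ζ →+* F₁ (N' * p) A ζ))
    (hxδ : Commute (x : E' T →+* E' T) (deck (isAdj' T) (ζ₁_prim T)))
    (hxd : x ^ (p - 1) = 1)
    (a : UsInst.Us T →* UsInst.Us T)
    (ha : ∀ u : UsInst.Us T, toE' T (a u : fixedUnits (tameGroup A ζ) T.Fp)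
      = x (toE' T (u : fixedUnits (tameGroup A ζ) T.Fp)))
    (Pl : Place (IsLocalRing.ResidueField A) (FresBar (N' * p) A))
    (hPl : ContainsC hpN hA Pl)
    (hnode : ¬ IsNodeP h hpN hA (primeL hpN hA Pl hPl))
    (hintg : ((embF₁ (N' * p) A ζ).comp
      (algebraMap (locSub F0 (centreP (A := A) h hpN hA (primeL hpN hA Pl hPl))) F0)).IsIntegralElem
        g1)
    (θ₀ : fixedTame x) (hθ₀ : (θ₀ : E' T) = TraceRes.traceTame x (p - 1) (Zas T hv hrel))
    (hρB₁ :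
      letI := algR (R := locSub F0 (centreP (A := A) h hpN hA (primeL hpN hA Pl hPl))) T hτ hx
      ∀ (i : ZMod p) (b : BRingK0 N' p A h)
      (hb : iotaE (E' T).subtype (fixedTame x)
          (algebraMap (locSub F0 (centreP (A := A) h hpN hA (primeL hpN hA Pl hPl)))
            (fixedTame x)
            (algebraMap (BRingK0 N' p A h)
              (locSub F0 (centreP (A := A) h hpN hA (primeL hpN hA Pl hPl))) b)) ∈
        (sheet₁ T hA hD₁ hγ₁ i).Rw),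
      (sheet₁ T hA hD₁ hγ₁ i).red ⟨_, hb⟩ =
        fresInclInv hpN hA (algebraMap (CRing N' A) (FresBar N' A) (redC1K0 h hpN hA b)))
    (hhor :
      letI := algR (R := locSub F0 (centreP (A := A) h hpN hA (primeL hpN hA Pl hPl))) T hτ hx
      ∀ (u : UsInst.Us T) (u₀ : fixedTame x),
      toE' T (u : fixedUnits (tameGroup A ζ) T.Fp) = (u₀ : E' T) →
      ∀ V : ValuationSubring (fixedTame x), IsDiscreteValuationRing V →
      (∀ r : locSub F0 (centreP (A := A) h hpN hA (primeL hpN hA Pl hPl)),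
        algebraMap (locSub F0 (centreP (A := A) h hpN hA (primeL hpN hA Pl hPl)))
          (fixedTame x) r ∈ V) → θ₀ ∈ V →
      (algebraMap (locSub F0 (centreP (A := A) h hpN hA (primeL hpN hA Pl hPl))) (fixedTame x)
        (algebraMap (BRingK0 N' p A h)
          (locSub F0 (centreP (A := A) h hpN hA (primeL hpN hA Pl hPl)))
          (NodeRingK0.ellB h)))⁻¹ ∈ V →
      ∃ z : fixedTame x, z ≠ 0 ∧ u₀ * z ^ p ∈ V ∧ (u₀ * z ^ p)⁻¹ ∈ V)
    (i k₂ : ZMod p) :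
    ∀ y ∈ UsInst.Us T, wOf T hD₁ hγ₁ i y = 0 → wOf T hD₂ hγ₂ k₂ y = 0 →
      (p : ℤ) ∣ nodeOrd (sheet₁ T hA hD₁ hγ₁ i) (unram_sheet₁ T hA hD₁ hγ₁ i) Pl
        (fixedUnits (tameGroup A ζ) T.Fp) y := by
  have hp := hpF.out
  haveI := isNoetherianRing_BRingK0 h hA
  haveI := isIntegrallyClosed_BRingK0 h hA
  haveI := isNoetherianRing_locSub (F := F0) (centreP (A := A) h hpN hA (primeL hpN hA Pl hPl))
  haveI := isIntegrallyClosed_locSub (F := F0) (centreP (A := A) h hpN hA (primeL hpN hA Pl hPl))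
  letI := algF₀ T hτ hx
  letI := algR (R := locSub F0 (centreP (A := A) h hpN hA (primeL hpN hA Pl hPl))) T hτ hx
  haveI := tower_algR (R := locSub F0 (centreP (A := A) h hpN hA (primeL hpN hA Pl hPl))) T hτ hx
  have hRA := K0Inst.hRA h hpN hA (centreP (A := A) h hpN hA (primeL hpN hA Pl hPl)) T
    (ker_redC1K0_le_centreP h hpN hA (primeL hpN hA Pl hPl))
  have hcop : Nat.Coprime (p - 1) p := by
    rw [Nat.coprime_comm, hp.coprime_iff_not_dvd]
    intro hdvd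
    have := Nat.le_of_dvd (by have := hp.one_lt; omega) hdvd
    have := hp.one_lt
    omega
  have hg₀ : (1 + cz T ^ p * g1 : F₁ (N' * p) A ζ) ≠ 0 := by
    rw [hrel]
    exact mul_ne_zero (g₁_ne_zero T) (pow_ne_zero _ hv)
  have hxd' : (x : E' T →+* E' T) ^ (p - 1) = 1 := by
    rw [NlNodeSmoothMod.ringEquiv_coe_pow, hxd]
    rfl
  have hxδ' : Commute (x : E' T →+* E' T) (deck (frameAS T hv hrel) (ζ₁_prim T)) := by
    rw [deck_frameAS]
    exact hxδ
  obtain ⟨hrank, hfin⟩ := hrank_of_hintg T hτ hx hgen hA hD₁ (frameAS T hv hrel)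
    (rootAS_pow T hrel hD₁ hγ₁) hxδ' hg₀ hcop hxd' (tauF₁_pow T hτ) (ζ₁_eq T) (cz_ne_zero T)
    (valF₁_cz_lt_one T hA _) (frameAS_root_eq T hv hrel) rfl hRA hintg θ₀ hθ₀
  haveI : FiniteDimensional F0 (fixedTame x) := hfin
  exact NlNodeSmoothMod.nl_node_smooth_mod h hpN hA T h2 h3 hν2 hν3 hD₁ hD₂ hγ₁ hγ₂ hv hrel hτ hx hxδ
    hxd a ha Pl hPl hnode (fun b => rfl) hrank hintg θ₀ hθ₀ hRA hρB₁ hhor i k₂

end Plug

end Mod

end Fermat.Agent.GF.KCover.NodeMod.K0InstPlug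

end
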