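/-
GATE-F (S44) / GF-KCOVER-INST, node side (L-c), stage 2, SMOOTH variant (helper62, second seat of
helper42; helper13 6997): **the per-node theorem `NL on Us` at a SMOOTH point of the finite chart
`BRingK0 N' ℓ A h`** — `NlNodeSheets.nl_node_of_nl0 ∘ NodeK0CallSplit.nl0_at_smooth`.

Abstract Kummer frame of `NlNodeSheets.nl_node_sheets` (helper42) VERBATIM, first Gauss reduction
`Ra : RedData K F (ResidueField A) (FresBar (N' * ℓ) A)`; the downstairs block is the modular one of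
helper75's `NodeK0CallSplit.nl0_at_smooth` (`h2 h3 hν2 hν3 Pl hPl`, `hnode : ¬ IsNodeP …`,
`R = B_𝔫` with `𝔫 = centreP … (primeL … Pl hPl)`).  Only the BRANCH-1 binders remain
(`hFA hcA hpA hRA hzA a₁ hZA hρB₁`): no `a₂`, no `hmeet`, and the hypothesis `w2 y = 0` is ignored.

* `nl_node_smooth` : `∀ y ∈ Us, w1 y = 0 → w2 y = 0 → p ∣ nodeOrd (sheetK Ra … k₁) … Pl G y`
  (the hypothesis `w2 y = 0` is carried for the shape of the `NL` clause of `F2PlugK.NLSupplyK` but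
  NOT used by the NL0 engine): twin of `NlNodeSheets.nl_node_sheets`, frame / tame / group /
  fixed-field / AS blocks VERBATIM — any modular instantiation written for `nl_node_sheets`
  applies to it with the branch-2 and `hmeet` arguments deleted.
-/
import Fermat.Agent.GF.KCover.Node.NlNodeSheets
import Fermat.Agent.GF.KCover.NodeMod.NodeK0CallSplit

set_option autoImplicit false
set_option linter.unusedSectionVars false
set_option linter.unusedVariables false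
set_option linter.style.haveILetI false

noncomputable section

open Polynomial AlgebraicCurve

namespace Fermat.Agent.GF.KCover.NodeMod.NlNodeSmooth

open ModularCurve IsLocalRing IsDedekindDomain
open Fermat.Agent.GJ.KumGroup Fermat.Agent.GJ.J1 Fermat.Agent.GJ.J1.Val
open Fermat.Agent.GK.AL Fermat.Agent.GL.AL Fermat.Agent.GK.QS
open Fermat.Agent.Common_helper32
open Fermat.Agent.S24 Fermat.Agent.GF.Trop
open Fermat.Agent.GL.BRingK0 Fermat.Agent.GL.BRingChart Fermat.Agent.GL.Thick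
open Fermat.Agent.GF.KCover.Field Fermat.Agent.GF.KCover.Field.Disc
  Fermat.Agent.GF.KCover.Field.Pack
open Fermat.Agent.GF.KCover.Compl Fermat.Agent.GF.KCover.Compl.Bridge
  Fermat.Agent.GF.KCover.Compl.RedCompl Fermat.Agent.GF.KCover.Compl.RedAut
  Fermat.Agent.GF.KCover.Compl.BridgeTau
open Fermat.Agent.GF.KCover.Node.OrdRedExt Fermat.Agent.GF.KCover.Node
  Fermat.Agent.GF.KCover.Node.NlNode Fermat.Agent.GF.KCover.Node.NlNodeSheets
open Fermat.Agent.GF.KCover.Node.NodeRingK0Pkg Fermat.Agent.GF.KCover.Node.NodeRingK0Level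
open Fermat.Agent.GF.KCover.Node.NLOrdRed

attribute [local instance] Fermat.Agent.GL.Frame.InstK0.algSubringFullC

section Smooth

variable {A : ValuationSubring Qb} {N' : ℕ} [NeZero N'] {ℓ : ℕ} [Fact ℓ.Prime] [NeZero ℓ]
  (h : ExactDvd ℓ (N' * ℓ)) (hℓN : ¬ ℓ ∣ N') (hA' : A.LiesOverPrime ℓ)

variable [IsDedekindDomain (CRing N' A)] [IsFractionRing (CRing N' A) (FresBar N' A)]

variable {K F Ft₂ : Type*} [Field K] [Field F] [Algebra K F] [Field Ft₂]
  [Algebra (IsLocalRing.ResidueField A) Ft₂]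
variable (Ra : RedData K F (IsLocalRing.ResidueField A) (FresBar (N' * ℓ) A))
  (Rb : RedData K F (IsLocalRing.ResidueField A) Ft₂)
variable {F' : Type*} [Field F'] [Algebra K F'] [Algebra F F'] [IsScalarTower K F F']
variable {E₁ : Type*} [Field E₁] {ϖ : E₁}
  {va : Valuation E₁ (ValuationSubring.ValueGroup Ra.Rw)}
  {vb : Valuation E₁ (ValuationSubring.ValueGroup Rb.Rw)}
variable (incl : E₁ →+* F) (hincA : ∀ a : E₁, Ra.Rw.valuation (incl a) = va a)
  (hincB : ∀ a : E₁, Rb.Rw.valuation (incl a) = vb a)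
variable (hA : IsDisc va ϖ) (hB : IsDisc vb ϖ)
variable (harchA : ∀ γ : ValuationSubring.ValueGroup Ra.Rw, γ ≠ 0 → ∃ n : ℕ, va ϖ ^ n < γ)
  (harchB : ∀ γ : ValuationSubring.ValueGroup Rb.Rw, γ ≠ 0 → ∃ n : ℕ, vb ϖ ^ n < γ)
variable {E' : Type*} [Field E'] [Algebra E₁ E'] {p : ℕ} [NeZero p] [Fact p.Prime] {g₀ : E₁}
  (H₁ : IsAdjoinRoot E' (X ^ p - C g₀ : E₁[X])) {ζ : E₁} (hζ : IsPrimitiveRoot ζ p)
  {γa : Lc hA} (hγa : γa ^ p = jc hA g₀) {γb : Lc hB} (hγb : γb ^ p = jc hB g₀)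
  (H : IsAdjoinRoot F' (X ^ p - C (incl g₀) : F[X]))
  (incl' : E' →+* F')
  (hincl' : ∀ a : E₁, incl' (algebraMap E₁ E' a) = algebraMap F F' (incl a))
  (hroot : incl' H₁.root = H.root)

variable {R F₀ : Type*} [CommRing R] [IsDomain R] [IsIntegrallyClosed R] [IsNoetherianRing R]
  [Field F₀] [Algebra R F₀] [IsFractionRing R F₀]

include hincl' hroot hincB harchB in
set_option maxHeartbeats 4000000 in
/-- **The per-node theorem at a SMOOTH point of the finite chart**: branch 1 only, `w2` ignored. -/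
theorem nl_node_smooth (hunA : Unram Ra)
    -- the tame generator
    (τ : E₁ ≃+* E₁) (hτA : ∀ a, va (τ a) = va a) (hτB : ∀ a, vb (τ a) = vb a)
    (σ : F ≃+* F) (hσA : ∀ y : F, Ra.Rw.valuation (σ y) = Ra.Rw.valuation y)
    (hσK : ∀ c : K, ∃ c' : K, σ (algebraMap K F c) = algebraMap K F c')
    (hresA : ∀ (a : F) (ha : a ∈ Ra.Rw), Ra.red ⟨σ a, map_mem_Rw Ra σ hσA ha⟩ = Ra.red ⟨a, ha⟩)
    (hcomm : ∀ a : E₁, incl (τ a) = σ (incl a))
    {x : E' ≃+* E'} (hx : IsOver (x : E' →+* E') (τ : E₁ →+* E₁))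
    (hxδ : Commute (x : E' →+* E') (deck H₁ hζ)) (hg₀ : g₀ ≠ 0) {d : ℕ}
    (hd : Nat.Coprime d p) (hxd : (x : E' →+* E') ^ d = 1) (hτd : τ ^ d = 1)
    (hFA : ∀ b : E₁, va b ≤ 1 → ∃ a : E₁, τ a = a ∧ va (b - a) < 1)
    -- the fixed field and its `K0`-model
    (E : Subfield E') (hE : ∀ y, y ∈ E ↔ x y = y)
    [Algebra F₀ E] [Algebra R E] [IsScalarTower R F₀ E] [FiniteDimensional F₀ E]
    (ι₀ : F₀ →+* E₁)
    (hι₀ : ∀ a : F₀, ((algebraMap F₀ E a : E) : E') = algebraMap E₁ E' (ι₀ a))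
    (hrank : Module.finrank F₀ E = p)
    -- the group
    (G : Subgroup F'ˣ) (Us : Subgroup G) (a : Us →* Us) (toE : G → E')
    (htoE : ∀ y : G, incl' (toE y) = ((y : F'ˣ) : F'))
    (hmul : ∀ y z : G, toE (y * z) = toE y * toE z)
    (ha : ∀ u : Us, toE ((a u : Us) : G) = x (toE (u : G)))
    (k₁ k₂ : ZMod p) (w1 w2 : G → ℤ)
    (hw1 : ∀ y : G, w1 y = wv hA H₁ hζ hγa k₁ (toE y))
    (hw2 : ∀ y : G, w2 y = wv hB H₁ hζ hγb k₂ (toE y))
    -- the downstairs block (`NodeK0CallSplit.nl0_at_smooth`)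
    (h2 : ℓ = 2 → 3 ∣ N') (h3 : ℓ = 3 → 2 ∣ N')
    (hν2 : nuTwo N' = 0) (hν3 : nuThree N' = 0)
    (Pl : Place (IsLocalRing.ResidueField A) (FresBar (N' * ℓ) A))
    (hPl : ContainsC hℓN hA' Pl)
    (hnode : ¬ IsNodeP h hℓN hA' (primeL hℓN hA' Pl hPl))
    [Algebra (BRingK0 N' ℓ A h) R]
    [IsLocalization.AtPrime R (centreP (A := A) h hℓN hA' (primeL hℓN hA' Pl hPl))]
    -- the Artin–Schreier generator and the tame trace
    {cz : E₁} (hζc : ζ = 1 + cz) (hc0 : cz ≠ 0) (hcA : va cz < 1)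
    {Z' : E'} (hZ' : H₁.root = 1 + algebraMap E₁ E' cz * Z')
    (θ₀ : E) (hθ₀ : (θ₀ : E') = TraceRes.traceTame x d Z') (hint : IsIntegral R θ₀)
    (hpA : va ((p : ℕ) : E₁) < 1)
    (hRA : ∀ r : R, va (ι₀ (algebraMap R F₀ r)) ≤ 1)
    -- the residue of `Z'` on the sheet `0` of branch 1
    (hzA : ‖emb H₁ hζ (jc hA) hγa 0 Z'‖ ≤ 1) (a₁ : R)
    (hZA : ‖emb H₁ hζ (jc hA) hγa 0 Z' - jc hA (ι₀ (algebraMap R F₀ a₁))‖ < 1)
    (hρB₁ : ∀ (b : BRingK0 N' ℓ A h)
      (hb : iotaE incl' E (algebraMap R E (algebraMap (BRingK0 N' ℓ A h) R b)) ∈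
        (sheetK Ra incl hincA hA harchA hζ hγa H k₁).Rw),
      (sheetK Ra incl hincA hA harchA hζ hγa H k₁).red ⟨_, hb⟩ =
        fresInclInv hℓN hA' (algebraMap (CRing N' A) (FresBar N' A) (redC1K0 h hℓN hA' b)))
    -- horizontal primes: on the `x`-fixed elements of `Us`
    (hhor : ∀ (u : Us) (u₀ : E), toE (u : G) = (u₀ : E') →
      ∀ V : ValuationSubring E, IsDiscreteValuationRing V →
      (∀ r : R, algebraMap R E r ∈ V) → θ₀ ∈ V →
      (algebraMap R E (algebraMap (BRingK0 N' ℓ A h) R (NodeRingK0.ellB h)))⁻¹ ∈ V →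
      ∃ z : E, z ≠ 0 ∧ u₀ * z ^ p ∈ V ∧ (u₀ * z ^ p)⁻¹ ∈ V)
    (y : G) (hy : y ∈ Us) (hy1 : w1 y = 0) (hy2 : w2 y = 0) :
    (p : ℤ) ∣ nodeOrd (sheetK Ra incl hincA hA harchA hζ hγa H k₁)
      (unram_sheetK Ra incl hincA hA harchA hζ hγa H hunA k₁) Pl G y := by
  have hpp : p.Prime := Fact.out
  have hd' : ¬ p ∣ d := fun hdvd => by
    have h1 : p ∣ Nat.gcd d p := Nat.dvd_gcd hdvd dvd_rfl
    rw [hd] at h1
    exact hpp.one_lt.ne' (Nat.dvd_one.1 h1)
  refine nl_node_of_nl0 Ra Rb incl hincA hincB hA hB harchA harchB H₁ hζ hγa hγb H incl' hincl'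
    hroot hunA τ hτA hτB σ hσA hσK hresA hcomm hx hxδ hg₀ hd hxd hτd E hE G Us a toE htoE hmul ha
    k₁ k₂ w1 w2 hw1 hw2 Pl ?_ y hy hy1 hy2
  intro u u₀ htu hu₀ hU1 _
  have heι : ∀ a : F₀, iotaE incl' E (algebraMap F₀ E a) = algebraMap F F' (incl (ι₀ a)) := by
    intro a
    rw [iotaE_apply, hι₀, hincl']
  have hθι : iotaE incl' E θ₀ = incl' (TraceRes.traceTame x d Z') := by
    rw [iotaE_apply, hθ₀]
  exact NodeK0CallSplit.nl0_at_smooth (K0 := E) (F₀ := F₀) h hℓN hA' h2 h3 hν2 hν3 Pl hPl hnode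
    hrank (iotaE incl' E)
    (sheetK Ra incl hincA hA harchA hζ hγa H k₁)
    (unram_sheetK Ra incl hincA hA harchA hζ hγa H hunA k₁) θ₀ hint hd'
    (RwL Ra) ((j Ra.Rw.valuation).comp (incl.comp ι₀))
    (fun i => embV hA Ra.Rw.valuation incl hincA harchA hζ hγa H i)
    (fun i a => by
      rw [heι, embV_algebraMap]
      rfl)
    (fun r => by
      show j Ra.Rw.valuation (incl (ι₀ (algebraMap R F₀ r))) ∈ RwL Ra
      rw [mem_RwL, val_j, hincA]
      exact hRA r)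
    (by
      rw [mem_RwL_nonunits]
      have e : ((p : ℕ) : LR Ra) = j Ra.Rw.valuation (incl ((p : ℕ) : E₁)) := by
        rw [map_natCast, map_natCast]
      rw [e, val_j, hincA]
      exact hpA)
    k₁ (mem_sheetK_Rw Ra incl hincA hA harchA hζ hγa H k₁) a₁
    (fun i => by
      rw [hθι]
      rw [mem_RwL_nonunits]
      exact hres_sheetK hA Ra.Rw.valuation incl hincA harchA H₁ hζ hγa H incl' hincl' hroot τ hτA
        hx hxδ hg₀ hd hxd hτd hFA hζc hc0 hcA hZ' hzA (ι₀.comp (algebraMap R F₀)) a₁ hZA i)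
    hρB₁ p u₀ hu₀ hU1 (hhor u u₀ htu)

end Smooth

end Fermat.Agent.GF.KCover.NodeMod.NlNodeSmooth

end
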