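/-
GATE-F (S44) / GF-KCOVER-INST, node side (L-c), stage 2 (helper42, second seat of helper62 on
`nlAll_of_hyps`; helper13 RULING-9 §5): **helper75's modular per-point theorem `nl_point_mod` with
the whole `K₀`-MODEL BLOCK PLUGGED**:

* `R := locSub F₀ 𝔫`, `𝔫 := centreP … (primeL … Pl hPl)` (`B := BRingK0 N' p A h`), the instances
  `[IsNoetherianRing R] [IsIntegrallyClosed R]` from helper56's `K0Inst`, the global
  `KrullHeightOne` instances for the rest;
* `Algebra F₀ (fixedTame x) := K0Inst.algF₀`, `Algebra R (fixedTame x) := K0Inst.algR`,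
  `K0Inst.tower_algR`, `hι₀` (`rfl`), `hrank` / `FiniteDimensional` := `K0Inst.hrank` at helper3's
  Artin–Schreier frame `frameAS T hv hrel`;
* `θ₀ := ⟨traceTame x (p − 1) (Zas T hv hrel), _⟩`;
* `hRA` / `hRB` := `K0Inst.hRA` / `K0Inst.hRB` (`ker_redC_iK0_le_centreP`);
* `hρB₁` / `hρB₂` := helper45's `SheetDataMod.hρB_i_sheetK` at the `T`-frame (`sheet_i` by `rfl`);
* `hhor` := helper57's `HhorK0Inst.hhor_locSub`.

`hz` of `K0Inst.hrank` is discharged by helper56 `K0InstPlug.hrank_of_hintg`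
(abstract frame), from the integrality of `g₁` over `R` (`hintg`) — `ResLift.isIntegralElem_of_kummer_as`
+ `SheetIdxBridge.emb_mem_of_isIntegralElem` on the unit ball of the completion.

What is left = the Artin–Schreier relation `(v, g1, hrel)`, the three facts on `g1` (`hintg`,
`hg1A`, `hg1B`: from `ASK` / `KrullData` AFTER the place) and the tame generator block
(`τ hτ hgen x hx hxδ hxd a ha` = the output of `TameUs.exists_tame_action` + a generator of
`I_A / I'`).  Conclusion = `nl_point_mod`'s VERBATIM.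
-/
import Fermat.Agent.GF.KCover.NodeMod.NlPointMod
import Fermat.Agent.GF.KCover.NodeMod.K0Inst
import Fermat.Agent.GF.KCover.NodeMod.K0InstPlug
import Fermat.Agent.GF.KCover.NodeMod.HhorK0Inst
import Fermat.Agent.GF.KCover.NodeMod.SheetDataMod

set_option autoImplicit false
set_option linter.unusedSectionVars false
set_option linter.unusedVariables false
set_option linter.style.haveILetI false

noncomputable section

open Polynomial AlgebraicCurve

namespace Fermat.Agent.GF.KCover.NodeMod.NlPointK0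

open ModularCurve IsLocalRing IsDedekindDomain
open Fermat.Agent.GL.KrullHeightOne
open Fermat.Agent.GL.Val.GaussK0 Fermat.Agent.GL.Val.SecondK0
open Fermat.Agent.GJ.KumGroup Fermat.Agent.GJ.J1 Fermat.Agent.GJ.J1.Val
open Fermat.Agent.GK.AL Fermat.Agent.GL.AL Fermat.Agent.GK.QS Fermat.Agent.GK.SS
open Fermat.Agent.Common_helper32
open Fermat.Agent.S24 Fermat.Agent.S24_helper6
open Fermat.Agent.GF.Trop
open Fermat.Agent.GL.BRingK0 Fermat.Agent.GL.BRingChart Fermat.Agent.GL.Thick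
open Fermat.Agent.GF.KCover.Node Fermat.Agent.GF.KCover.Node.NodeRingK0Pkg
open Fermat.Agent.GF.KCover.Node.NodeRingK0Level
open Fermat.Agent.GF.KCover.Field Fermat.Agent.GF.KCover.Field.Disc
  Fermat.Agent.GF.KCover.Field.Pack
open Fermat.Agent.GF.KCover.Compl Fermat.Agent.GF.KCover.Compl.Bridge
  Fermat.Agent.GF.KCover.Compl.RedCompl Fermat.Agent.GF.KCover.Compl.RedAut
  Fermat.Agent.GF.KCover.Compl.BridgeTau
open Fermat.Agent.GF.KCover.Node.OrdRedExt
  Fermat.Agent.GF.KCover.Node.NlNode Fermat.Agent.GF.KCover.Node.NlNodeSheets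

attribute [local instance] Fermat.Agent.GL.Frame.InstK0.algSubringFullC

local notation "Qb" => AlgebraicClosure ℚ
local notation "GQ" => (AlgebraicClosure ℚ ≃ₐ[ℚ] AlgebraicClosure ℚ)

/-! ### the per-point theorem with the `K₀`-model block plugged -/

open Fermat.Agent.GF.F2Asm.KummerExt Fermat.Agent.GF.F2Asm.Inst Fermat.Agent.GF.KCover
open Fermat.Agent.GF.Peu Fermat.Agent.GF.F2Asm
open Fermat.Agent.GF.KCover.Field.WDataOf Fermat.Agent.GF.KCover.Field.RescaleMod
open Fermat.Agent.GF.KCover.Compl.SheetsMod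
open Fermat.Agent.GF.KCover.Int Fermat.Agent.GF.KCover.Int.TameLift
open Fermat.Agent.GF.KCover.Int.K0Model

attribute [local instance] actFK algE'

variable {A : ValuationSubring Qb} {N' : ℕ} [NeZero N'] {p : ℕ} [hpF : Fact p.Prime] [NeZero p]
  (h : ExactDvd p (N' * p)) (hpN : ¬ p ∣ N') (hA : A.LiesOverPrime p)

variable [IsDedekindDomain (CRing N' A)] [IsFractionRing (CRing N' A) (FresBar N' A)]
variable [IsFractionRing (BRingK0 N' p A h) (modularFunctionFieldFullC (K0 A) (N' * p))]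

variable {ζ : Qb} (T : TameDatum (N' * p) p A ζ)

local notation "F0" => modularFunctionFieldFullC (K0 A) (N' * p)

set_option maxHeartbeats 8000000 in
/-- **The modular per-point theorem at ANY point of the finite chart, `K₀`-model block plugged.** -/
theorem nl_point_K0 (h2 : p = 2 → 3 ∣ N') (h3 : p = 3 → 2 ∣ N')
    (hν2 : nuTwo N' = 0) (hν3 : nuThree N' = 0)
    -- the two Gauss valuations of the cover frame
    (hD₁ : IsDisc (valF₁ T (galVal1 (N' * p) A)) (ϖ₁ T))
    (hD₂ : IsDisc (valF₁ T (galVal2 (N' * p) A h)) (ϖ₁ T))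
    {γ₁ : Pack.Lc hD₁} (hγ₁ : γ₁ ^ p = Pack.jc hD₁ (g₁ T))
    {γ₂ : Pack.Lc hD₂} (hγ₂ : γ₂ ^ p = Pack.jc hD₂ (g₁ T))
    -- the Artin–Schreier form of the cover
    {v g1 : F₁ (N' * p) A ζ} (hv : v ≠ 0) (hrel : 1 + cz T ^ p * g1 = g₁ T * v ^ p)
    (hg1A : valF₁ T (galVal1 (N' * p) A) g1 ≤ 1) (hg1B : valF₁ T (galVal2 (N' * p) A h) g1 ≤ 1)
    -- the tame generator (= the output of `TameUs.exists_tame_action`)
    {τ : GQ} (hτ : τ ∈ A.inertiaSubgroupIn ℚ)
    (hgen : ∀ σ ∈ A.inertiaSubgroupIn ℚ, ∃ m : ℕ, IsTameFix A ζ ((τ ^ m)⁻¹ * σ))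
    {x : E' T ≃+* E' T}
    (hx : IsOver (x : E' T →+* E' T)
      ((tauF₁ T hτ : F₁ (N' * p) A ζ ≃+* F₁ (N' * p) A ζ) :
        F₁ (N' * p) A ζ →+* F₁ (N' * p) A ζ))
    (hxδ : Commute (x : E' T →+* E' T) (deck (isAdj' T) (ζ₁_prim T)))
    (hxd : x ^ (p - 1) = 1)
    (a : UsInst.Us T →* UsInst.Us T)
    (ha : ∀ u : UsInst.Us T, toE' T (a u : fixedUnits (tameGroup A ζ) T.Fp)
      = x (toE' T (u : fixedUnits (tameGroup A ζ) T.Fp)))
    -- the place
    (Pl : Place (IsLocalRing.ResidueField A) (FresBar (N' * p) A))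
    (hPl : ContainsC hpN hA Pl)
    -- `g1` is integral over the local ring of the chart at the centre of `Pl`
    (hintg : ((embF₁ (N' * p) A ζ).comp
      (algebraMap (locSub F0 (centreP (A := A) h hpN hA (primeL hpN hA Pl hPl))) F0)).IsIntegralElem
        g1) :
    ∃ c : ZMod p, ∀ k : ZMod p, ∀ y ∈ UsInst.Us T,
      wOf T hD₁ hγ₁ k y = 0 → wOf T hD₂ hγ₂ (k + c) y = 0 →
      (p : ℤ) ∣ nodeOrd (sheet₁ T hA hD₁ hγ₁ k) (unram_sheet₁ T hA hD₁ hγ₁ k) Pl
        (fixedUnits (tameGroup A ζ) T.Fp) y := by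
  have hp := hpF.out
  haveI := isNoetherianRing_BRingK0 h hA
  haveI := isIntegrallyClosed_BRingK0 h hA
  haveI := K0Inst.isNoetherianRing_locSub (F := F0)
    (centreP (A := A) h hpN hA (primeL hpN hA Pl hPl))
  haveI := K0Inst.isIntegrallyClosed_locSub (F := F0)
    (centreP (A := A) h hpN hA (primeL hpN hA Pl hPl))
  letI := K0Inst.algF₀ T hτ hx
  letI := K0Inst.algR (R := locSub F0 (centreP (A := A) h hpN hA (primeL hpN hA Pl hPl))) T hτ hx
  haveI := K0Inst.tower_algR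
    (R := locSub F0 (centreP (A := A) h hpN hA (primeL hpN hA Pl hPl))) T hτ hx
  have hRA := K0Inst.hRA h hpN hA (centreP (A := A) h hpN hA (primeL hpN hA Pl hPl)) T
    (ker_redC1K0_le_centreP h hpN hA (primeL hpN hA Pl hPl))
  have hRB : IsNodeP h hpN hA (primeL hpN hA Pl hPl) →
      ∀ r : locSub F0 (centreP (A := A) h hpN hA (primeL hpN hA Pl hPl)),
      valF₁ T (galVal2 (N' * p) A h) (embF₁ (N' * p) A ζ
        (algebraMap (locSub F0 (centreP (A := A) h hpN hA (primeL hpN hA Pl hPl))) F0 r)) ≤ 1 :=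
    fun hnode => K0Inst.hRB h hpN hA (centreP (A := A) h hpN hA (primeL hpN hA Pl hPl)) T
      (ker_redC2K0_le_centreP h hpN hA (primeL hpN hA Pl hPl) hnode)
  have hcop : Nat.Coprime (p - 1) p := by
    rw [Nat.coprime_comm, hp.coprime_iff_not_dvd]
    intro hdvd
    have := Nat.le_of_dvd (by have := hp.one_lt; omega) hdvd
    have := hp.one_lt
    omega
  have hg₀ : (1 + cz T ^ p * g1 : F₁ (N' * p) A ζ) ≠ 0 := by
    rw [hrel]
    exact mul_ne_zero (g₁_ne_zero T) (pow_ne_zero _ hv)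
  have hxd' : (x : E' T →+* E' T) ^ (p - 1) = 1 := by
    rw [NlNodeSmoothMod.ringEquiv_coe_pow, hxd]
    rfl
  have hxδ' : Commute (x : E' T →+* E' T) (deck (frameAS T hv hrel) (ζ₁_prim T)) := by
    rw [deck_frameAS]
    exact hxδ
  -- the tame trace
  have hθmem : TraceRes.traceTame x (p - 1) (Zas T hv hrel) ∈ fixedTame x :=
    TraceRes.traceTame_mem_fixedTame hxd _
  obtain ⟨hrank, hfin⟩ := K0InstPlug.hrank_of_hintg T hτ hx hgen hA hD₁ (frameAS T hv hrel)
    (rootAS_pow T hrel hD₁ hγ₁) hxδ' hg₀ hcop hxd' (tauF₁_pow T hτ) (ζ₁_eq T) (cz_ne_zero T)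
    (valF₁_cz_lt_one T hA _) (frameAS_root_eq T hv hrel) rfl hRA hintg
    ⟨TraceRes.traceTame x (p - 1) (Zas T hv hrel), hθmem⟩ rfl
  haveI : FiniteDimensional F0 (fixedTame x) := hfin
  -- the composite `B → R → K0 → E' T → T.Fp` is `mapK0Bar`
  have hι' : ∀ b : BRingK0 N' p A h,
      iotaE (E' T).subtype (fixedTame x)
        (algebraMap (locSub F0 (centreP (A := A) h hpN hA (primeL hpN hA Pl hPl))) (fixedTame x)
          (algebraMap (BRingK0 N' p A h)
            (locSub F0 (centreP (A := A) h hpN hA (primeL hpN hA Pl hPl))) b)) =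
        algebraMap (FK (N' * p)) T.Fp (mapK0Bar A (N' * p) (b : F0)) := fun b => rfl
  have hρ₁ : ∀ (i : ZMod p) (b : BRingK0 N' p A h)
      (hb : iotaE (E' T).subtype (fixedTame x)
          (algebraMap (locSub F0 (centreP (A := A) h hpN hA (primeL hpN hA Pl hPl))) (fixedTame x)
            (algebraMap (BRingK0 N' p A h)
              (locSub F0 (centreP (A := A) h hpN hA (primeL hpN hA Pl hPl))) b)) ∈
        (sheet₁ T hA hD₁ hγ₁ i).Rw),
      (sheet₁ T hA hD₁ hγ₁ i).red ⟨_, hb⟩ =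
        fresInclInv hpN hA (algebraMap (CRing N' A) (FresBar N' A) (redC1K0 h hpN hA b)) :=
    fun i b hb => SheetDataMod.hρB₁_sheetK h hpN hA (F₁ (N' * p) A ζ).subtype (hincl₁ T) hD₁
      (harch₁ T hA) (ζ₁_prim T) hγ₁ (isAdjS T) (E' T).subtype (fixedTame x) hι' i b hb
  have hρ₂ : IsNodeP h hpN hA (primeL hpN hA Pl hPl) →
      ∀ (i : ZMod p) (b : BRingK0 N' p A h)
      (hb : iotaE (E' T).subtype (fixedTame x)
          (algebraMap (locSub F0 (centreP (A := A) h hpN hA (primeL hpN hA Pl hPl))) (fixedTame x)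
            (algebraMap (BRingK0 N' p A h)
              (locSub F0 (centreP (A := A) h hpN hA (primeL hpN hA Pl hPl))) b)) ∈
        (sheet₂ T h hA hD₂ hγ₂ i).Rw),
      (sheet₂ T h hA hD₂ hγ₂ i).red ⟨_, hb⟩ =
        fresInclInv hpN hA (algebraMap (CRing N' A) (FresBar N' A) (redC2K0 h hpN hA b)) :=
    fun _ i b hb => SheetDataMod.hρB₂_sheetK h hpN hA (F₁ (N' * p) A ζ).subtype (hincl₂ T h) hD₂
      (harch₂ T h hA) (ζ₁_prim T) hγ₂ (isAdjS T) (E' T).subtype (fixedTame x) hι' i b hb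
  have hhor := HhorK0Inst.hhor_locSub h T hτ hx
    (centreP (A := A) h hpN hA (primeL hpN hA Pl hPl)) hA hgen hrank
    ⟨TraceRes.traceTame x (p - 1) (Zas T hv hrel), hθmem⟩
  exact NlPointMod.nl_point_mod h hpN hA T h2 h3 hν2 hν3 hD₁ hD₂ hγ₁ hγ₂ hv hrel hg1A hg1B hτ hgen hx
    hxδ hxd a ha Pl hPl (fun b => rfl) hrank hintg
    ⟨TraceRes.traceTame x (p - 1) (Zas T hv hrel), hθmem⟩ rfl hRA hRB hρ₁ hρ₂ hhor

end Fermat.Agent.GF.KCover.NodeMod.NlPointK0

end
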