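/-
GATE-F (S44) / GF-KCOVER-INST, node side, stage 2 (helper75): **NL0 at a point of the finite chart
`BRingK0 N' ℓ A h`, node OR smooth point** — the modular call of `SheetAsm.nl0_of_sheets` /
`SheetAsm.nl0_of_sheets_typeI` (helper84) with the whole DOWNSTAIRS block
(`𝔫 rd_i hrd_i 𝔫'_i h𝔫_i h0_i y_i l s c hy_i hy_i0 hgen_i hs hc hth`) and `hvE` discharged by
`NodeRingK0Level` (thickness one), `E₁ = E₂ := CRing N' A`, `Ft = Ft₂ := FresBar (N' * ℓ) A`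
(`algCFres`), `l := NodeRingK0.ellB h`.

The point is a place `Pl` of `F̃_{N'ℓ}` at which `j~` is regular (`ContainsC hℓN hA Pl`).  No
"`Pl` is a node" hypothesis: `by_cases` on `IsNodeP`, the smooth case uses branch 1 only.

* `nl0_at_point` : all cover-side binders of `nl0_of_sheets` VERBATIM; `hρB_i` in the instance-free
  spelling `R_i.red ⟨ι' b, _⟩ = fresInclInv (redC_iK0 b)` (`= algebraMap` for `algCFres`, by `rfl`).
-/
import Fermat.Agent.GF.KCover.Node.NodeRingK0Level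
import Fermat.Agent.GF.KCover.Node.SheetAsm

set_option autoImplicit false
set_option linter.unusedSectionVars false
set_option linter.unusedVariables false
set_option linter.style.haveILetI false

noncomputable section

namespace Fermat.Agent.GF.KCover.NodeMod.NodeK0Call

open ModularCurve IsLocalRing AlgebraicCurve IsDedekindDomain
open Fermat.Agent.GL.Val.GaussK0 Fermat.Agent.GL.Val.SecondK0
open Fermat.Agent.GJ.KumGroup Fermat.Agent.GJ.J1 Fermat.Agent.GJ.J1.Val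
open Fermat.Agent.GK.AL Fermat.Agent.GL.AL Fermat.Agent.GK.QS
open Fermat.Agent.Common_helper32
open Fermat.Agent.S24 Fermat.Agent.S24_helper6
open Fermat.Agent.GF.Trop
open Fermat.Agent.GL.BRingK0 Fermat.Agent.GL.BRingChart Fermat.Agent.GL.Thick
open Fermat.Agent.GF.KCover.Node Fermat.Agent.GF.KCover.Node.NodeRingK0Pkg
open Fermat.Agent.GF.KCover.Node.NodeRingK0Level
open Fermat.Agent.GF.KCover.Node.NLOrdRed

attribute [local instance] Fermat.Agent.GL.Frame.InstK0.algSubringFullC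

variable {A : ValuationSubring Qb} {N' : ℕ} [NeZero N'] {ℓ : ℕ} [Fact ℓ.Prime] [NeZero ℓ]
  (h : ExactDvd ℓ (N' * ℓ)) (hℓN : ¬ ℓ ∣ N') (hA : A.LiesOverPrime ℓ)

variable [IsDedekindDomain (CRing N' A)] [IsFractionRing (CRing N' A) (FresBar N' A)]

variable {Kc F' : Type*} [Field Kc] [Field F'] [Algebra Kc F']

variable {R F₀ K0 : Type*} [CommRing R] [IsDomain R] [IsIntegrallyClosed R] [IsNoetherianRing R]
  [Field F₀] [Algebra R F₀] [IsFractionRing R F₀] [Field K0] [Algebra F₀ K0] [Algebra R K0]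
  [IsScalarTower R F₀ K0] [FiniteDimensional F₀ K0]

variable {L₁ L₂ : Type*} [Field L₁] [Field L₂] {p : ℕ} [Fact p.Prime]

set_option maxHeartbeats 4000000 in
/-- **NL0 at a point of the finite chart** (node or smooth point). -/
theorem nl0_at_point (h2 : ℓ = 2 → 3 ∣ N') (h3 : ℓ = 3 → 2 ∣ N')
    (hν2 : nuTwo N' = 0) (hν3 : nuThree N' = 0)
    (Pl : Place (IsLocalRing.ResidueField A) (FresBar (N' * ℓ) A))
    (hPl : ContainsC hℓN hA Pl)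
    [Algebra (BRingK0 N' ℓ A h) R]
    [IsLocalization.AtPrime R (centreP (A := A) h hℓN hA (primeL hℓN hA Pl hPl))]
    -- the cover
    (hrank : Module.finrank F₀ K0 = p)
    (ι' : K0 →+* F')
    (R₁ : RedData Kc F' (IsLocalRing.ResidueField A) (FresBar (N' * ℓ) A)) (hun₁ : Unram R₁)
    (R₂ : RedData Kc F' (IsLocalRing.ResidueField A) (FresBar (N' * ℓ) A))
    (θ₀ : K0) (hint : IsIntegral R θ₀) {d : ℕ} (hd : ¬ p ∣ d)
    -- the sheets over branch 1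
    (Oh₁ : ValuationSubring L₁) (jj₁ : F₀ →+* L₁) (e₁ : ZMod p → (F' →+* L₁))
    (he₁ : ∀ (i : ZMod p) (a : F₀), e₁ i (ι' (algebraMap F₀ K0 a)) = jj₁ a)
    (hjR₁ : ∀ r : R, jj₁ (algebraMap R F₀ r) ∈ Oh₁) (hpO₁ : (p : L₁) ∈ Oh₁.nonunits)
    (j₁ : ZMod p) (hRw₁ : ∀ z : F', z ∈ R₁.Rw ↔ e₁ j₁ z ∈ Oh₁) (a₁ : R)
    (hres₁ : ∀ i : ZMod p,
      e₁ i (ι' θ₀) - jj₁ (algebraMap R F₀ (SplitAsm.sheetRes p d a₁ i)) ∈ Oh₁.nonunits)
    (hρB₁ : ∀ (b : BRingK0 N' ℓ A h)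
      (hb : ι' (algebraMap R K0 (algebraMap (BRingK0 N' ℓ A h) R b)) ∈ R₁.Rw),
      R₁.red ⟨_, hb⟩ =
        fresInclInv hℓN hA (algebraMap (CRing N' A) (FresBar N' A) (redC1K0 h hℓN hA b)))
    -- the sheets over branch 2
    (Oh₂ : ValuationSubring L₂) (jj₂ : F₀ →+* L₂) (e₂ : ZMod p → (F' →+* L₂))
    (he₂ : ∀ (i : ZMod p) (a : F₀), e₂ i (ι' (algebraMap F₀ K0 a)) = jj₂ a)
    (hjR₂ : ∀ r : R, jj₂ (algebraMap R F₀ r) ∈ Oh₂) (hpO₂ : (p : L₂) ∈ Oh₂.nonunits)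
    (j₂ : ZMod p) (hRw₂ : ∀ z : F', z ∈ R₂.Rw ↔ e₂ j₂ z ∈ Oh₂) (a₂ : R)
    (hres₂ : ∀ i : ZMod p,
      e₂ i (ι' θ₀) - jj₂ (algebraMap R F₀ (SplitAsm.sheetRes p d a₂ i)) ∈ Oh₂.nonunits)
    (hρB₂ : ∀ (b : BRingK0 N' ℓ A h)
      (hb : ι' (algebraMap R K0 (algebraMap (BRingK0 N' ℓ A h) R b)) ∈ R₂.Rw),
      R₂.red ⟨_, hb⟩ =
        fresInclInv hℓN hA (algebraMap (CRing N' A) (FresBar N' A) (redC2K0 h hℓN hA b)))
    -- the point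
    (hmeet : ¬ IsUnit (a₁ + (j₁.val : R) - (a₂ + (j₂.val : R))))
    (m : ℕ) (u : K0) (hu0 : u ≠ 0) (hu1 : IsU R₁ (ι' u)) (hu2 : IsU R₂ (ι' u))
    (hhor : ∀ V : ValuationSubring K0, IsDiscreteValuationRing V →
      (∀ r : R, algebraMap R K0 r ∈ V) → θ₀ ∈ V →
      (algebraMap R K0 (algebraMap (BRingK0 N' ℓ A h) R (NodeRingK0.ellB h)))⁻¹ ∈ V →
      ∃ z : K0, z ≠ 0 ∧ u * z ^ m ∈ V ∧ (u * z ^ m)⁻¹ ∈ V) :
    (m : ℤ) ∣ ordRed R₁ hun₁ Pl (ι' u) := by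
  letI := algCFres (ℓ := ℓ) hℓN hA
  haveI := algCFres_frac (ℓ := ℓ) hℓN hA
  by_cases hnode : IsNodeP h hℓN hA (primeL hℓN hA Pl hPl)
  · obtain ⟨y₁, y₂, s, c, hs, hc, hy₁, hy₁0, hgen₁, hy₂, hy₂0, hgen₂, hth⟩ :=
      thickness_one_prime h hℓN hA h2 h3 hν2 hν3 (primeL hℓN hA Pl hPl) hnode
    exact SheetAsm.nl0_of_sheets (centreP (A := A) h hℓN hA (primeL hℓN hA Pl hPl))
      (redC1K0 h hℓN hA) (redC1K0_surjective h hℓN hA h2 h3)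
      (primeL hℓN hA Pl hPl).asIdeal rfl (primeL hℓN hA Pl hPl).ne_bot
      (redC2K0 h hℓN hA) (redC2K0_surjective hℓN hA h2 h3)
      (P2P h hℓN hA h2 h3 (primeL hℓN hA Pl hPl) hnode).asIdeal
      (comap_P2P h hℓN hA h2 h3 (primeL hℓN hA Pl hPl) hnode)
      (P2P h hℓN hA h2 h3 (primeL hℓN hA Pl hPl) hnode).ne_bot
      y₁ y₂ (NodeRingK0.ellB h) s c hy₁ hy₂ hy₁0 hy₂0 hgen₁ hgen₂ hs hc hth
      hrank ι' R₁ hun₁ R₂ Pl θ₀ hint hd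
      Oh₁ jj₁ e₁ he₁ hjR₁ hpO₁ j₁ hRw₁ a₁ hres₁ (fun b hb => hρB₁ b hb)
      Oh₂ jj₂ e₂ he₂ hjR₂ hpO₂ j₂ hRw₂ a₂ hres₂ (fun b hb => hρB₂ b hb)
      (hvE_level hℓN hA Pl hPl) hmeet m u hu0 hu1 hu2 hhor
  · obtain ⟨y₁, s, c, hs, hc, hy₁, hy₁0, hgen₁, hth⟩ :=
      thickness_one_prime_typeI h hℓN hA h2 h3 hν2 hν3 (primeL hℓN hA Pl hPl) hnode
    exact SheetAsm.nl0_of_sheets_typeI (centreP (A := A) h hℓN hA (primeL hℓN hA Pl hPl))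
      (redC1K0 h hℓN hA) (redC1K0_surjective h hℓN hA h2 h3)
      (primeL hℓN hA Pl hPl).asIdeal rfl (primeL hℓN hA Pl hPl).ne_bot
      y₁ (NodeRingK0.ellB h) s c hy₁ hy₁0 hgen₁ hs hc hth
      hrank ι' R₁ hun₁ Pl θ₀ hint hd
      Oh₁ jj₁ e₁ he₁ hjR₁ hpO₁ j₁ hRw₁ a₁ hres₁ (fun b hb => hρB₁ b hb)
      (hvE_level hℓN hA Pl hPl) m u hu0 hu1 hhor

end Fermat.Agent.GF.KCover.NodeMod.NodeK0Call
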